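import Fermat.Agent.OrdinaryAtP.Conn.Lam

/-!
# The binomial expansion of `(x + c w) ^ p - x ^ p`
-/

set_option autoImplicit false

noncomputable section

namespace Fermat.Agent.OrdinaryAtP.Conn

theorem exists_binom_eq {p : ℕ} [hp : Fact p.Prime] {S : Type*} [CommRing S] [IsDomain S]
    (hp0 : (p : S) ≠ 0) (x w c : S) :
    ∃ R : S, (x + c * w) ^ p - x ^ p =
      (p : S) * c * (x ^ (p - 1) * w + c * R) + c ^ p * w ^ p := by
  obtain ⟨r, hr⟩ := exists_add_pow_prime_eq hp.out (x := Polynomial.C x)
    (y := Polynomial.X * Polynomial.C w)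
  obtain ⟨R, hR⟩ := Polynomial.X_dvd_sub_C (p := Polynomial.C (x * w) * r)
  have hev := congrArg (Polynomial.eval c) hr
  simp only [Polynomial.eval_pow, Polynomial.eval_add, Polynomial.eval_mul, Polynomial.eval_C,
    Polynomial.eval_X, Polynomial.eval_natCast] at hev
  have hR' := congrArg (Polynomial.eval c) hR
  simp only [Polynomial.eval_mul, Polynomial.eval_sub, Polynomial.eval_C, Polynomial.eval_X] at hR'
  have hd := congrArg (fun P : Polynomial S => P.derivative.eval 0) hr
  have hp1 : p - 1 ≠ 0 := by have := hp.out.two_le; omega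
  simp only [Polynomial.derivative_pow, Polynomial.derivative_add, Polynomial.derivative_mul,
    Polynomial.derivative_C, Polynomial.derivative_X, Polynomial.derivative_natCast,
    Polynomial.eval_pow, Polynomial.eval_add, Polynomial.eval_mul, Polynomial.eval_C,
    Polynomial.eval_X, Polynomial.eval_natCast,
    zero_mul, mul_zero, add_zero, zero_add, one_mul, zero_pow hp1] at hd
  have h0 : (Polynomial.C (x * w) * r).coeff 0 = x ^ (p - 1) * w := by
    refine mul_left_cancel₀ hp0 ?_
    rw [Polynomial.coeff_C_mul, Polynomial.coeff_zero_eq_eval_zero]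
    linear_combination -hd
  rw [h0] at hR'
  refine ⟨R.eval c, ?_⟩
  rw [mul_comm c w] at hev ⊢
  linear_combination hev + (p : S) * c * hR'

end Fermat.Agent.OrdinaryAtP.Conn

end
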