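import Fermat.Agent.OrdinaryAtP.Conn.KMRoot
import Fermat.Agent.OrdinaryAtP.Conn.Binom
import Fermat.Agent.Semistable.Principal

/-!
# Approximation of the sections of a radical by functions

A pair of series with `p`-th power a function of the level is congruent modulo `λ` to a function,
and if two sections of a Kummer class are congruent to functions deeper than `λ` the class is
trivial.
-/

set_option autoImplicit false
set_option linter.unusedSectionVars false

noncomputable section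

namespace Fermat.Agent.OrdinaryAtP.Conn

open ModularCurve AlgebraicCurve
open Fermat.Agent.Semistable
open Arith (QBar)

/-- Shortcut: the search through `LaurentSeries` is slow. -/
local instance instAlgebraFBApprox (N : ℕ) :
    Algebra QBar (FB N) := inferInstance

section Pairs

/-- Shortcut: the search through `LaurentSeries` is slow. -/
local instance instAlgebraResLSerApprox (A : ValuationSubring QBar) :
    Algebra (Res A) (LaurentSeries (Res A)) := inferInstance

variable {A : ValuationSubring QBar}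

/-- The pair of series is integral with reductions `r`. -/
def HasRed (A : ValuationSubring QBar) (z : Fin 2 → LSer)
    (r : Fin 2 → LaurentSeries (Res A)) : Prop :=
  ∀ s, ∃ h : z s ∈ locS A, redL A ⟨z s, h⟩ = r s

/-- Constant pairs. -/
def cc : QBar →+* (Fin 2 → LSer) := RingHom.pi fun _ => algebraMap QBar LSer

theorem cc_apply (c : QBar) (s : Fin 2) : cc c s = algebraMap QBar LSer c := rfl

variable {z z' : Fin 2 → LSer} {r r' : Fin 2 → LaurentSeries (Res A)}

theorem HasRed.add (h : HasRed A z r) (h' : HasRed A z' r') : HasRed A (z + z') (r + r') := by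
  intro s
  obtain ⟨a, ha⟩ := h s
  obtain ⟨b, hb⟩ := h' s
  refine ⟨add_mem a b, ?_⟩
  show _ = r s + r' s
  rw [← ha, ← hb, ← map_add (redL A)]
  rfl

theorem HasRed.sub (h : HasRed A z r) (h' : HasRed A z' r') : HasRed A (z - z') (r - r') := by
  intro s
  obtain ⟨a, ha⟩ := h s
  obtain ⟨b, hb⟩ := h' s
  refine ⟨sub_mem a b, ?_⟩
  show _ = r s - r' s
  rw [← ha, ← hb, ← map_sub (redL A)]
  rfl

theorem HasRed.mul (h : HasRed A z r) (h' : HasRed A z' r') : HasRed A (z * z') (r * r') := by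
  intro s
  obtain ⟨a, ha⟩ := h s
  obtain ⟨b, hb⟩ := h' s
  refine ⟨mul_mem a b, ?_⟩
  show _ = r s * r' s
  rw [← ha, ← hb, ← map_mul (redL A)]
  rfl

theorem HasRed.pow (h : HasRed A z r) (n : ℕ) : HasRed A (z ^ n) (r ^ n) := by
  intro s
  obtain ⟨a, ha⟩ := h s
  refine ⟨pow_mem a n, ?_⟩
  show _ = r s ^ n
  rw [← ha, ← map_pow (redL A)]
  rfl

theorem HasRed.cc {c : QBar} (hc : c ∈ A) :
    HasRed A (cc c) fun _ => algebraMap (Res A) _ (IsLocalRing.residue A ⟨c, hc⟩) :=
  fun _ => ⟨algebraMap_mem_locS hc, redL_algebraMap hc⟩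

theorem HasRed.cc_zero {c : A} (hc : IsLocalRing.residue A c = 0) :
    HasRed A (Conn.cc (c : QBar)) 0 := by
  intro s
  obtain ⟨h1, h2⟩ := HasRed.cc c.2 s
  exact ⟨h1, by rw [h2]; show algebraMap (Res A) _ (IsLocalRing.residue A c) = _; rw [hc, map_zero]; rfl⟩

theorem HasRed.mul_cc_zero {c : A} (hc : IsLocalRing.residue A c = 0) (h : HasRed A z r) :
    HasRed A (Conn.cc (c : QBar) * z) 0 := by
  simpa using (HasRed.cc_zero hc).mul h

theorem HasRed.congr (h : HasRed A z r) (hz : z = z') (hr : r = r') : HasRed A z' r' :=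
  hz ▸ hr ▸ h

end Pairs

variable {A : ValuationSubring QBar} {M : ℕ} [NeZero M] {p : ℕ} [hp : Fact p.Prime]
  [CharP (Res A) p] [FF.IsFunctionField (Res A) (KM A M)] (h : Setup A M p)
  {ζ : QBarˣ} (hζ : IsPrimitiveRoot ζ p)

/-- Functions as pairs of series. -/
def emb : FB (p * M) →+* (Fin 2 → LSer) :=
  RingHom.pi fun s => (iota2 M p h.hqM s).toRingHom

theorem emb_apply (x : FB (p * M)) (s : Fin 2) : emb h x s = iota2 M p h.hqM s x := rfl

theorem emb_algebraMap (c : QBar) : emb h (algebraMap QBar (FB (p * M)) c) = cc c :=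
  funext fun s => (iota2 M p h.hqM s).commutes c

theorem hasRed_emb (x : loc2 A (iota2 M p h.hqM)) :
    HasRed A (emb h x) (red2 A (iota2 M p h.hqM) x) :=
  fun s => ⟨(mem_loc2 _).mp x.2 s, rfl⟩

theorem mem_Bn_of_hasRed {x : FB (p * M)} {n : ℕ} {r : Fin 2 → LaurentSeries (Res A)}
    (hx : x ∈ HN M p n) (hr : HasRed A (emb h x) r) : r ∈ Bn A M p h.hqM n :=
  mem_redSub.mpr ⟨⟨x, (mem_loc2 _).mpr fun s => (hr s).1⟩, hx, funext fun s => (hr s).2⟩

/-- The thresholds hold from `n` on. -/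
structure Deep (n : ℕ) : Prop where
  descend : ∀ m, n ≤ m → ∀ r ∈ Bn A M p h.hqM m, r ∈ Pk A M p n → r ∈ Bn A M p h.hqM n
  glue : ∀ m, n ≤ m → glued h 1 m = Bn A M p h.hqM m

theorem exists_deep_level : ∃ n₀, ∀ n, n₀ ≤ n → Deep h n := by
  obtain ⟨a, ha⟩ := h.exists_descend
  obtain ⟨b, hb⟩ := h.exists_glued
  exact ⟨a + b, fun n hn => ⟨ha n (by omega), fun m hm => (hb m (by omega)).2⟩⟩

/-- A pair with `p`-th power among the reductions is a reduction. -/
theorem mem_Bn_of_pow {n : ℕ} (hn : Deep h n) {r : Fin 2 → LaurentSeries (Res A)}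
    (hr : r ^ p ∈ Bn A M p h.hqM (p * n)) : r ∈ Bn A M p h.hqM n := by
  have := Arith.residueField_isAlgClosed A
  have : ExpChar (Res A) p := ExpChar.prime hp.out
  have hP := (mem_Pk A M).mp (Bn_le_Pk M p h.hqM h.hA h.hM _ hr)
  have key : ∀ (s : Fin 2) (k : ℕ), (r ^ p) s ∈ HkS A M (p * k) →
      ∃ hm : r s ∈ KM A M, (⟨r s, hm⟩ : KM A M) ∈ Hk A M k := by
    intro s k hk
    obtain ⟨hm, hk'⟩ := (mem_HkS A M).mp hk
    refine ⟨mem_KM_of_pow_mem hm, root_mem_polesSpace hp.out.ne_zero ?_⟩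
    convert hk' using 1
    exact Subtype.ext rfl
  obtain ⟨hm0, hk0⟩ := key 0 n hP.1
  obtain ⟨hm1, hk1⟩ := key 1 (p * n) hP.2
  set a : Rk A M := ⟨⟨r 0, hm0⟩, n, hk0⟩
  set b : Rk A M := ⟨⟨r 1, hm1⟩, p * n, hk1⟩
  have hpn : n ≤ p * n := Nat.le_mul_of_pos_left n hp.out.pos
  rw [← hn.glue _ hpn] at hr
  obtain ⟨a', b', -, -, e, hg⟩ := h.mem_glued.mp hr
  obtain rfl : a ^ p = a' := serR_injective (by
    rw [map_pow]; exact (congrFun e 0))
  obtain rfl : b ^ p = b' := serR_injective (by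
    rw [map_pow]; exact (congrFun e 1))
  rw [← hn.glue n le_rfl]
  refine h.mem_glued.mpr ⟨a, b, hk0, hk1, funext fun s => by fin_cases s <;> rfl, fun χ => ?_⟩
  have h1 := hg χ
  rw [Pi.one_apply, one_mul, map_pow, map_pow] at h1
  rw [Pi.one_apply, one_mul]
  exact frobenius_inj (Res A) p h1

include h in
/-- A pair which is no function is a function plus a small multiple of a pair with new
reduction. -/
theorem exists_approx {n : ℕ} {z : Fin 2 → LSer} {rz : Fin 2 → LaurentSeries (Res A)}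
    (hz : HasRed A z rz) (hrz : rz ∈ Bn A M p h.hqM n) (hne : ∀ v ∈ HN M p n, emb h v ≠ z) :
    ∃ (v : FB (p * M)) (c : A) (w : Fin 2 → LSer) (r : Fin 2 → LaurentSeries (Res A)),
      v ∈ HN M p n ∧ (c : QBar) ≠ 0 ∧ IsLocalRing.residue A c = 0 ∧ HasRed A (emb h v) rz ∧
        HasRed A w r ∧ r ∉ Bn A M p h.hqM n ∧ z = emb h v + cc (c : QBar) * w := by
  classical
  set ι := iota2 M p h.hqM
  set W := (HN M p n).map (embLin ι)
  have : FiniteDimensional QBar W :=
    Module.Finite.equiv (Submodule.equivMapOfInjective (embLin ι) (embLin_injective ι) _)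
  set V := W ⊔ QBar ∙ z
  have hzW : z ∉ W := by
    rintro ⟨v, hv, e⟩
    exact hne v hv e
  have hlt : W < V := by
    refine lt_of_le_of_ne le_sup_left fun e => hzW ?_
    rw [e]
    exact Submodule.mem_sup_right (Submodule.mem_span_singleton_self z)
  have hfr : ∀ x ∈ V, ∀ s, x s ∈ fracS A := by
    intro x hx s
    obtain ⟨y, ⟨v, -, rfl⟩, y', hy', rfl⟩ := Submodule.mem_sup.mp hx
    obtain ⟨α, rfl⟩ := Submodule.mem_span_singleton.mp hy'
    refine add_mem (iota2_fracS M p h.hqM s v) ?_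
    rw [Pi.smul_apply, smul_eq_algebraMap_mul]
    exact mul_mem (algebraMap_mem_fracS α) (locS_le_fracS (hz s).1)
  obtain ⟨-, hVd⟩ := finrank_redImage h.hA hp.out V hfr
  obtain ⟨hWf, hWd⟩ := finrank_redImage h.hA hp.out W
    (fun x hx => hfr x (Submodule.mem_sup_left hx))
  have hnle : ¬ redImage A V ≤ redImage A W := by
    intro hle
    have e := Submodule.finrank_mono hle
    rw [hVd, hWd] at e
    exact absurd (Submodule.finrank_lt_finrank_of_lt hlt) (not_lt.mpr e)
  obtain ⟨r, ⟨x, hx, hxl, rfl⟩, hr⟩ := SetLike.not_le_iff_exists.mp hnle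
  obtain ⟨y, ⟨v₀, hv₀, rfl⟩, y', hy', rfl⟩ := Submodule.mem_sup.mp hx
  obtain ⟨α, rfl⟩ := Submodule.mem_span_singleton.mp hy'
  set x := embLin ι v₀ + α • z
  set r := fun s => redL A ⟨x s, hxl s⟩
  have hxr : HasRed A x r := fun s => ⟨hxl s, rfl⟩
  have hrB : r ∉ Bn A M p h.hqM n := hr
  have hxe : x = emb h v₀ + cc α * z := funext fun s => by
    show ι s v₀ + (α • z) s = ι s v₀ + algebraMap QBar LSer α * z s
    rw [Pi.smul_apply, smul_eq_algebraMap_mul]
    rfl
  have hα : α ≠ 0 := by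
    rintro rfl
    refine hrB (mem_Bn_of_hasRed h hv₀ ?_)
    exact hxr.congr (by rw [hxe, map_zero, zero_mul, add_zero]) rfl
  set v := algebraMap QBar (FB (p * M)) (-α⁻¹) * v₀
  have hv : v ∈ HN M p n := by
    show algebraMap QBar (FB (p * M)) (-α⁻¹) * v₀ ∈ _
    rw [← Algebra.smul_def]
    exact Submodule.smul_mem _ _ hv₀
  have hαc : cc α⁻¹ * cc α = 1 := by rw [← map_mul, inv_mul_cancel₀ hα, map_one]
  have hze : z = emb h v + cc α⁻¹ * x := by
    rw [hxe, map_mul, emb_algebraMap, map_neg]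
    linear_combination -z * hαc
  have hαA : α⁻¹ ∈ A := by
    by_contra hc
    have hm : α ∈ A.nonunits := by
      rw [ValuationSubring.mem_nonunits_iff]
      rw [← A.valuation_le_one_iff, map_inv₀, not_le] at hc
      exact (one_lt_inv₀ (zero_lt_iff.mpr ((Valuation.ne_zero_iff _).mpr hα))).mp hc
    have hαA : α ∈ A := A.nonunits_subset hm
    refine hrB (mem_Bn_of_hasRed h hv₀ ?_)
    have := hxr.sub ((HasRed.cc_zero (c := ⟨α, hαA⟩)
      ((Semistable.residue_eq_zero_iff hαA).mpr hm)).mul hz)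
    exact this.congr (by rw [hxe]; ring) (by simp)
  have hvr0 := hz.sub ((HasRed.cc hαA).mul hxr)
  set rc : Fin 2 → LaurentSeries (Res A) :=
    fun _ => algebraMap (Res A) _ (IsLocalRing.residue A ⟨α⁻¹, hαA⟩)
  have hvr : HasRed A (emb h v) (rz - rc * r) := hvr0.congr (by rw [hze]; ring) rfl
  have hc0 : IsLocalRing.residue A (⟨α⁻¹, hαA⟩ : A) = 0 := by
    by_contra hc
    have hB := sub_mem hrz (mem_Bn_of_hasRed h hv hvr)
    rw [sub_sub_cancel] at hB
    have := Submodule.smul_mem _ (IsLocalRing.residue A (⟨α⁻¹, hαA⟩ : A))⁻¹ hB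
    refine hrB (?_ : r ∈ Bn A M p h.hqM n)
    convert this using 1
    funext s
    rw [Pi.smul_apply, Pi.mul_apply, ← HahnSeries.C_mul_eq_smul]
    show r s = _ * (algebraMap (Res A) _ _ * r s)
    rw [← mul_assoc, algebraMap_laurentSeries_eq_single]
    show r s = HahnSeries.C _ * HahnSeries.C _ * r s
    rw [← map_mul, inv_mul_cancel₀ hc, map_one, one_mul]
  refine ⟨v, ⟨α⁻¹, hαA⟩, x, r, hv, inv_ne_zero hα, hc0, ?_, hxr, hrB, hze⟩
  have h0 : rc = 0 := funext fun _ => by
    show algebraMap (Res A) _ (IsLocalRing.residue A (⟨α⁻¹, hαA⟩ : A)) = 0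
    rw [hc0, map_zero]
  exact hvr.congr rfl (by rw [h0, zero_mul, sub_zero])

include h in
/-- The difference of `p`-th powers. -/
theorem exists_pow_sub {x w : Fin 2 → LSer} {rx rw' : Fin 2 → LaurentSeries (Res A)}
    (hx : HasRed A x rx) (hw : HasRed A w rw') {c : A} (hc : IsLocalRing.residue A c = 0) :
    ∃ X : Fin 2 → LSer, HasRed A X (rx ^ (p - 1) * rw') ∧
      (x + cc (c : QBar) * w) ^ p - x ^ p =
        cc (p : QBar) * cc (c : QBar) * X + cc (c : QBar) ^ p * w ^ p := by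
  have hp0 : ((p : ℕ) : locS A) ≠ 0 := fun h0 => by
    have h1 := congrArg (fun u : locS A => (u : LSer)) h0
    simp only [SubringClass.coe_natCast, ZeroMemClass.coe_zero] at h1
    rw [← map_natCast (algebraMap QBar LSer), _root_.map_eq_zero] at h1
    exact hp.out.ne_zero (by exact_mod_cast h1)
  have := fun s => exists_binom_eq hp0 (⟨x s, (hx s).1⟩ : locS A) ⟨w s, (hw s).1⟩
    ⟨_, algebraMap_mem_locS c.2⟩
  choose R hR using this
  have hRr : HasRed A (fun s => (R s : LSer)) (fun s => redL A (R s)) := fun s => ⟨(R s).2, rfl⟩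
  refine ⟨_, ((hx.pow (p - 1)).mul hw).add (hRr.mul_cc_zero hc) |>.congr rfl (add_zero _),
    funext fun s => ?_⟩
  have e := congrArg (fun u : locS A => (u : LSer)) (hR s)
  push_cast at e
  simp only [Pi.sub_apply, Pi.add_apply, Pi.mul_apply, Pi.pow_apply, cc_apply, map_natCast]
  exact e

theorem residue_pow_zero {c : A} (hc : IsLocalRing.residue A c = 0) :
    IsLocalRing.residue A (c ^ (p - 1)) = 0 := by
  rw [map_pow, hc, zero_pow (Nat.sub_ne_zero_of_lt hp.out.one_lt)]

theorem pow_eq_mul_pred {R : Type*} [Monoid R] (x : R) : x ^ p = x ^ (p - 1) * x := by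
  rw [← pow_succ, Nat.sub_add_cancel hp.out.one_le]

include hζ in
/-- The approximating constant is divisible by `λ`. -/
theorem lam_dvd_of_pow {n : ℕ} (hn : Deep h n) {z : Fin 2 → LSer} {F v : FB (p * M)}
    (hF : F ∈ HN M p (p * n)) (hzp : z ^ p = emb h F) (hv : v ∈ HN M p n) {c : A}
    (hc0 : (c : QBar) ≠ 0) (hc : IsLocalRing.residue A c = 0) {rv : Fin 2 → LaurentSeries (Res A)}
    (hvr : HasRed A (emb h v) rv) {w : Fin 2 → LSer} {r : Fin 2 → LaurentSeries (Res A)}
    (hw : HasRed A w r) (hr : r ∉ Bn A M p h.hqM n) (hz : z = emb h v + cc (c : QBar) * w) :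
    lam hζ ∣ c := by
  by_contra hdvd
  have hv' : A.valuation ((lam hζ : A) : QBar) < A.valuation (c : QBar) :=
    lt_of_not_ge fun hle => hdvd (dvd_of_valuation_le (lam_ne_zero hζ) hle)
  obtain ⟨m, hm⟩ := dvd_of_valuation_le hc0 hv'.le
  have hm0 : IsLocalRing.residue A m = 0 := by
    by_contra hm0
    obtain ⟨u, rfl⟩ := (IsLocalRing.residue_ne_zero_iff_isUnit m).mp hm0
    exact hdvd ⟨((u⁻¹ : Aˣ) : A), by rw [hm, mul_assoc, Units.mul_inv, mul_one]⟩
  set e : A := rho hζ * m ^ (p - 1) with he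
  have he0 : IsLocalRing.residue A e = 0 := by rw [he, map_mul, residue_pow_zero hm0, mul_zero]
  have hpc : (p : QBar) * (c : QBar) = (e : QBar) * (c : QBar) ^ p := by
    have h1 := congrArg (fun u : A => (u : QBar)) (rho_mul_lam_pow hζ (A := A))
    simp only [hm, he] at h1 ⊢
    push_cast at h1 ⊢
    rw [← h1, pow_eq_mul_pred (p := p) (c : QBar), mul_pow]
    ring
  obtain ⟨X, hX, hXe⟩ := exists_pow_sub h hvr hw hc
  rw [← hz, hzp, ← map_pow, ← map_sub, ← map_mul cc, hpc, map_mul, map_pow] at hXe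
  refine hr (mem_Bn_of_pow h hn (mem_Bn_of_hasRed h
    (x := algebraMap QBar _ ((c : QBar) ^ p)⁻¹ * (F - v ^ p)) ?_ ?_))
  · rw [← Algebra.smul_def]
    exact Submodule.smul_mem _ _ (sub_mem hF (pow_mem_polesSpace hv p))
  · have h1 := (hX.mul_cc_zero he0).add (hw.pow p)
    rw [zero_add] at h1
    refine h1.congr ?_ rfl
    rw [map_mul, emb_algebraMap, hXe]
    have h2 : cc ((c : QBar) ^ p)⁻¹ * cc (c : QBar) ^ p = 1 := by
      rw [← map_pow, ← map_mul, inv_mul_cancel₀ (pow_ne_zero _ hc0), map_one]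
    linear_combination -(cc (e : QBar) * X + w ^ p) * h2

include hζ in
/-- For an approximation deeper than `λ`, the new reduction times a power of the old is a
reduction. -/
theorem mul_pow_mem_Bn {n : ℕ} {z : Fin 2 → LSer} {F v : FB (p * M)}
    (hF : F ∈ HN M p (p * n)) (hzp : z ^ p = emb h F) (hv : v ∈ HN M p n) {k : A}
    (hk0 : (k : QBar) ≠ 0) (hk : IsLocalRing.residue A k = 0) {rv : Fin 2 → LaurentSeries (Res A)}
    (hvr : HasRed A (emb h v) rv) {w : Fin 2 → LSer} {r : Fin 2 → LaurentSeries (Res A)}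
    (hw : HasRed A w r) (hz : z = emb h v + cc ((lam hζ * k : A) : QBar) * w) :
    rv ^ (p - 1) * r ∈ Bn A M p h.hqM (p * n) := by
  set c : A := lam hζ * k with hcdef
  have hc : IsLocalRing.residue A c = 0 := by rw [hcdef, map_mul, hk, mul_zero]
  have hc0 : (c : QBar) ≠ 0 := by
    rw [hcdef, MulMemClass.coe_mul]; exact mul_ne_zero (lam_ne_zero hζ) hk0
  obtain ⟨ρ', hρ⟩ := (isUnit_rho hζ (A := A)).exists_left_inv
  set e : A := ρ' * k ^ (p - 1) with he
  have he0 : IsLocalRing.residue A e = 0 := by rw [he, map_mul, residue_pow_zero hk, mul_zero]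
  have hcp : (c : QBar) ^ p = (e : QBar) * ((p : QBar) * (c : QBar)) := by
    have h1 : c ^ p = e * ((p : A) * c) := by
      rw [pow_eq_mul_pred (p := p) c, ← rho_mul_lam_pow hζ, he, hcdef, mul_pow]
      linear_combination -(lam hζ ^ (p - 1) * k ^ (p - 1) * (lam hζ * k)) * hρ
    have h2 := congrArg (fun u : A => (u : QBar)) h1
    push_cast at h2
    exact h2
  obtain ⟨X, hX, hXe⟩ := exists_pow_sub h hvr hw hc
  rw [← hz, hzp, ← map_pow, ← map_sub, ← map_pow, ← map_mul cc, hcp, map_mul] at hXe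
  refine mem_Bn_of_hasRed h
    (x := algebraMap QBar _ ((p : QBar) * (c : QBar))⁻¹ * (F - v ^ p)) ?_ ?_
  · rw [← Algebra.smul_def]
    exact Submodule.smul_mem _ _ (sub_mem hF (pow_mem_polesSpace hv p))
  · have h1 := hX.add ((hw.pow p).mul_cc_zero he0)
    rw [add_zero] at h1
    refine h1.congr ?_ rfl
    rw [map_mul, emb_algebraMap, hXe]
    have h2 : cc ((p : QBar) * (c : QBar))⁻¹ * cc ((p : QBar) * (c : QBar)) = 1 := by
      rw [← map_mul, inv_mul_cancel₀ (mul_ne_zero (by exact_mod_cast hp.out.ne_zero) hc0), map_one]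
    simp only [map_mul] at h2 ⊢
    linear_combination -(X + cc (e : QBar) * w ^ p) * h2

end Fermat.Agent.OrdinaryAtP.Conn

end
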