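import Fermat.Agent.OrdinaryAtP.Collapse
import Fermat.Agent.OrdinaryAtP.Fixed
import Fermat.Agent.FiniteFlat.GalOrderOps
import Fermat.Agent.Mazur.Eisenstein.Connected
import Fermat.Agent.Semistable.Valued

/-!
# Congruent algebras from Galois orders

An inertia stable subgroup of the square of a group with a Galois order, all of whose components
are congruent to the origin, carries a congruent algebra over the fixed ring.
-/

set_option autoImplicit false
set_option linter.unusedSectionVars false
set_option linter.style.haveILetI false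

noncomputable section

namespace Fermat.Agent.OrdinaryAtP.Conn

open Fermat.Agent.Arith Fermat.Agent.FiniteFlat Fermat.Agent.Mazur.Eisenstein

variable {p : ℕ} [hp : Fact p.Prime] {M : Type} [AddCommGroup M] [DistribMulAction GQ M] [Finite M]
  {A : ValuationSubring QBar} (hA : A.LiesOverPrime p) (O : GalOrder p M)

include hA in
theorem zl_mem_fixRing (c : Zl p) : ((c : ℚ) : QBar) ∈ fixRing A :=
  ⟨coe_zl_mem hA hp.out c, fun τ _ => map_ratCast τ _⟩

/-- Functions on the subgroup congruent at all points. -/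
def congSub (G : Type) [AddZeroClass G] : Subalgebra (fixRing A) (G → QBar) where
  carrier := {f | (∀ m, f m ∈ A) ∧ ∀ m, f m - f 0 ∈ A.nonunits}
  mul_mem' {f g} := fun ⟨hf, hf'⟩ ⟨hg, hg'⟩ => ⟨fun m => mul_mem (hf m) (hg m), fun m => by
    have h1 := (Arith.residue_eq_iff (x := ⟨_, hf m⟩) (y := ⟨_, hf 0⟩)).mpr (hf' m)
    have h2 := (Arith.residue_eq_iff (x := ⟨_, hg m⟩) (y := ⟨_, hg 0⟩)).mpr (hg' m)
    exact (Arith.residue_eq_iff (x := (⟨_, hf m⟩ : A) * ⟨_, hg m⟩) (y := ⟨_, hf 0⟩ * ⟨_, hg 0⟩)).mp
      (by rw [map_mul, map_mul, h1, h2])⟩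
  add_mem' {f g} := fun ⟨hf, hf'⟩ ⟨hg, hg'⟩ => ⟨fun m => add_mem (hf m) (hg m), fun m => by
    rw [Pi.add_apply, Pi.add_apply, add_sub_add_comm]
    exact nonunits_add (hf' m) (hg' m)⟩
  algebraMap_mem' w := ⟨fun _ => w.2.1, fun m => by
    rw [show algebraMap (fixRing A) (G → QBar) w m - algebraMap (fixRing A) (G → QBar) w 0 = 0 from
      sub_self _, ← Semistable.residue_eq_zero_iff (zero_mem A)]
    exact map_zero _⟩

/-- Equivariant functions form a subalgebra over the fixed ring. -/
def equivSub {G : Type} (act : A.inertiaSubgroupIn ℚ → G ≃ G) :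
    Subalgebra (fixRing A) (G → QBar) where
  carrier := {f | ∀ (τ : A.inertiaSubgroupIn ℚ) m, f (act τ m) = (τ : GQ) (f m)}
  mul_mem' {f g} hf hg τ m := by simp [hf τ m, hg τ m]
  add_mem' {f g} hf hg τ m := by simp [hf τ m, hg τ m]
  algebraMap_mem' w τ _ := (fixed_apply w τ.2).symm

include hA in
/-- **The congruent algebra.** -/
theorem exists_congruentAlgebra (G : AddSubgroup (M × M))
    (hG : ∀ g ∈ G, ∀ f ∈ O.H, f g.1 - f 0 ∈ A.nonunits ∧ f g.2 - f 0 ∈ A.nonunits)
    (act : A.inertiaSubgroupIn ℚ → G ≃ G)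
    (hact : ∀ τ (g : G), ((act τ g : G) : M × M) = (τ : GQ) • (g : M × M)) :
    Nonempty (CongruentAlgebra (G := G) (fixRing A)
      (fun τ : A.inertiaSubgroupIn ℚ => ((τ : GQ) : QBar ≃+* QBar)) act p) := by
  classical
  set P := O.prod O
  let res : (M × M → QBar) →ₐ[Zl p] (G → QBar) := GalOrder.precomp p Subtype.val
  let S : Submonoid (G → QBar) := P.H.toSubmonoid.map res.toMonoidHom
  set H := Algebra.adjoin (fixRing A) (S : Set (G → QBar)) with hH
  have hS : ∀ f ∈ P.H, res f ∈ H := fun f hf => Algebra.subset_adjoin ⟨f, hf, rfl⟩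
  obtain ⟨n, gen, hgen⟩ := Module.Finite.exists_fin (R := Zl p) (M := P.H)
  set gv : Fin n → G → QBar := fun k => res (gen k : P.H)
  have hspan : Subalgebra.toSubmodule H = Submodule.span (fixRing A) (Set.range gv) := by
    rw [hH, Algebra.adjoin_eq_span, Submonoid.closure_eq]
    refine le_antisymm (Submodule.span_le.mpr ?_) (Submodule.span_mono ?_)
    · rintro _ ⟨f, hf, rfl⟩
      obtain ⟨c, hc⟩ := (Submodule.mem_span_range_iff_exists_fun (Zl p)).mp
        (hgen ▸ Submodule.mem_top : (⟨f, hf⟩ : P.H) ∈ Submodule.span (Zl p) (Set.range gen))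
      refine (Submodule.mem_span_range_iff_exists_fun (fixRing A)).mpr
        ⟨fun k => ⟨((c k : ℚ) : QBar), zl_mem_fixRing hA (c k)⟩, funext fun g => ?_⟩
      have h1 := congrArg (fun z : P.H => (z : M × M → QBar) (g : M × M)) hc
      simp only [AddSubmonoidClass.coe_finsetSum, SetLike.val_smul, Finset.sum_apply,
        Pi.smul_apply, zl_smul] at h1
      simp only [gv, Finset.sum_apply, Pi.smul_apply, Subring.smul_def, smul_eq_mul]
      exact h1
    · rintro _ ⟨k, rfl⟩
      exact ⟨(gen k : P.H), (gen k).2, rfl⟩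
  have hcong : H ≤ congSub (A := A) G := by
    refine Algebra.adjoin_le ?_
    rintro _ ⟨f, hf, rfl⟩
    let T : Subalgebra (Zl p) (M × M → QBar) :=
      { carrier := {f | res f ∈ congSub (A := A) G}
        mul_mem' := fun {f g} hf hg => by
          show res (f * g) ∈ congSub (A := A) G
          rw [map_mul]; exact mul_mem hf hg
        add_mem' := fun {f g} hf hg => by
          show res (f + g) ∈ congSub (A := A) G
          rw [map_add]; exact add_mem hf hg
        algebraMap_mem' := fun c => by
          show res (algebraMap (Zl p) _ c) ∈ congSub (A := A) G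
          have e : res (algebraMap (Zl p) _ c) =
              algebraMap (fixRing A) (G → QBar) ⟨((c : ℚ) : QBar), zl_mem_fixRing hA c⟩ := by
            funext g
            show algebraMap (Zl p) QBar c = _
            rw [IsScalarTower.algebraMap_apply (Zl p) ℚ QBar, eq_ratCast]
            rfl
          rw [e]
          exact Subalgebra.algebraMap_mem _ _ }
    refine (sup_le ?_ ?_ : _ ≤ T) hf
    · rintro _ ⟨g, hg, rfl⟩
      exact ⟨fun m => apply_mem hA hp.out O hg _, fun m => (hG _ m.2 g hg).1⟩
    · rintro _ ⟨g, hg, rfl⟩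
      exact ⟨fun m => apply_mem hA hp.out O hg _, fun m => (hG _ m.2 g hg).2⟩
  refine ⟨
    { H := H
      fin := Module.Finite.iff_fg.mpr
        (show (Subalgebra.toSubmodule H).FG from hspan ▸ Submodule.fg_span (Set.finite_range gv))
      frac := fun x hx => exists_mul_mem_fixRing hA hp.out fun τ hτ => hx ⟨τ, hτ⟩
      fixed := fun w τ => fixed_apply w τ.2
      equivariant := ?_
      separates := fun m m' hm => Subtype.ext (P.separates _ _ fun f hf => hm _ (hS f hf))
      integral := fun f hf m hm => ⟨(hcong hf).1 m, fun τ hτ => hm ⟨τ, hτ⟩⟩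
      congr := ?_
      comul := ?_ }⟩
  · intro f hf τ m
    refine (Algebra.adjoin_le ?_ : H ≤ equivSub act) hf τ m
    rintro _ ⟨g, hg, rfl⟩ τ m
    show g (act τ m : M × M) = _
    rw [hact]
    exact P.equivariant g hg _ _
  · intro f hf m a b ha hb
    refine natCast_dvd_of_resW_eq_zero hA hp.out (resW_eq_zero_iff.mpr ?_)
    rw [AddSubgroupClass.coe_sub, ← ha, ← hb]
    exact (hcong hf).2 m
  · intro f hf
    have hf' : f ∈ Submodule.span (fixRing A) (Set.range gv) := hspan ▸ hf
    obtain ⟨c, rfl⟩ := (Submodule.mem_span_range_iff_exists_fun (fixRing A)).mp hf'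
    choose N a b ha hb hab using fun k => P.comul _ (gen k).2
    refine ⟨Σ k, Fin (N k), inferInstance, fun t => c t.1 • res (a t.1 t.2),
      fun t => res (b t.1 t.2), fun t => H.smul_mem (hS _ (ha _ _)) _, fun t => hS _ (hb _ _),
      fun x y => ?_⟩
    rw [Fintype.sum_sigma, Finset.sum_apply]
    refine Finset.sum_congr rfl fun k _ => ?_
    simp only [gv, Pi.smul_apply, Subring.smul_def, smul_eq_mul, mul_assoc, ← Finset.mul_sum]
    congr 1
    exact hab k x y

end Fermat.Agent.OrdinaryAtP.Conn

end
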