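import Fermat.Agent.NewformLocal.Toric.NormRed
import Fermat.Agent.Semistable.Torsion
import Fermat.Agent.JacTorsion.Kummer

/-!
# The two degeneracy maps on torsion classes

Through Kummer functions: the norms to level `M` of a function and of its image under the
involution. They commute with Galois and vanish exactly when both norms are powers.
-/

set_option autoImplicit false
set_option linter.unusedSectionVars false
set_option linter.style.haveILetI false

noncomputable section

namespace Fermat.Agent.OrdinaryAtP.Conn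

open ModularCurve AlgebraicCurve
open Fermat.Agent.Semistable
open Fermat.Agent.NewformLocal.Toric (normUp)
open Fermat.Agent.JacTorsion
open Arith (QBar GQ)

/-- Shortcut: the search through `LaurentSeries` is slow. -/
local instance instAlgebraFBDegeneracy (N : ℕ) :
    Algebra QBar (FB N) := inferInstance

section Level

variable {N : ℕ} [NeZero N] {m : ℕ}

/-- The function behind an element of `divGrp`. -/
abbrev fnOf (f : divGrp QBar (FB N) m) : FB N := ((f : (FB N)ˣ) : FB N)

theorem ord_divQuot [NeZero m] (f : divGrp QBar (FB N) m) (v : Place QBar (FB N)) :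
    v.ord (fnOf f) = (m : ℤ) * divQuot f v := by
  rw [← JacTorsion.div_apply (K := QBar) (fnOf f) v, ← smul_divQuot f, Finsupp.smul_apply,
    smul_eq_mul]

theorem divQuot_eq_of_ord [NeZero m] (f : divGrp QBar (FB N) m) {D : Divisor QBar (FB N)}
    (hD : ∀ v, v.ord (fnOf f) = (m : ℤ) * D v) : divQuot f = D := by
  refine eq_of_smul_eq (m := m) (Finsupp.ext fun v => ?_)
  rw [Finsupp.smul_apply, Finsupp.smul_apply, smul_eq_mul, smul_eq_mul, ← ord_divQuot, hD]

theorem ord_galF_level (σ : GQ) (x : FB N) (v : Place QBar (FB N)) :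
    v.ord (galF N σ x) = ((arithmeticGalois (L := AlgebraicClosure ℚ) (modularFunctionFieldFull N) σ)⁻¹ • v).ord x := by
  have h1 := SemilinearAut.ord_smul (arithmeticGalois (L := AlgebraicClosure ℚ) (modularFunctionFieldFull N) σ)
    ((arithmeticGalois (L := AlgebraicClosure ℚ) (modularFunctionFieldFull N) σ)⁻¹ • v) x
  rwa [smul_inv_smul] at h1

/-- Galois on Kummer functions. -/
def galU (σ : GQ) (f : divGrp QBar (FB N) m) : divGrp QBar (FB N) m :=
  ⟨Units.map (galF N σ).toRingHom.toMonoidHom (f : (FB N)ˣ), fun v => by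
    show (m : ℤ) ∣ v.ord (galF N σ (fnOf f))
    rw [ord_galF_level]
    exact f.2 _⟩

theorem fnOf_galU (σ : GQ) (f : divGrp QBar (FB N) m) : fnOf (galU σ f) = galF N σ (fnOf f) := rfl

theorem smul_toTorsion [NeZero m] (σ : GQ) (f : divGrp QBar (FB N) m) :
    σ • ((toTorsion (Additive.ofMul f)).1 : JZero N) = (toTorsion (Additive.ofMul (galU σ f))).1 := by
  refine (SemilinearAut.pic0_smul_mk _ _).trans (congrArg Pic0.mk (Subtype.ext ?_))
  show arithmeticGalois (L := AlgebraicClosure ℚ) (modularFunctionFieldFull N) σ • divQuot f = divQuot (galU σ f)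
  refine (divQuot_eq_of_ord _ fun v => ?_).symm
  rw [fnOf_galU, ord_galF_level, ord_divQuot, SemilinearAut.divisor_smul_apply]

theorem toTorsion_eq_zero_iff_pow [NeZero m] (f : divGrp QBar (FB N) m) :
    toTorsion (Additive.ofMul f) = 0 ↔ ∃ g : FB N, fnOf f = g ^ m := by
  rw [toTorsion_eq_zero_iff]
  constructor
  · rintro ⟨g, hg⟩
    rw [powMonoidHom_apply] at hg
    exact ⟨g, by rw [← Units.val_pow_eq_pow_val, hg]; rfl⟩
  · rintro ⟨g, hg⟩
    have hg0 : g ≠ 0 := fun h0 => Units.ne_zero (f : (FB N)ˣ) (by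
      rw [h0, zero_pow (NeZero.ne m)] at hg; exact hg)
    exact ⟨Units.mk0 g hg0, Units.ext (by rw [powMonoidHom_apply, Units.val_pow_eq_pow_val]; exact hg.symm)⟩

end Level

variable {M : ℕ} [NeZero M] {p : ℕ} [hp : Fact p.Prime] (hpM : ¬ p ∣ M) {m : ℕ} [NeZero m]

variable (p M m) in
/-- The norm on Kummer functions. -/
def normU : divGrp QBar (FB (p * M)) m →* divGrp QBar (FB M) m :=
  ((Units.map (normUp p M)).comp (divGrp QBar (FB (p * M)) m).subtype).codRestrict _ fun f v => by
    have h := FF.ord_norm_along (upF M p) (FF.isIntegralAlong (upF M p)) v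
      (Units.ne_zero (f : (FB (p * M))ˣ))
    show (m : ℤ) ∣ v.ord (normUp p M (fnOf f))
    exact h ▸ Finset.dvd_sum fun w _ => (f.2 w).mul_right _

theorem fnOf_normU (f : divGrp QBar (FB (p * M)) m) :
    fnOf (normU M p m f) = normUp p M (fnOf f) := rfl

theorem ord_wEquiv_level (v : Place QBar (FB (p * M))) (x : FB (p * M)) :
    v.ord (wEquiv p M hpM x) =
      ((SemilinearAut.ofAlgAut (wEquiv p M hpM))⁻¹ • v).ord x := by
  have := SemilinearAut.ord_smul (SemilinearAut.ofAlgAut (wEquiv p M hpM))
    ((SemilinearAut.ofAlgAut (wEquiv p M hpM))⁻¹ • v) x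
  rwa [smul_inv_smul, SemilinearAut.ofAlgAut_smul] at this

variable (m) in
/-- The involution on Kummer functions. -/
def wU : divGrp QBar (FB (p * M)) m →* divGrp QBar (FB (p * M)) m :=
  ((Units.map (wEquiv p M hpM).toAlgHom.toRingHom.toMonoidHom).comp
    (divGrp QBar (FB (p * M)) m).subtype).codRestrict _ fun f v => by
      show (m : ℤ) ∣ v.ord (wEquiv p M hpM (fnOf f))
      rw [ord_wEquiv_level]
      exact f.2 _

theorem fnOf_wU (f : divGrp QBar (FB (p * M)) m) :
    fnOf (wU hpM m f) = wEquiv p M hpM (fnOf f) := rfl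

theorem galF_normUp (σ : GQ) (x : FB (p * M)) :
    normUp p M (galF (p * M) σ x) = galF M σ (normUp p M x) := by
  letI := algebraAlong (upF M p)
  have e := Algebra.norm_eq_of_equiv_equiv (galF M σ) (galF (p * M) σ)
    (RingHom.ext fun z => (galF_upF M p σ z).symm) x
  show Algebra.norm (FB M) _ = galF M σ (Algebra.norm (FB M) x)
  rw [e, RingEquiv.apply_symm_apply]

variable (p M m) in
/-- The pair of norms, on classes. -/
def degMap : Pic0.torsion QBar (FB (p * M)) m →+
    Pic0.torsion QBar (FB M) m × Pic0.torsion QBar (FB M) m :=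
  AddMonoidHom.comp
    (MonoidHom.toAdditiveLeft <| QuotientGroup.lift (powGrp QBar (FB (p * M)) m)
      (AddMonoidHom.toMultiplicativeRight <|
        ((toTorsion.comp (normU M p m).toAdditive).prod
          (toTorsion.comp ((normU M p m).comp (wU hpM m)).toAdditive))) (by
        rintro f ⟨g, hg⟩
        rw [powMonoidHom_apply] at hg
        have hf : fnOf f = (g : FB (p * M)) ^ m := by
          rw [← Units.val_pow_eq_pow_val, hg]; rfl
        refine congrArg Multiplicative.ofAdd (Prod.ext ?_ ?_)
        · exact (toTorsion_eq_zero_iff_pow _).mpr ⟨normUp p M g, by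
            show fnOf (normU M p m f) = _
            rw [fnOf_normU, hf, map_pow]⟩
        · exact (toTorsion_eq_zero_iff_pow _).mpr ⟨normUp p M (wEquiv p M hpM g), by
            show fnOf (normU M p m (wU hpM m f)) = _
            rw [fnOf_normU, fnOf_wU, hf, map_pow, map_pow]⟩))
    (kummerEquiv QBar (FB (p * M)) m).symm.toAddMonoidHom

theorem degMap_toTorsion (f : divGrp QBar (FB (p * M)) m) :
    degMap M p hpM m (toTorsion (Additive.ofMul f)) =
      (toTorsion (Additive.ofMul (normU M p m f)),
        toTorsion (Additive.ofMul (normU M p m (wU hpM m f)))) := by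
  have e : (kummerEquiv QBar (FB (p * M)) m).symm (toTorsion (Additive.ofMul f)) =
      Additive.ofMul (QuotientGroup.mk f : KummerGrp QBar (FB (p * M)) m) :=
    (AddEquiv.symm_apply_eq _).mpr rfl
  show MonoidHom.toAdditiveLeft _
    ((kummerEquiv QBar (FB (p * M)) m).symm (toTorsion (Additive.ofMul f))) = _
  rw [e]
  rfl

/-- **Galois equivariance.** -/
theorem degMap_smul (σ : GQ) (x : Pic0.torsion QBar (FB (p * M)) m) (y : Pic0.torsion QBar (FB (p * M)) m)
    (hy : (y : JZero (p * M)) = σ • (x : JZero (p * M))) :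
    ((degMap M p hpM m y).1 : JZero M) = σ • ((degMap M p hpM m x).1 : JZero M) ∧
      ((degMap M p hpM m y).2 : JZero M) = σ • ((degMap M p hpM m x).2 : JZero M) := by
  obtain ⟨f, rfl⟩ := toTorsion_surjective x
  obtain ⟨f, rfl⟩ : ∃ f', Additive.ofMul f' = f := ⟨f.toMul, rfl⟩
  obtain rfl : y = toTorsion (Additive.ofMul (galU σ f)) :=
    Subtype.ext (hy.trans (smul_toTorsion σ f))
  rw [degMap_toTorsion, degMap_toTorsion, smul_toTorsion, smul_toTorsion]
  constructor <;> refine congrArg (fun z => ((toTorsion (Additive.ofMul z)).1 : JZero M))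
    (Subtype.ext (Units.ext ?_))
  · show fnOf (normU M p m (galU σ f)) = fnOf (galU σ (normU M p m f))
    rw [fnOf_normU, fnOf_galU, fnOf_galU, galF_normUp, fnOf_normU]
  · show fnOf (normU M p m (wU hpM m (galU σ f))) = fnOf (galU σ (normU M p m (wU hpM m f)))
    rw [fnOf_normU, fnOf_wU, fnOf_galU, fnOf_galU, fnOf_normU, fnOf_wU, ← galF_normUp]
    congr 1
    exact Subtype.ext (by rw [wEquiv_galois, coe_arithmeticRingAut])

end Fermat.Agent.OrdinaryAtP.Conn

end
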