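import Fermat.Agent.OrdinaryAtP.Conn.Strict
import Fermat.Agent.Semistable.LocalTheory

/-!
# Inertia acts on radicals through the cyclotomic character

The first order term of the approximation of a section by a function is multiplied by `a` under
an inertia element with `ζ ↦ ζ ^ a`.
-/

set_option autoImplicit false
set_option linter.unusedSectionVars false

noncomputable section

namespace Fermat.Agent.OrdinaryAtP.Conn

open ModularCurve AlgebraicCurve
open Fermat.Agent.Semistable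
open Arith (QBar GQ)

/-- Shortcut: the search through `LaurentSeries` is slow. -/
local instance instAlgebraResLSerEigen (A : ValuationSubring QBar) :
    Algebra (Res A) (LaurentSeries (Res A)) := inferInstance

/-- Shortcut: the search through `LaurentSeries` is slow. -/
local instance instAlgebraFBEigen (N : ℕ) :
    Algebra QBar (FB N) := inferInstance

/-- Conjugation of pairs of series. -/
def gmap (τ : GQ) : (Fin 2 → LSer) →+* (Fin 2 → LSer) :=
  RingHom.pi fun s => (coeffMap (τ : QBar →+* QBar)).comp (Pi.evalRingHom _ s)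

theorem gmap_apply (τ : GQ) (z : Fin 2 → LSer) (s : Fin 2) :
    gmap τ z s = coeffMap (τ : QBar →+* QBar) (z s) := rfl

theorem gmap_cc (τ : GQ) (c : QBar) : gmap τ (cc c) = cc (τ c) := funext fun _ => by
  rw [gmap_apply, cc_apply, cc_apply, coeffMap_algebraMap]
  rfl

theorem HasRed.gmap {A : ValuationSubring QBar} {τ : GQ} (hτ : τ ∈ A.inertiaSubgroupIn ℚ)
    {z : Fin 2 → LSer} {r : Fin 2 → LaurentSeries (Res A)} (h : HasRed A z r) :
    HasRed A (gmap τ z) r := fun s => by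
  obtain ⟨h1, h2⟩ := h s
  obtain ⟨h3, h4⟩ := (resLift_of_inertia hτ).redL_coeffMap h1
  exact ⟨h3, by rw [show redL A ⟨Conn.gmap τ z s, h3⟩ = _ from h4, coeffMap_id, h2]⟩

variable {A : ValuationSubring QBar} {M : ℕ} [NeZero M] {p : ℕ} [hp : Fact p.Prime]
  [CharP (Res A) p] [FF.IsFunctionField (Res A) (KM A M)] (h : Setup A M p)
  {ζ : QBarˣ} (hζ : IsPrimitiveRoot ζ p)

theorem emb_galF (τ : GQ) (x : FB (p * M)) : emb h (galF (p * M) τ x) = gmap τ (emb h x) := by
  funext s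
  rw [gmap_apply, emb_apply, emb_apply]
  fin_cases s
  · exact coe_arithmeticRingAut τ x
  · refine (iota2_one M p h.hqM _).trans ?_
    rw [wEquiv_galois, coe_arithmeticRingAut]
    exact congrArg _ (iota2_one M p h.hqM x).symm

/-- The pair is a function plus `λ` times a pair with reduction `rz * t`. -/
def HasStep (n : ℕ) (z : Fin 2 → LSer) (rz t : Fin 2 → LaurentSeries (Res A)) : Prop :=
  ∃ v ∈ HN M p n, ∃ e, HasRed A (emb h v) rz ∧ HasRed A e (rz * t) ∧
    z = emb h v + cc ((lam hζ : A) : QBar) * e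

variable {h hζ}

theorem HasStep.mul {n n' : ℕ} {z z' : Fin 2 → LSer}
    {rz rz' t t' : Fin 2 → LaurentSeries (Res A)} (hz : HasStep h hζ n z rz t)
    (hz' : HasStep h hζ n' z' rz' t') : HasStep h hζ (n + n') (z * z') (rz * rz') (t + t') := by
  obtain ⟨v, hv, e, hvr, he, rfl⟩ := hz
  obtain ⟨v', hv', e', hvr', he', rfl⟩ := hz'
  refine ⟨v * v', mul_mem_polesSpace hv hv', emb h v * e' + e * emb h v' +
    cc ((lam hζ : A) : QBar) * (e * e'), by rw [map_mul]; exact hvr.mul hvr', ?_,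
    by rw [map_mul]; ring⟩
  exact (((hvr.mul he').add (he.mul hvr')).add ((he.mul he').mul_cc_zero (residue_lam hζ))).congr
    rfl (by rw [add_zero]; ring)

theorem HasStep.one (n : ℕ) : HasStep h hζ n 1 1 0 := by
  refine ⟨1, one_mem_polesSpace _ _, 0, ?_, fun s => ⟨zero_mem _, ?_⟩, by simp⟩
  · rw [map_one]
    exact fun s => ⟨one_mem _, map_one (redL A)⟩
  · rw [mul_zero]
    exact map_zero (redL A)

theorem HasStep.pow {n : ℕ} {z : Fin 2 → LSer} {rz t : Fin 2 → LaurentSeries (Res A)}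
    (hz : HasStep h hζ n z rz t) :
    ∀ k : ℕ, HasStep h hζ (k * n) (z ^ k) (rz ^ k) ((k : Fin 2 → LaurentSeries (Res A)) * t)
  | 0 => by simpa using HasStep.one (h := h) (hζ := hζ) 0
  | k + 1 => by
    rw [Nat.succ_mul, pow_succ, pow_succ, Nat.cast_succ, add_mul, one_mul]
    exact (hz.pow k).mul hz

theorem HasStep.gmap {n : ℕ} {z : Fin 2 → LSer} {rz t : Fin 2 → LaurentSeries (Res A)}
    (hz : HasStep h hζ n z rz t) {τ : GQ} (hτ : τ ∈ A.inertiaSubgroupIn ℚ) {a : ℕ}
    (hτζ : τ (ζ : QBar) = (ζ : QBar) ^ a) :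
    HasStep h hζ n (Conn.gmap τ z) rz ((a : Fin 2 → LaurentSeries (Res A)) * t) := by
  obtain ⟨v, hv, e, hvr, he, rfl⟩ := hz
  set g : A := ∑ i ∈ Finset.range a, (⟨(ζ : QBar), zeta_mem hζ⟩ : A) ^ i
  have hg : τ ((lam hζ : A) : QBar) = (g : QBar) * ((lam hζ : A) : QBar) := by
    show τ ((ζ : QBar) - 1) = _ * ((ζ : QBar) - 1)
    rw [map_sub, map_one, hτζ, AddSubmonoidClass.coe_finsetSum]
    simp only [SubmonoidClass.coe_pow]
    exact (geom_sum_mul (ζ : QBar) a).symm
  have hgr : IsLocalRing.residue A g = (a : Res A) := by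
    simp only [g, map_sum, map_pow, residue_zeta hζ, one_pow, Finset.sum_const, Finset.card_range, nsmul_eq_mul,
      mul_one]
  refine ⟨galF (p * M) τ v, galF_mem_poles _ (by rw [galF_upF, galF_jM]) hv,
    cc (g : QBar) * Conn.gmap τ e, by rw [emb_galF]; exact hvr.gmap hτ, ?_, ?_⟩
  · refine ((HasRed.cc g.2).mul (he.gmap hτ)).congr rfl (funext fun s => ?_)
    simp only [Pi.mul_apply, Pi.natCast_apply]
    rw [show IsLocalRing.residue A ⟨(g : QBar), g.2⟩ = (a : Res A) from hgr, map_natCast]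
    ring
  · rw [map_add, map_mul, gmap_cc, hg, map_mul, emb_galF]
    ring

theorem HasStep.isStrict {n : ℕ} {z : Fin 2 → LSer} {rz : Fin 2 → LaurentSeries (Res A)}
    (hz : HasStep h hζ n z rz 0) : IsStrict h hζ n z := by
  obtain ⟨v, hv, e, -, he, rfl⟩ := hz
  exact ⟨v, hv, e, he.congr rfl (mul_zero _), rfl⟩

theorem exists_hasStep {n : ℕ} (hn : Deep h n) {z : Fin 2 → LSer}
    {rz : Fin 2 → LaurentSeries (Res A)} (hz : HasRed A z rz) (hrz : rz ∈ Bn A M p h.hqM n)
    (hrz0 : ∀ s, rz s ≠ 0) {F : FB (p * M)} (hF : F ∈ HN M p (p * n)) (hzp : z ^ p = emb h F) :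
    ∃ t, HasStep h hζ n z rz t := by
  by_cases hne : ∀ v ∈ HN M p n, emb h v ≠ z
  · obtain ⟨v, c, w, r, hv, hc0, hc, hvr, hw, hr, hze⟩ := exists_approx h hz hrz hne
    obtain ⟨k, rfl⟩ := lam_dvd_of_pow h hζ hn hF hzp hv hc0 hc hvr hw hr hze
    refine ⟨(fun _ => algebraMap (Res A) _ (IsLocalRing.residue A k)) * r * rz⁻¹, v, hv,
      cc (k : QBar) * w, hvr, ?_, ?_⟩
    · refine ((HasRed.cc k.2).mul hw).congr rfl (funext fun s => ?_)
      simp only [Pi.mul_apply, Pi.inv_apply]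
      have h0 := hrz0 s
      field_simp
    · rw [hze, MulMemClass.coe_mul, map_mul]
      ring
  · push Not at hne
    obtain ⟨v, hv, rfl⟩ := hne
    exact ⟨0, v, hv, 0, hz, fun s => ⟨zero_mem _, by rw [mul_zero]; exact map_zero (redL A)⟩,
      by simp⟩

theorem pow_mem_HD {D : Divisor QBar (FB (p * M))} {n : ℕ} {x : FB (p * M)}
    (hx : x ∈ HD M p D n) : ∀ k : ℕ, x ^ k ∈ HD M p (k • D) (k * n)
  | 0 => by rw [zero_smul, pow_zero, HD_zero]; exact one_mem_polesSpace _ _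
  | k + 1 => by
    rw [succ_nsmul, pow_succ, Nat.succ_mul]
    exact mul_mem_HD (pow_mem_HD hx k) hx

variable {D : Divisor QBar (FB (p * M))} (R : Rooted h D)

/-- The radical of `τ D + k D`. -/
def Rooted.shift {τ : GQ} (hτ : τ ∈ A.inertiaSubgroupIn ℚ) (k : ℕ) :
    Rooted h (galD τ D + k • D) where
  f := galF (p * M) τ R.f * R.f ^ k
  H := gmap τ R.H * R.H ^ k
  b s := R.b s * R.b s ^ k
  ord v := by
    rw [v.ord_mul ((_root_.map_ne_zero _).mpr R.f_ne_zero) (pow_ne_zero _ R.f_ne_zero),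
      ord_galF τ R.ord, FF.ord_pow, R.ord, Finsupp.add_apply, Finsupp.smul_apply, nsmul_eq_mul]
    ring
  pow := by
    rw [mul_pow, ← map_pow, ← pow_mul, mul_comm k p, pow_mul, R.pow, map_mul, map_pow, emb_galF]
  red := ((R.red.gmap hτ).mul (R.red.pow k)).congr rfl (funext fun s => by
    simp only [Pi.mul_apply, Pi.pow_apply, map_mul, map_pow])
  b_ne s := mul_ne_zero (R.b_ne s) (pow_ne_zero _ (R.b_ne s))

include R hζ in
/-- **Inertia multiplies radicals by the cyclotomic character.** -/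
theorem Rooted.galD_add_principal {τ : GQ} (hτ : τ ∈ A.inertiaSubgroupIn ℚ) {a : ℕ}
    (hτζ : τ (ζ : QBar) = (ζ : QBar) ^ a) (ha : a ≤ p) :
    galD τ D + (p - a) • D ∈ Divisor.principal (K := QBar) (F := FB (p * M)) := by
  set R' := R.shift hτ (p - a)
  obtain ⟨n₁, hn₁⟩ := R.exists_sections
  obtain ⟨n₂, hn₂⟩ := R'.exists_sections
  set n := n₁ + n₂
  have hs := hn₁ n (by omega)
  set n' := n + (p - a) * n
  have hp0 : ((p : ℕ) : Fin 2 → LaurentSeries (Res A)) = 0 := funext fun s => by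
    have : CharP (LaurentSeries (Res A)) p :=
      charP_of_injective_algebraMap (algebraMap (Res A) (LaurentSeries (Res A))).injective p
    rw [Pi.natCast_apply, CharP.cast_eq_zero]
    rfl
  have key : ∀ (σ : FB (p * M)) (rz : Fin 2 → LaurentSeries (Res A)), σ ∈ HD M p D n →
      HasRed A (R.sec σ) rz → rz ∈ Bn A M p h.hqM n → (∀ s, rz s ≠ 0) →
      ∃ σ' ∈ HD M p (galD τ D + (p - a) • D) n',
        HasRed A (R'.sec σ') (rz * rz ^ (p - a)) ∧ IsStrict h hζ n' (R'.sec σ') := by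
    intro σ rz hσ hr hrB hr0
    obtain ⟨t, ht⟩ := exists_hasStep (hζ := hζ) hs.deep hr hrB hr0 (pow_mul_mem_HN hσ R.ord)
      (R.sec_pow σ)
    refine ⟨galF (p * M) τ σ * σ ^ (p - a),
      mul_mem_HD (galois_mem_HD τ hσ) (pow_mem_HD hσ _), ?_, ?_⟩
    all_goals
      have e : R'.sec (galF (p * M) τ σ * σ ^ (p - a)) = gmap τ (R.sec σ) * R.sec σ ^ (p - a) := by
        simp only [Rooted.sec, R', Rooted.shift, map_mul, map_pow, emb_galF, mul_pow]
        ring
      rw [e]
    · exact (hr.gmap hτ).mul (hr.pow _)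
    · refine HasStep.isStrict (rz := rz * rz ^ (p - a)) ?_
      have h1 := (ht.gmap hτ hτζ).mul (ht.pow (p - a))
      rw [← add_mul, ← Nat.cast_add, Nat.add_sub_cancel' ha, hp0, zero_mul] at h1
      exact h1
  have hj : jqModC (Res A) ≠ 0 := jqModC_ne_zero_of_nontrivial _
  obtain ⟨σ, hσ, hσr⟩ := hs.low
  obtain ⟨ρ, hρ, hρr⟩ := hs.high
  obtain ⟨σ', hσ', hσr', hσs⟩ := key σ 1 hσ hσr (h.one_mem_Bn n) fun _ => one_ne_zero
  obtain ⟨ρ', hρ', hρr', hρs⟩ := key ρ _ hρ hρr (jPair_mem_Bn h n) fun _ => pow_ne_zero _ hj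
  rw [one_pow, mul_one] at hσr'
  rw [jPair_pow, jPair_mul] at hρr'
  exact R'.principal_of_strict hζ (hn₂ n' (by omega)) hσ' hρ' hσr' hρr' hσs hρs

end Fermat.Agent.OrdinaryAtP.Conn

end
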