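import Fermat.Agent.OrdinaryAtP.Statement
import Fermat.Agent.Semistable.Torsion

/-!
# Moved torsion classes have Kummer functions with constant reductions

At exponent `p`, which may equal the residue characteristic, by scaling a function with the given
divisor and extracting the root of its reductions.
-/

set_option autoImplicit false
set_option linter.unusedSectionVars false

noncomputable section

namespace Fermat.Agent.OrdinaryAtP.Conn

open ModularCurve AlgebraicCurve
open Fermat.Agent.Semistable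
open Arith (QBar GQ)

variable {A : ValuationSubring QBar} {M : ℕ} [NeZero M] {p : ℕ} [hp : Fact p.Prime]
  [CharP (Res A) p] [FF.IsFunctionField (Res A) (KM A M)] {h : Setup A M p}

theorem hasKummer_raise {D : Divisor QBar (FB (p * M))} {m : ℕ} {a : Fin 2 → Res A}
    (hk : HasKummer h D m a) (k : ℕ) : HasKummer h D (m * k) (a ^ k) := by
  obtain ⟨ha, f, hord, hred⟩ := hk
  refine ⟨fun s => pow_ne_zero _ (ha s), f ^ k, fun v => ?_, fun s => ?_⟩
  · rw [SubmonoidClass.coe_pow, FF.ord_pow, hord]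
    push_cast
    ring
  · rw [map_pow, Pi.pow_apply, hred, Pi.pow_apply, map_pow]

variable (h) in
/-- The class has a divisor with a Kummer function of `p`-power exponent. -/
def IsKum (y : JZero (p * M)) : Prop :=
  ∃ (D : Divisor.degZero (K := QBar) (F := FB (p * M))) (n : ℕ) (a : Fin 2 → Res A),
    Pic0.mk D = y ∧ HasKummer h (D : Divisor QBar (FB (p * M))) (p ^ n) a

theorem isKum_of_mem_movedGroup {y : JZero (p * M)} (hy : y ∈ movedGroup A (p * M) p) :
    IsKum h y := by
  induction hy using AddSubgroup.closure_induction with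
  | mem y hy =>
    obtain ⟨τ, hτ, x, n, hx, rfl⟩ := hy
    obtain ⟨D, rfl⟩ := Pic0.mk_surjective x
    have hP := (QuotientAddGroup.eq_zero_iff (p ^ n • D)).mp hx
    rw [AddSubgroup.mem_addSubgroupOf, AddSubgroup.coe_nsmul] at hP
    obtain ⟨f, hf, hord⟩ := hP
    have hord' : ∀ v, v.ord f = ((p ^ n : ℕ) : ℤ) * (D : Divisor QBar (FB (p * M))) v := fun v => by
      rw [← hord v, Finsupp.smul_apply, nsmul_eq_mul]
    obtain ⟨D', hD', eD'⟩ := galois_smul_mk τ D
    obtain ⟨a, hk⟩ := h.hasKummer_inertia hτ hf hord'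
    refine ⟨D' - D, n, a, by rw [hD']; rfl, ?_⟩
    rw [AddSubgroup.coe_sub, eD']
    exact hk
  | zero => exact ⟨0, 0, 1, rfl, HasKummer.zero _⟩
  | add x y _ _ hx hy =>
    obtain ⟨D, n, a, rfl, hk⟩ := hx
    obtain ⟨D', n', a', rfl, hk'⟩ := hy
    refine ⟨D + D', n + n', a ^ p ^ n' * a' ^ p ^ n, rfl, ?_⟩
    rw [AddSubgroup.coe_add, pow_add]
    exact (hasKummer_raise hk _).add (mul_comm (p ^ n') (p ^ n) ▸ hasKummer_raise hk' _)
  | neg x _ hx =>
    obtain ⟨D, n, a, rfl, hk⟩ := hx
    exact ⟨-D, n, a⁻¹, rfl, by rw [AddSubgroup.coe_neg]; exact hk.neg⟩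

/-- **At exponent `p`.** -/
theorem exists_hasKummer {y : JZero (p * M)} (hy : IsKum h y) (hpy : p • y = 0) :
    ∃ (D : Divisor.degZero (K := QBar) (F := FB (p * M))) (a : Fin 2 → Res A),
      Pic0.mk D = y ∧ HasKummer h (D : Divisor QBar (FB (p * M))) p a := by
  have := Arith.residueField_isAlgClosed A
  obtain ⟨D, n, a, rfl, hk⟩ := hy
  refine ⟨D, ?_⟩
  obtain ⟨ha, f, hord, hred⟩ := hasKummer_raise hk p
  set N := p ^ n
  have hN : N ≠ 0 := pow_ne_zero _ hp.out.ne_zero
  have hP := (QuotientAddGroup.eq_zero_iff (p • D)).mp hpy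
  rw [AddSubgroup.mem_addSubgroupOf, AddSubgroup.coe_nsmul] at hP
  obtain ⟨g, hg0, hg⟩ := hP
  obtain ⟨g', b, hb0, hg'ord, hb⟩ := h.exists_root (D := p • (D : Divisor QBar (FB (p * M)))) hN f
    (fun v => by rw [hord, Finsupp.smul_apply, nsmul_eq_mul]; push_cast; ring) (a ^ p) ha hred
    hg0 hg
  exact ⟨b, rfl, hb0, g', fun v => by rw [hg'ord, Finsupp.smul_apply, nsmul_eq_mul], hb⟩

end Fermat.Agent.OrdinaryAtP.Conn

end
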