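import Mathlib.RingTheory.PowerSeries.Inverse
import Mathlib.Algebra.Polynomial.Identities
import Mathlib.Algebra.Polynomial.Derivative

/-!
# A root of a polynomial over power series from a simple root of its constant term
-/

set_option autoImplicit false

noncomputable section

namespace Fermat.Agent.OrdinaryAtP.Conn

/-- A simple root of the constant term extends to a power series root. -/
theorem exists_root_polynomial {R : Type*} [CommRing R] (Q : Polynomial (PowerSeries R)) (v0 : R)
    (h0 : (Q.map PowerSeries.constantCoeff).eval v0 = 0)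
    (hu : IsUnit ((Q.map PowerSeries.constantCoeff).derivative.eval v0)) :
    ∃ V : PowerSeries R, PowerSeries.constantCoeff V = v0 ∧ Q.eval V = 0 := by
  obtain ⟨u, hu⟩ := hu
  let step : (n : ℕ) → (∀ m < n, R) → R := fun n f =>
    if n = 0 then v0 else -(↑u⁻¹ * PowerSeries.coeff n
      (Q.eval (PowerSeries.mk fun m => if h : m < n then f m h else 0)))
  let V : ℕ → R := fun n => Nat.strongRec step n
  have hV : ∀ n, V n = step n (fun m _ => V m) := fun n => Nat.strongRec_eq step n
  have hV0 : V 0 = v0 := by rw [hV]; simp [step]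
  have hc : ∀ (P : Polynomial (PowerSeries R)) (z : PowerSeries R),
      PowerSeries.constantCoeff (P.eval z) =
        (P.map PowerSeries.constantCoeff).eval (PowerSeries.constantCoeff z) := fun P z => by
    rw [Polynomial.eval_map, ← Polynomial.eval₂_at_apply]
  refine ⟨PowerSeries.mk V, by simpa using hV0, PowerSeries.ext fun n => ?_⟩
  rw [map_zero]
  rcases eq_or_ne n 0 with rfl | hn
  · rw [PowerSeries.coeff_zero_eq_constantCoeff_apply, hc,
      show PowerSeries.constantCoeff (PowerSeries.mk V) = v0 by simpa using hV0, h0]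
  set W : PowerSeries R := PowerSeries.mk fun m => if m < n then V m else 0 with hW
  set T : PowerSeries R := PowerSeries.mk fun m => V (n + m) with hT
  have hsplit : PowerSeries.mk V = W + PowerSeries.X ^ n * T := by
    ext m
    rw [map_add, PowerSeries.coeff_X_pow_mul', hW, hT, PowerSeries.coeff_mk, PowerSeries.coeff_mk]
    rcases lt_or_ge m n with h | h
    · simp [h, not_le.mpr h]
    · simp [h, not_lt.mpr h, PowerSeries.coeff_mk]
  obtain ⟨z, hz⟩ := Q.binomExpansion W (PowerSeries.X ^ n * T)
  have hW0 : PowerSeries.constantCoeff W = v0 := by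
    rw [hW, ← PowerSeries.coeff_zero_eq_constantCoeff_apply, PowerSeries.coeff_mk,
      if_pos (Nat.pos_of_ne_zero hn), hV0]
  have hT0 : PowerSeries.constantCoeff T = V n := by
    rw [hT, ← PowerSeries.coeff_zero_eq_constantCoeff_apply, PowerSeries.coeff_mk, add_zero]
  have hstep : V n = -(↑u⁻¹ * PowerSeries.coeff n (Q.eval W)) := by
    rw [hV n]; simp only [step, hn, if_false]
    rw [hW]
    simp
  have e : Q.eval (PowerSeries.mk V) = Q.eval W +
      PowerSeries.X ^ n * (Q.derivative.eval W * T) + PowerSeries.X ^ (n + n) * (z * T ^ 2) := by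
    rw [hsplit, hz]; ring
  rw [e, map_add, map_add, PowerSeries.coeff_X_pow_mul', PowerSeries.coeff_X_pow_mul',
    if_pos le_rfl, if_neg (by omega), Nat.sub_self, PowerSeries.coeff_zero_eq_constantCoeff_apply,
    map_mul, hc, hW0, ← Polynomial.derivative_map, ← hu, hT0, hstep, add_zero, mul_neg, ← mul_assoc,
    Units.mul_inv, one_mul, add_neg_cancel]

end Fermat.Agent.OrdinaryAtP.Conn

end
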