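import Fermat.Agent.RedTorsion.SepCriterion
import Fermat.Agent.RT.MazurP.Regular

/-!
# Roots of reductions

A series over the residue field with `p`-th power in the residual function field lies in it.
-/

set_option autoImplicit false
set_option linter.unusedSectionVars false
set_option linter.style.haveILetI false

noncomputable section

namespace Fermat.Agent.OrdinaryAtP.Conn

open ModularCurve AlgebraicCurve IntermediateField
open Fermat.Agent.Semistable Fermat.Agent.RT.MazurP
open Arith (QBar)

/-- Shortcut: the search through `LaurentSeries` is slow. -/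
local instance instAlgebraResLSerKMRoot (A : ValuationSubring QBar) :
    Algebra (Res A) (LaurentSeries (Res A)) := inferInstance

theorem derivation_aeval {k L F : Type*} [Field k] [Field L] [Algebra k L] [Field F] [Algebra k F]
    (D : L →+ L) (hD : ∀ a b, D (a * b) = a * D b + b * D a) (φ : F →ₐ[k] L)
    (K : IntermediateField k F) (hK : ∀ c ∈ K, D (φ c) = 0) (P : Polynomial K) (x : F) :
    D (φ (Polynomial.aeval x P)) = φ (Polynomial.aeval x P.derivative) * D (φ x) := by
  have hpow : ∀ (a : L) (n : ℕ), D (a ^ n) = (n : L) * a ^ (n - 1) * D a := by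
    intro a n
    induction n with
    | zero =>
      have h1 := hD 1 1
      simp only [mul_one, one_mul, left_eq_add] at h1
      simp [h1]
    | succ n ih =>
      rw [pow_succ, hD, ih]
      rcases n with _ | n
      · simp
      · simp only [Nat.add_sub_cancel]
        push_cast
        ring
  induction P using Polynomial.induction_on' with
  | add P Q hP hQ => simp only [map_add, hP, hQ, add_mul]
  | monomial n c =>
    rw [Polynomial.derivative_monomial, Polynomial.aeval_monomial, Polynomial.aeval_monomial]
    simp only [map_mul, map_pow, map_natCast, hD, hpow]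
    rw [show (algebraMap K F c : F) = (c : F) from rfl, hK c c.2]
    ring

variable {A : ValuationSubring QBar} {M : ℕ} [NeZero M] {p : ℕ} [hp : Fact p.Prime]
  [CharP (Res A) p] [FF.IsFunctionField (Res A) (KM A M)]

/-- The `θ`-constants of the residual function field form a subfield. -/
def thetaConst (A : ValuationSubring QBar) (M : ℕ) : IntermediateField (Res A) (KM A M) where
  carrier := {x | theta (Res A) (x : LaurentSeries (Res A)) = 0}
  one_mem' := by simp
  mul_mem' {x y} hx hy := by
    simp only [Set.mem_ofPred_eq, IntermediateField.coe_mul, Derivation.leibniz] at hx hy ⊢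
    simp [hx, hy]
  zero_mem' := by simp
  add_mem' {x y} hx hy := by
    simp only [Set.mem_ofPred_eq, IntermediateField.coe_add, map_add] at hx hy ⊢
    simp [hx, hy]
  algebraMap_mem' c := by
    show theta (Res A) ((KM A M).val (algebraMap (Res A) (KM A M) c)) = 0
    rw [AlgHom.commutes]
    exact Derivation.map_algebraMap _ c
  inv_mem' x hx := by
    simp only [Set.mem_ofPred_eq, IntermediateField.coe_inv, Derivation.leibniz_inv] at hx ⊢
    simp [hx]

theorem mem_thetaConst {x : KM A M} :
    x ∈ thetaConst A M ↔ theta (Res A) (x : LaurentSeries (Res A)) = 0 := Iff.rfl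

theorem theta_pow_self (r : LaurentSeries (Res A)) : theta (Res A) (r ^ p) = 0 := by
  have : CharP (LaurentSeries (Res A)) p :=
    charP_of_injective_algebraMap (algebraMap (Res A) (LaurentSeries (Res A))).injective p
  rw [Derivation.leibniz_pow, nsmul_eq_mul, CharP.cast_eq_zero, zero_mul]

/-- A series with `p`-th power in the residual function field lies in it. -/
theorem mem_KM_of_pow_mem [IsAlgClosed (Res A)] {r : LaurentSeries (Res A)}
    (h : r ^ p ∈ KM A M) : r ∈ KM A M := by
  set z : KM A M := ⟨r ^ p, h⟩ with hz
  have : CharP (LaurentSeries (Res A)) p :=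
    charP_of_injective_algebraMap (algebraMap (Res A) (LaurentSeries (Res A))).injective p
  have : ExpChar (LaurentSeries (Res A)) p := ExpChar.prime hp.out
  by_cases hy : ∃ y : KM A M, y ^ p = z
  · obtain ⟨y, hy⟩ := hy
    have e : (y : LaurentSeries (Res A)) ^ p = r ^ p := by
      rw [← IntermediateField.coe_pow, hy]
    exact frobenius_inj (LaurentSeries (Res A)) p e ▸ y.2
  push Not at hy
  exfalso
  by_cases hzt : Transcendental (Res A) z
  · haveI := RedTorsion.isSeparable_of_not_pow p hzt hy
    have hK : (Res A)⟮z⟯ ≤ thetaConst A M := by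
      rw [IntermediateField.adjoin_simple_le_iff, mem_thetaConst]
      exact theta_pow_self r
    have hj : theta (Res A) ((jK A M : KM A M) : LaurentSeries (Res A)) = 0 := by
      have h1 := derivation_aeval (AddMonoidHom.mk' (fun u => theta (Res A) u) (map_add _))
        (fun a b => theta_mul (R := Res A) a b) (KM A M).val _
        (fun c hc => mem_thetaConst.mp (hK hc))
        (minpoly (Res A)⟮z⟯ (jK A M)) (jK A M)
      rw [minpoly.aeval, map_zero, map_zero] at h1
      refine (mul_eq_zero.mp h1.symm).resolve_left fun h0 => ?_
      exact (Algebra.IsSeparable.isSeparable (Res A)⟮z⟯ (jK A M)).aeval_derivative_ne_zero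
        (minpoly.aeval _ _) (Subtype.ext h0)
    exact red_theta_jqModC_ne_zero hj
  · have hint : IsIntegral (Res A) z :=
      IsAlgebraic.isIntegral (Classical.not_not.mp hzt)
    obtain ⟨c, hc⟩ := minpoly.degree_eq_one_iff.mp
      (IsAlgClosed.degree_eq_one_of_irreducible (Res A) (minpoly.irreducible hint))
    obtain ⟨d, hd⟩ := IsAlgClosed.exists_pow_nat_eq c hp.out.pos
    exact hy (algebraMap (Res A) (KM A M) d) (by rw [← map_pow, hd, hc])

end Fermat.Agent.OrdinaryAtP.Conn

end
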