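import Fermat.Agent.OrdinaryAtP.Conn.R0

/-!
# Arithmetic of `λ = ζ - 1`
-/

set_option autoImplicit false
set_option linter.unusedSectionVars false

noncomputable section

namespace Fermat.Agent.OrdinaryAtP.Conn

open Fermat.Agent.Semistable
open Arith (QBar)

variable {A : ValuationSubring QBar} {p : ℕ} [hp : Fact p.Prime] [CharP (Res A) p]
  {ζ : QBarˣ} (hζ : IsPrimitiveRoot ζ p)

theorem residue_lam : IsLocalRing.residue A (lam hζ) = 0 := by
  have e : (⟨(ζ : QBar), zeta_mem hζ⟩ : A) ^ p = 1 := Subtype.ext (by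
    rw [SubmonoidClass.coe_pow, OneMemClass.coe_one, ← Units.val_pow_eq_pow_val, hζ.pow_eq_one,
      Units.val_one])
  refine (pow_eq_zero_iff hp.out.ne_zero).mp ?_
  rw [show lam hζ = (⟨(ζ : QBar), zeta_mem hζ⟩ : A) - 1 from rfl, map_sub, map_one,
    sub_pow_char, one_pow, ← map_pow, e, map_one, sub_self]

theorem residue_zeta : IsLocalRing.residue A (⟨(ζ : QBar), zeta_mem hζ⟩ : A) = 1 := by
  have := residue_lam (A := A) hζ
  rwa [show lam hζ = (⟨(ζ : QBar), zeta_mem hζ⟩ : A) - 1 from rfl, map_sub, map_one,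
    sub_eq_zero] at this

/-- `p / λ ^ (p - 1)`. -/
def rho : A :=
  (-1) ^ (p - 1) * ∏ i ∈ Finset.range (p - 1),
    ∑ j ∈ Finset.range (i + 1), (⟨(ζ : QBar), zeta_mem hζ⟩ : A) ^ j

theorem rho_mul_lam_pow : rho hζ * lam hζ ^ (p - 1) = (p : A) := by
  set z : A := ⟨(ζ : QBar), zeta_mem hζ⟩ with hz
  have h1 : ∀ i : ℕ, (∑ j ∈ Finset.range (i + 1), z ^ j) * lam hζ = z ^ (i + 1) - 1 := fun i =>
    geom_sum_mul z (i + 1)
  have e : rho hζ * lam hζ ^ (p - 1) =
      (-1) ^ (p - 1) * ∏ i ∈ Finset.range (p - 1), (z ^ (i + 1) - 1) := by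
    rw [← Finset.prod_congr rfl fun i _ => h1 i, Finset.prod_mul_distrib, Finset.prod_const,
      Finset.card_range, rho, mul_assoc]
  rw [e]
  apply Subtype.ext
  have hp1 : p - 1 + 1 = p := Nat.sub_add_cancel hp.out.one_le
  have h := IsPrimitiveRoot.prod_pow_sub_one_eq_order (n := p - 1) (μ := (ζ : QBar))
    (by rw [hp1]; exact hζ.map_of_injective (f := Units.coeHom QBar) Units.val_injective)
  rw [show ((p - 1 : ℕ) : QBar) + 1 = (p : QBar) by exact_mod_cast hp1] at h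
  push_cast
  exact h

theorem isUnit_rho : IsUnit (rho hζ : A) := by
  rw [← IsLocalRing.residue_ne_zero_iff_isUnit]
  simp only [rho, map_mul, map_pow, map_neg, map_one, map_prod, map_sum, residue_zeta hζ, one_pow,
    Finset.sum_const, Finset.card_range, nsmul_eq_mul, mul_one]
  refine mul_ne_zero (pow_ne_zero _ (neg_ne_zero.mpr one_ne_zero))
    (Finset.prod_ne_zero_iff.mpr fun i hi h => ?_)
  rw [CharP.cast_eq_zero_iff _ p] at h
  have := Nat.le_of_dvd (Nat.succ_pos i) h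
  rw [Finset.mem_range] at hi
  omega

theorem lam_dvd_natCast : (lam hζ : A) ∣ (p : A) := by
  obtain ⟨k, hk⟩ : ∃ k, p - 1 = k + 1 := ⟨p - 2, by have := hp.out.two_le; omega⟩
  exact ⟨rho hζ * lam hζ ^ k, by rw [← rho_mul_lam_pow hζ, hk, pow_succ]; ring⟩

theorem dvd_iff_div_mem {a b : A} (ha : (a : QBar) ≠ 0) : a ∣ b ↔ (b : QBar) / (a : QBar) ∈ A := by
  constructor
  · rintro ⟨c, rfl⟩
    rw [MulMemClass.coe_mul, mul_div_cancel_left₀ _ ha]
    exact c.2
  · intro h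
    exact ⟨⟨_, h⟩, Subtype.ext (mul_div_cancel₀ _ ha).symm⟩

theorem dvd_of_valuation_le {a b : A} (ha : (a : QBar) ≠ 0)
    (h : A.valuation (b : QBar) ≤ A.valuation (a : QBar)) : a ∣ b := by
  rw [dvd_iff_div_mem ha, ← A.valuation_le_one_iff, map_div₀]
  exact (div_le_one₀ (zero_lt_iff.mpr ((Valuation.ne_zero_iff _).mpr ha))).mpr h

theorem valuation_le_of_dvd {a b : A} (h : a ∣ b) :
    A.valuation (b : QBar) ≤ A.valuation (a : QBar) := by
  obtain ⟨c, rfl⟩ := h
  rw [MulMemClass.coe_mul, map_mul]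
  exact mul_le_of_le_one_right zero_le ((A.valuation_le_one_iff _).mpr c.2)

/-- Powers of a nonunit are eventually divisible by any nonzero element. -/
theorem exists_dvd_pow {q : ℕ} (hA : A.LiesOverPrime q) (hq : q.Prime) {m t : A}
    (hm : IsLocalRing.residue A m = 0) (ht : (t : QBar) ≠ 0) : ∃ n : ℕ, t ∣ m ^ n := by
  obtain ⟨n, hn⟩ := exists_pow_valuation_lt hA hq
    ((Semistable.residue_eq_zero_iff m.2).mp hm) ht
  exact ⟨n, dvd_of_valuation_le ht (by rw [SubmonoidClass.coe_pow]; exact hn.le)⟩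

end Fermat.Agent.OrdinaryAtP.Conn

end
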