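import Fermat.Agent.OrdinaryAtP.Conn.Degeneracy
import Fermat.Agent.FiniteFlat.Instance

/-!
# Classes with a Kummer function of constant reduction reduce to zero
-/

set_option autoImplicit false
set_option linter.unusedSectionVars false
set_option linter.style.haveILetI false

noncomputable section

namespace Fermat.Agent.OrdinaryAtP.Conn

open ModularCurve AlgebraicCurve
open Fermat.Agent.Semistable
open Fermat.Agent.JacTorsion
open Arith (QBar GQ)

/-- Shortcut: the search through `LaurentSeries` is slow. -/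
local instance instAlgebraResLSerReduced (A : ValuationSubring QBar) :
    Algebra (Res A) (LaurentSeries (Res A)) := inferInstance

variable {A : ValuationSubring QBar} {M : ℕ} [NeZero M]
  [FF.IsFunctionField (Res A) (modularFunctionFieldFullC (Res A) M)]

theorem redDiv_div_eq_zero (hMA : (M : Res A) ≠ 0) {x : FB M} {κ : Res A} (hκ : κ ≠ 0)
    (hx : (x : LSer) ∈ locS A) (hxr : redL A ⟨(x : LSer), hx⟩ = algebraMap (Res A) _ κ) :
    FiniteFlat.redDiv (FiniteFlat.goodRed hMA) (FF.div QBar x) = 0 := by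
  haveI : IsAlgClosed (Res A) := Arith.residueField_isAlgClosed A
  haveI : FF.IsFunctionField QBar (modularFunctionFieldBar M) := EichlerShimura.isFunctionField_bar
  haveI : FF.IsFunctionField (Res A) (modularFunctionFieldFullC (Res A) M) :=
    RedTorsion.isFunctionField_full (F := modularFunctionFieldFullC (Res A) M) rfl hMA
  obtain ⟨a, b, haF, hbF, hb, hab⟩ := exists_int_frac M hMA hx
  have hra : red A a = algebraMap (Res A) _ κ * red A b := by
    rw [← hxr]; exact (redL_mul_red ⟨_, hx⟩ hb hab).symm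
  have hx0 : x ≠ 0 := by
    rintro rfl
    rw [show (⟨_, hx⟩ : locS A) = 0 from Subtype.ext rfl, map_zero] at hxr
    exact hκ ((_root_.map_eq_zero _).mp hxr.symm)
  have hF : ∀ c : intS A, (c : LSer) ∈ FB M → ∃ z : (FiniteFlat.lattice (N := M) hMA).S,
      ((z : FB M) : LSer) = c ∧ ((FiniteFlat.redF (FiniteFlat.lattice (N := M) hMA) z :
        modularFunctionFieldFullC (Res A) M) : LaurentSeries (Res A)) = red A c := fun c hc => by
    have e : coeffMap A.subtype (toA A c) = (c : LSer) := by ext n; rfl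
    obtain ⟨hm, hr⟩ := FiniteFlat.seriesCompat_lattice hMA (toA A c) (e.symm ▸ hc)
    exact ⟨⟨_, hm⟩, e, hr⟩
  obtain ⟨za, hza, hzar⟩ := hF a haF
  obtain ⟨zb, hzb, hzbr⟩ := hF b hbF
  have hzb0 : FiniteFlat.redF (FiniteFlat.lattice (N := M) hMA) zb ≠ 0 := fun h0 =>
    hb (by rw [← hzbr, h0]; rfl)
  have hr : FiniteFlat.redF (FiniteFlat.lattice (N := M) hMA) za =
      algebraMap (Res A) (modularFunctionFieldFullC (Res A) M) κ *
        FiniteFlat.redF (FiniteFlat.lattice (N := M) hMA) zb :=
    Subtype.ext (by rw [hzar, hra, IntermediateField.coe_mul, hzbr]; rfl)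
  have hκ' := (_root_.map_ne_zero (algebraMap (Res A) (modularFunctionFieldFullC (Res A) M))).mpr hκ
  have hza0 : FiniteFlat.redF (FiniteFlat.lattice (N := M) hMA) za ≠ 0 :=
    hr ▸ mul_ne_zero hκ' hzb0
  have e : x * (zb : FB M) = (za : FB M) :=
    Subtype.ext (by rw [IntermediateField.coe_mul, hzb, hza]; exact hab)
  have h := congrArg (FiniteFlat.redDiv (FiniteFlat.goodRed hMA)) (congrArg (FF.div QBar) e)
  rw [FF.div_mul hx0 fun h0 => hzb0 (by rw [show zb = 0 from Subtype.ext h0, map_zero]), map_add,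
    FiniteFlat.redDiv_div (FiniteFlat.goodRed hMA) zb hzb0,
    FiniteFlat.redDiv_div (FiniteFlat.goodRed hMA) za hza0] at h
  refine add_eq_right.mp (h.trans ((congrArg (FF.div (Res A)) hr).trans ?_))
  refine (FF.div_mul hκ' hzb0).trans (add_eq_right.mpr ?_)
  ext v
  exact FF.ord_algebraMap v _

/-- **The class reduces to zero.** -/
theorem reductionModL_toTorsion_eq_zero (hMA : (M : Res A) ≠ 0) {m : ℕ} [NeZero m]
    (f : divGrp QBar (FB M) m) {κ : Res A} (hκ : κ ≠ 0) (hx : (fnOf f : LSer) ∈ locS A)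
    (hxr : redL A ⟨(fnOf f : LSer), hx⟩ = algebraMap (Res A) _ κ) :
    reductionModL A M ((toTorsion (Additive.ofMul f)).1 : JZero M) = 0 := by
  haveI : IsAlgClosed (Res A) := Arith.residueField_isAlgClosed A
  haveI : FF.IsFunctionField QBar (modularFunctionFieldBar M) := EichlerShimura.isFunctionField_bar
  haveI : FF.IsFunctionField (Res A) (modularFunctionFieldFullC (Res A) M) :=
    RedTorsion.isFunctionField_full (F := modularFunctionFieldFullC (Res A) M) rfl hMA
  refine (FiniteFlat.reductionModL_mk_of_torsion (FiniteFlat.seriesCompat hMA)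
    (EichlerShimura.principalGeneratedByIntegral hMA) ⟨divQuot f, divQuot_mem_degZero f⟩
    (NeZero.ne m) ?_).trans ?_
  · exact Pic0.mem_torsion.mp (toTorsion (Additive.ofMul f)).2
  · have h0 := redDiv_div_eq_zero hMA hκ hx hxr
    rw [← smul_divQuot (K := QBar) f, map_zsmul, smul_eq_zero] at h0
    refine (congrArg Pic0.mk (a₂ := 0) (Subtype.ext ?_)).trans rfl
    exact h0.resolve_left (Int.natCast_ne_zero.mpr (NeZero.ne m))

end Fermat.Agent.OrdinaryAtP.Conn

end
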