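import Fermat.Agent.OrdinaryAtP.Conn.Step
import Fermat.Agent.OrdinaryAtP.Conn.Hensel

/-!
# Two unit series with `p`-th power norms have integral `p`-th roots

If `x_s(q^p) ∏ x_t(ζ^i q)` are `p`-th powers and the `x_s` reduce to constants, the congruences
of the step become deeper than `λ ^ p`, and the binomial equation has an integral root.
-/

set_option autoImplicit false
set_option linter.unusedSectionVars false

noncomputable section

namespace Fermat.Agent.OrdinaryAtP.Conn

open Fermat.Agent.Semistable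
open ModularCurve
open Arith (QBar)

variable {A : ValuationSubring QBar} {p : ℕ} [hp : Fact p.Prime] [CharP (Res A) p]
  {ζ : QBarˣ} (hζ : IsPrimitiveRoot ζ p)

/-- The coefficients of `((1 + λ Z) ^ p - 1) / λ ^ p`. -/
def binCoeff (k : ℕ) : A :=
  if k + 1 = p then 1 else rho hζ * ((p.choose (k + 1) / p : ℕ) : A) * lam hζ ^ k

theorem lam_pow_mul_binCoeff (k : ℕ) (hk : k < p) :
    lam hζ ^ p * binCoeff hζ k = (p.choose (k + 1) : A) * lam hζ ^ (k + 1) := by
  rw [binCoeff]
  split_ifs with h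
  · rw [h, Nat.choose_self, mul_one, Nat.cast_one, one_mul]
  · obtain ⟨c, hc⟩ := hp.out.dvd_choose_self (Nat.succ_ne_zero k) (by omega)
    rw [hc, Nat.mul_div_cancel_left _ hp.out.pos, Nat.cast_mul, ← rho_mul_lam_pow hζ,
      show lam hζ ^ p = lam hζ ^ (p - 1) * lam hζ by
        rw [← pow_succ, Nat.sub_add_cancel hp.out.one_le]]
    ring

/-- `Σ b_k Z^(k+1) - w`. -/
def binPoly {R : Type*} [CommRing R] (b : Fin p → R) (w : R) : Polynomial R :=
  (∑ k : Fin p, Polynomial.C (b k) * Polynomial.X ^ ((k : ℕ) + 1)) - Polynomial.C w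

theorem eval_binPoly {R : Type*} [CommRing R] (b : Fin p → R) (w z : R) :
    (binPoly b w).eval z = (∑ k : Fin p, b k * z ^ ((k : ℕ) + 1)) - w := by
  simp [binPoly, Polynomial.eval_finsetSum]

theorem map_binPoly {R S : Type*} [CommRing R] [CommRing S] (f : R →+* S) (b : Fin p → R) (w : R) :
    (binPoly b w).map f = binPoly (fun k => f (b k)) (f w) := by
  simp [binPoly, Polynomial.map_sum]

theorem derivative_eval_binPoly {R : Type*} [CommRing R] (b : Fin p → R) (w z : R) :
    (binPoly b w).derivative.eval z = ∑ k : Fin p, b k * (((k : ℕ) + 1 : ℕ) : R) * z ^ (k : ℕ) := by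
  simp [binPoly, Polynomial.eval_finsetSum, mul_assoc]

theorem binPoly_monic {R : Type*} [CommRing R] [Nontrivial R] (b : Fin p → R) (w : R)
    (hb : ∀ k : Fin p, (k : ℕ) + 1 = p → b k = 1) :
    (binPoly b w).Monic ∧ (binPoly b w).natDegree = p := by
  classical
  have hc : ∀ n, 0 < n → (binPoly b w).coeff n =
      ∑ k : Fin p, if n = (k : ℕ) + 1 then b k else 0 := fun n hn => by
    simp [binPoly, Polynomial.coeff_C, hn.ne', Polynomial.coeff_X_pow]
  have hp1 : p - 1 < p := Nat.sub_lt hp.out.pos one_pos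
  have hlead : (binPoly b w).coeff p = 1 := by
    rw [hc p hp.out.pos, Finset.sum_eq_single ⟨p - 1, hp1⟩]
    · rw [if_pos (by simp [Nat.sub_add_cancel hp.out.one_le]),
        hb _ (by simp [Nat.sub_add_cancel hp.out.one_le])]
    · exact fun k _ hk => if_neg fun h => hk (Fin.ext (by simp; omega))
    · exact fun h => absurd (Finset.mem_univ _) h
  have hdeg : (binPoly b w).natDegree = p := by
    refine le_antisymm (Polynomial.natDegree_le_iff_coeff_eq_zero.mpr fun n hn => ?_)
      (Polynomial.le_natDegree_of_ne_zero (by rw [hlead]; exact one_ne_zero))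
    rw [hc n (by omega)]
    exact Finset.sum_eq_zero fun k _ => if_neg fun h => by have := k.2; omega
  exact ⟨by rw [Polynomial.Monic, Polynomial.leadingCoeff, hdeg, hlead], hdeg⟩

theorem residue_binCoeff_zero : IsUnit (binCoeff hζ (A := A) 0) := by
  rw [binCoeff, if_neg (by have := hp.out.two_le; omega), Nat.choose_one_right,
    Nat.div_self hp.out.pos, Nat.cast_one, mul_one, pow_zero, mul_one]
  exact isUnit_rho hζ

/-- The constant root. -/
theorem exists_const_root {w : A} (hw : IsLocalRing.residue A w = 0) :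
    ∃ z : A, IsLocalRing.residue A z = 0 ∧
      (binPoly (fun k : Fin p => binCoeff hζ (k : ℕ)) w).eval z = 0 := by
  classical
  set P := binPoly (fun k : Fin p => binCoeff hζ (k : ℕ)) w with hP
  obtain ⟨hm, hd⟩ := binPoly_monic (fun k : Fin p => binCoeff hζ (A := A) (k : ℕ)) w
    (fun k hk => by rw [binCoeff, if_pos hk])
  have hQm := hm.map A.subtype
  have hsplit := IsAlgClosed.splits (P.map A.subtype)
  have hroots : ∀ r ∈ (P.map A.subtype).roots, r ∈ A := by
    intro r hr
    rw [Polynomial.mem_roots hQm.ne_zero, Polynomial.IsRoot] at hr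
    have hint : IsIntegral A r := ⟨P, hm, by
      rw [← Polynomial.eval_map]; exact hr⟩
    obtain ⟨y, hy⟩ := (IsIntegrallyClosed.isIntegral_iff (R := A) (K := QBar)).mp hint
    exact hy ▸ y.2
  by_contra hcon
  push Not at hcon
  have hunit : ∀ r ∈ (P.map A.subtype).roots, A.valuation r = 1 := by
    intro r hr
    refine valuation_eq_one (hroots r hr) fun hn => ?_
    refine hcon ⟨r, hroots r hr⟩ ((Semistable.residue_eq_zero_iff _).mpr hn) (Subtype.ext ?_)
    have := Polynomial.isRoot_of_mem_roots hr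
    rw [Polynomial.IsRoot, show r = A.subtype ⟨r, hroots r hr⟩ from rfl, Polynomial.eval_map,
      Polynomial.eval₂_at_apply] at this
    exact this
  have h0 := hsplit.coeff_zero_eq_prod_roots_of_monic hQm
  have hprod : A.valuation ((P.map A.subtype).roots.prod) = 1 := by
    rw [map_multiset_prod, Multiset.prod_eq_one]
    intro v hv
    obtain ⟨r, hr, rfl⟩ := Multiset.mem_map.mp hv
    exact hunit r hr
  have hc0 : (P.map A.subtype).coeff 0 = -(w : QBar) := by
    rw [Polynomial.coeff_zero_eq_eval_zero, hP, map_binPoly, eval_binPoly]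
    simp
  have h1 := congrArg A.valuation h0
  rw [hc0, Valuation.map_neg, map_mul, map_pow, Valuation.map_neg, map_one, one_pow, one_mul,
    hprod] at h1
  exact ((ValuationSubring.mem_nonunits_iff A).mp
    ((Semistable.residue_eq_zero_iff w.2).mp hw)).ne h1

/-- A root of `(1 + λ Z) ^ p = 1 + λ ^ p w` for an integral series `w` reducing to zero at the
constant term. -/
theorem exists_bin_root (w : R0 A) (hw : IsLocalRing.residue A (coef0 w) = 0) :
    ∃ Z : R0 A, (1 + cst A (lam hζ) * Z) ^ p = 1 + cst A (lam hζ) ^ p * w := by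
  classical
  obtain ⟨z0, hz0, hz0e⟩ := exists_const_root hζ hw
  obtain ⟨L, hL, hwL⟩ := (mem_intS.mp (Subring.mem_inf.mp w.2).1).1
  let L' : IntermediateField ℚ QBar :=
    (L ⊔ IntermediateField.adjoin ℚ {(z0 : QBar)}) ⊔ IntermediateField.adjoin ℚ {(ζ : QBar)}
  have : FiniteDimensional ℚ L' := by
    have := IntermediateField.adjoin.finiteDimensional
      (Algebra.IsIntegral.isIntegral (R := ℚ) (z0 : QBar))
    have := IntermediateField.adjoin.finiteDimensional
      (Algebra.IsIntegral.isIntegral (R := ℚ) (ζ : QBar))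
    infer_instance
  have hζL : (ζ : QBar) ∈ L' :=
    (le_sup_right : IntermediateField.adjoin ℚ {(ζ : QBar)} ≤ L')
      (IntermediateField.mem_adjoin_simple_self ℚ (ζ : QBar))
  have hz0L : (z0 : QBar) ∈ L' :=
    (le_sup_left : L ⊔ IntermediateField.adjoin ℚ {(z0 : QBar)} ≤ L')
      ((le_sup_right : IntermediateField.adjoin ℚ {(z0 : QBar)} ≤ _)
        (IntermediateField.mem_adjoin_simple_self ℚ (z0 : QBar)))
  have hLL : ∀ {a : QBar}, a ∈ L → a ∈ L' := fun ha =>
    (le_sup_left : L ⊔ _ ≤ L') ((le_sup_left : L ≤ _) ha)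
  let R : Subring QBar := A.toSubring ⊓ L'.toSubalgebra.toSubring
  have hbL : ∀ k, ((binCoeff hζ k : A) : QBar) ∈ L' := by
    intro k
    rw [binCoeff]
    split_ifs
    · exact one_mem _
    · simp only [rho, lam]
      push_cast
      exact mul_mem (mul_mem (mul_mem (pow_mem (neg_mem (one_mem _)) _)
        (prod_mem fun i _ => sum_mem fun j _ => pow_mem hζL j)) (natCast_mem _ _))
        (pow_mem (sub_mem hζL (one_mem _)) k)
  let b : Fin p → R := fun k => ⟨(binCoeff hζ (k : ℕ) : A), (binCoeff hζ (k : ℕ)).2, hbL k⟩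
  let W : PowerSeries R := PowerSeries.mk fun n =>
    ⟨(w : LSer).coeff (n : ℤ), coeff_mem_R0 w n, hLL (hwL n)⟩
  let v0 : R := ⟨(z0 : A), z0.2, hz0L⟩
  let j : R →+* A := (Subring.inclusion inf_le_left)
  set Q := binPoly (fun k => PowerSeries.C (b k)) W with hQ
  have hcc : PowerSeries.constantCoeff W = ⟨(w : LSer).coeff 0, coeff_mem_R0 w 0, hLL (hwL 0)⟩ := by
    rw [← PowerSeries.coeff_zero_eq_constantCoeff_apply, PowerSeries.coeff_mk]
    rfl
  have hQ0 : Q.map PowerSeries.constantCoeff = binPoly b (PowerSeries.constantCoeff W) := by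
    rw [hQ, map_binPoly]
    simp
  have h0 : (Q.map PowerSeries.constantCoeff).eval v0 = 0 := by
    refine Subring.inclusion_injective (inf_le_left : R ≤ A.toSubring) ?_
    rw [map_zero, hQ0, eval_binPoly, map_sub, map_sum, hcc]
    rw [eval_binPoly] at hz0e
    exact Eq.trans (congrArg₂ (· - ·) (Finset.sum_congr rfl fun k _ => by
      rw [map_mul, map_pow]; rfl) rfl) hz0e
  have hu : IsUnit ((Q.map PowerSeries.constantCoeff).derivative.eval v0) := by
    set d := (Q.map PowerSeries.constantCoeff).derivative.eval v0 with hd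
    have hres : IsLocalRing.residue A (j d) ≠ 0 := by
      rw [hd, hQ0, derivative_eval_binPoly, map_sum, map_sum,
        Finset.sum_eq_single (⟨0, hp.out.pos⟩ : Fin p)]
      · simp only [pow_zero, mul_one, zero_add, Nat.cast_one]
        exact (IsLocalRing.residue_ne_zero_iff_isUnit _).mpr (residue_binCoeff_zero hζ)
      · intro k _ hk
        have hk0 : (k : ℕ) ≠ 0 := fun h => hk (Fin.ext h)
        rw [map_mul, map_mul, map_pow, map_pow, show j v0 = z0 from Subtype.ext rfl, hz0,
          zero_pow hk0, mul_zero]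
      · exact fun h => absurd (Finset.mem_univ _) h
    obtain ⟨hd0, hdi⟩ := (Arith.notMem_nonunits_iff (j d).2).mp
      fun hn => hres ((Semistable.residue_eq_zero_iff (j d).2).mpr hn)
    exact IsUnit.of_mul_eq_one ⟨((j d : A) : QBar)⁻¹, hdi, L'.inv_mem d.2.2⟩
      (Subtype.ext (mul_inv_cancel₀ hd0))
  obtain ⟨V, -, hV⟩ := exists_root_polynomial Q v0 h0 hu
  let φ : PowerSeries R →+* LSer :=
    (HahnSeries.ofPowerSeries ℤ QBar).comp (PowerSeries.map R.subtype)
  have hcoefφ : ∀ (U : PowerSeries R) (n : ℕ), (φ U).coeff (n : ℤ) = (PowerSeries.coeff n U : R) :=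
    fun U n => by
      show (HahnSeries.ofPowerSeries ℤ QBar (PowerSeries.map R.subtype U)).coeff (n : ℤ) = _
      rw [HahnSeries.ofPowerSeries_apply_coeff, PowerSeries.coeff_map]
      rfl
  have hneg : ∀ (U : PowerSeries R) (n : ℤ), n < 0 → (φ U).coeff n = 0 := fun U n hn =>
    ofPowerSeries_coeff_of_neg _ hn
  have hmem : φ V ∈ R0 A := by
    refine Subring.mem_inf.mpr ⟨mem_intS.mpr ⟨⟨L', inferInstance, fun n => ?_⟩, fun n => ?_⟩,
      hneg V⟩ <;> rcases lt_or_ge n 0 with hn | hn
    · rw [hneg V n hn]; exact zero_mem _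
    · lift n to ℕ using hn with k; rw [hcoefφ]; exact (PowerSeries.coeff k V).2.2
    · rw [hneg V n hn]; exact zero_mem _
    · lift n to ℕ using hn with k; rw [hcoefφ]; exact (PowerSeries.coeff k V).2.1
  have hW : φ W = (w : LSer) := by
    ext n
    rcases lt_or_ge n 0 with hn | hn
    · rw [hneg W n hn, coeff_neg_R0 w hn]
    · lift n to ℕ using hn with k
      rw [hcoefφ, PowerSeries.coeff_mk]
  refine ⟨⟨φ V, hmem⟩, Subtype.ext ?_⟩
  have hφC : ∀ r : R, φ (PowerSeries.C r) = algebraMap QBar LSer (r : QBar) := fun r => by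
    show HahnSeries.ofPowerSeries ℤ QBar (PowerSeries.map R.subtype (PowerSeries.C r)) = _
    rw [PowerSeries.map_C, HahnSeries.ofPowerSeries_C, algebraMap_laurentSeries_eq_single]
    rfl
  have h1 := congrArg φ hV
  rw [hQ, eval_binPoly, map_sub, map_sum, map_zero, sub_eq_zero, hW] at h1
  have hexp : ∀ (x : LSer), (1 + x) ^ p =
      1 + ∑ k : Fin p, (p.choose ((k : ℕ) + 1) : LSer) * x ^ ((k : ℕ) + 1) := by
    intro x
    rw [add_comm (1 : LSer) x, add_pow, Finset.sum_range_succ',
      Finset.sum_range (fun k => x ^ (k + 1) * 1 ^ (p - (k + 1)) * (p.choose (k + 1) : LSer))]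
    simp [add_comm, mul_comm]
  push_cast
  rw [coe_cst, hexp, ← h1, Finset.mul_sum]
  refine congrArg (1 + ·) (Finset.sum_congr rfl fun k _ => ?_)
  rw [map_mul φ, map_pow φ, hφC, mul_pow, ← mul_assoc, ← mul_assoc,
    ← map_natCast (algebraMap QBar LSer), ← map_pow (algebraMap QBar LSer),
    ← map_pow (algebraMap QBar LSer), ← map_mul, ← map_mul]
  congr 2
  have := congrArg (fun a : A => (a : QBar)) (lam_pow_mul_binCoeff hζ (k : ℕ) k.2)
  simp only [MulMemClass.coe_mul, SubmonoidClass.coe_pow] at this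
  exact (by simpa using this.symm)

/-- **Roots.** -/
theorem exists_root (hA : A.LiesOverPrime p) {x gg : Fin 2 → R0 A}
    (hxu : ∀ s, IsUnit (coef0 (x s)))
    (hxc : ∀ (s : Fin 2) (n : ℤ), n ≠ 0 → (x s : LSer).coeff n ∈ A.nonunits)
    (hgg : ∀ s, IsUnit (coef0 (gg s)))
    (hrel : ∀ s, expR A p (x s) * tprod hζ (x (1 - s)) = expR A p (gg s) ^ p) :
    ∀ s, ∃ H : R0 A, H ^ p = x s := by
  classical
  have hc : ∀ s, ∃ c : A, IsUnit c ∧ c ^ p = coef0 (x s) := fun s => by
    obtain ⟨c, hc⟩ := IsAlgClosed.exists_pow_nat_eq ((coef0 (x s) : A) : QBar) hp.out.pos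
    have hcA : c ∈ A := by
      rw [← A.valuation_le_one_iff]
      refine (pow_le_one_iff (n := p) hp.out.ne_zero).mp ?_
      rw [← map_pow, hc]
      exact (A.valuation_le_one_iff _).mpr (coef0 (x s)).2
    refine ⟨⟨c, hcA⟩, ?_, Subtype.ext hc⟩
    rw [← isUnit_pow_iff hp.out.ne_zero (a := (⟨c, hcA⟩ : A)),
      show (⟨c, hcA⟩ : A) ^ p = coef0 (x s) from Subtype.ext hc]
    exact hxu s
  choose c hcu hcp using hc
  -- a common divisor of the deviations from constants
  have hdev : ∀ s, ∃ δ : A, IsLocalRing.residue A δ = 0 ∧ (δ : QBar) ≠ 0 ∧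
      cst A δ ∣ x s - cst A (c s) ^ p := by
    intro s
    set y := x s - cst A (c s) ^ p with hy
    rcases eq_or_ne y 0 with h0 | h0
    · exact ⟨lam hζ, residue_lam hζ, lam_ne_zero hζ, h0 ▸ dvd_zero _⟩
    obtain ⟨m, hm, hmax⟩ := exists_max_coeff hA hp.out (Subring.mem_inf.mp y.2).1
      (fun h => h0 (Subtype.ext h))
    refine ⟨⟨_, coeff_mem_R0 y m⟩, ?_, hm, (cst_dvd_iff hm y).mpr hmax⟩
    rw [Semistable.residue_eq_zero_iff]
    rcases eq_or_ne m 0 with rfl | hm0
    · exfalso
      refine hm ?_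
      have e : coef0 y = 0 := by rw [hy, map_sub, map_pow, coef0_cst, hcp, sub_self]
      exact congrArg Subtype.val e
    · rw [hy, ← map_pow, AddSubgroupClass.coe_sub, HahnSeries.coeff_sub, coe_cst,
        algebraMap_laurentSeries_eq_single, HahnSeries.coeff_single_of_ne hm0, sub_zero]
      exact hxc s m hm0
  choose d hdr hd0 hdd using hdev
  obtain ⟨δ, hδr, hδ0, hδ⟩ : ∃ δ : A, IsLocalRing.residue A δ = 0 ∧ (δ : QBar) ≠ 0 ∧
      ∀ s, δ ∣ d s := by
    rcases le_total (A.valuation (d 0 : QBar)) (A.valuation (d 1 : QBar)) with h | h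
    · exact ⟨d 1, hdr 1, hd0 1, fun s => by
        fin_cases s
        · exact dvd_of_valuation_le (hd0 1) h
        · exact dvd_rfl⟩
    · exact ⟨d 0, hdr 0, hd0 0, fun s => by
        fin_cases s
        · exact dvd_rfl
        · exact dvd_of_valuation_le (hd0 0) h⟩
  obtain ⟨g, hgu, hg⟩ := exists_deep hζ hA hgg (g := fun s => cst A (c s))
    (fun s => by rw [coef0_cst]; exact hcu s) hrel (δ := δ)
    (fun s => (map_dvd _ (hδ s)).trans (hdd s)) hδr hδ0 (lam hζ ^ (p + 1))
    (by push_cast; exact pow_ne_zero _ (lam_ne_zero hζ))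
  intro s
  obtain ⟨v, hv⟩ := hg s
  obtain ⟨gi, hgi⟩ := (isUnit_R0 (hgu s)).exists_right_inv
  obtain ⟨Z, hZ⟩ := exists_bin_root hζ (cst A (lam hζ) * (v * gi ^ p)) (by
    rw [map_mul, coef0_cst, map_mul, residue_lam hζ, zero_mul])
  refine ⟨g s * (1 + cst A (lam hζ) * Z), ?_⟩
  rw [mul_pow, hZ]
  have h3 : g s ^ p * gi ^ p = 1 := by rw [← mul_pow, hgi, one_pow]
  rw [map_pow, pow_succ] at hv
  linear_combination (cst A (lam hζ) ^ p * cst A (lam hζ) * v) * h3 - hv

end Fermat.Agent.OrdinaryAtP.Conn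

end
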