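import Fermat.Agent.OrdinaryAtP.Conn.Strict
import Fermat.Agent.OrdinaryAtP.Conn.RootSeries
import Fermat.Agent.NewformLocal.Toric.NormRed

/-!
# Radicals whose two norms are powers

A Kummer function with constant reductions whose norms to level `M`, before and after the
involution, are `p`-th powers has integral roots of both series.
-/

set_option autoImplicit false
set_option linter.unusedSectionVars false

noncomputable section

namespace Fermat.Agent.OrdinaryAtP.Conn

open ModularCurve AlgebraicCurve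
open Fermat.Agent.Semistable
open Fermat.Agent.NewformLocal.Toric (normUp qExpand_normUp)
open Arith (QBar)

/-- Shortcut: the search through `LaurentSeries` is slow. -/
local instance instAlgebraResLSerRoot (A : ValuationSubring QBar) :
    Algebra (Res A) (LaurentSeries (Res A)) := inferInstance

/-- Shortcut: the search through `LaurentSeries` is slow. -/
local instance instAlgebraFBRoot (N : ℕ) :
    Algebra QBar (FB N) := inferInstance

variable {A : ValuationSubring QBar} {M : ℕ} [NeZero M] {p : ℕ} [hp : Fact p.Prime]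
  [CharP (Res A) p] [FF.IsFunctionField (Res A) (KM A M)] (h : Setup A M p)
  {ζ : QBarˣ} (hζ : IsPrimitiveRoot ζ p)

/-- The two series of a function, exchanged by the involution. -/
theorem iota2_wEquiv (x : FB (p * M)) (s : Fin 2) :
    iota2 M p h.hqM s (wEquiv p M h.hqM x) = iota2 M p h.hqM (1 - s) x := by
  fin_cases s
  · rfl
  · show (wEquiv p M h.hqM (wEquiv p M h.hqM x) : LSer) = (x : LSer)
    rw [wEquiv_wEquiv]

include hζ in
/-- A function integral at infinity with reduction one whose two norms are powers has roots. -/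
theorem exists_root_of_norms {G : loc2 A (iota2 M p h.hqM)}
    (hG : IsIntegral (Algebra.adjoin QBar {upF M p (jM M)⁻¹}) (G : FB (p * M)))
    (hG1 : red2 A (iota2 M p h.hqM) G = 1) {g : Fin 2 → FB M}
    (hg0 : normUp p M (G : FB (p * M)) = g 0 ^ p)
    (hg1 : normUp p M (wEquiv p M h.hqM (G : FB (p * M))) = g 1 ^ p) :
    ∃ H : Fin 2 → LSer, H ^ p = emb h (G : FB (p * M)) ∧ HasRed A H 1 := by
  set x : Fin 2 → R0 A := fun s => ⟨iota2 M p h.hqM s (G : FB (p * M)), h.coeff_at_infty G hG s⟩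
  have hred : ∀ s, red A ⟨(x s : LSer), (Subring.mem_inf.mp (x s).2).1⟩ = 1 := fun s => by
    rw [← redL_of_mem_intS]
    exact congrFun hG1 s
  have hcoef : ∀ (s : Fin 2) (n : ℤ), IsLocalRing.residue A
      ⟨(x s : LSer).coeff n, coeff_mem_R0 (x s) n⟩ = (1 : LaurentSeries (Res A)).coeff n := by
    intro s n
    rw [← hred s, coeff_red]
  have hxu : ∀ s, IsUnit (coef0 (x s)) := fun s => by
    rw [← IsLocalRing.residue_ne_zero_iff_isUnit,
      show coef0 (x s) = ⟨(x s : LSer).coeff 0, coeff_mem_R0 (x s) 0⟩ from Subtype.ext rfl, hcoef s 0]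
    simp
  have hxc : ∀ (s : Fin 2) (n : ℤ), n ≠ 0 → (x s : LSer).coeff n ∈ A.nonunits := fun s n hn => by
    rw [← Semistable.residue_eq_zero_iff (coeff_mem_R0 (x s) n), hcoef s n, HahnSeries.coeff_one,
      if_neg hn]
  set Y : Fin 2 → FB (p * M) := ![(G : FB (p * M)), wEquiv p M h.hqM (G : FB (p * M))]
  have hY : ∀ s, (x s : LSer) = (Y s : LSer) := fun s => by fin_cases s <;> rfl
  have hY' : ∀ s, (x (1 - s) : LSer) = (wEquiv p M h.hqM (Y s) : LSer) := fun s => by
    show iota2 M p h.hqM (1 - s) (G : FB (p * M)) = _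
    rw [← iota2_wEquiv h]
    fin_cases s
    · rfl
    · show iota2 M p h.hqM 1 _ = _
      rfl
  have hg : ∀ s, normUp p M (Y s) = g s ^ p := fun s => by fin_cases s <;> assumption
  have hexp : ∀ s, ∃ y : R0 A, (y : LSer) = (g s : LSer) ^ p ∧ IsUnit (coef0 y) ∧
      expR A p y = expR A p (x s) * tprod hζ (x (1 - s)) := by
    intro s
    obtain ⟨u, hu⟩ := exists_ctr hζ h.hA (x (1 - s))
    refine ⟨x s * u, qExpand_injective p ?_, ?_, by rw [map_mul, hu]⟩
    · have e := qExpand_normUp p M h.hqM hζ (Y s)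
      rw [hg, IntermediateField.coe_pow] at e
      rw [e, Subring.coe_mul, map_mul, ← hY, ← coe_expR u, hu, ← hY']
      congr 1
      show ((∏ i : Fin p, twR (ζ ^ (i : ℕ)) (zeta_pow_pow hζ i) (x (1 - s)) : R0 A) : LSer) = _
      rw [SubmonoidClass.coe_finsetProd]
      rfl
    · rw [map_mul, ← coef0_expR (p := p) u, hu, coef0_tprod]
      exact (hxu s).mul ((hxu (1 - s)).pow p)
  choose y hy hyu hye using hexp
  have hgR : ∀ s, ∃ gg : R0 A, gg ^ p = y s := fun s => by
    set P : Polynomial LSer := Polynomial.X ^ p - Polynomial.C (y s : LSer)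
    have hP : P.Monic := Polynomial.monic_X_pow_sub_C _ hp.out.ne_zero
    have hroot : P.eval (g s : LSer) = 0 := by simp [P, hy]
    have hc : ∀ i, P.coeff i ∈ R0 A := fun i => by
      simp only [P, Polynomial.coeff_sub, Polynomial.coeff_X_pow, Polynomial.coeff_C]
      refine sub_mem ?_ ?_ <;> split_ifs
      · exact one_mem _
      · exact zero_mem _
      · exact (y s).2
      · exact zero_mem _
    refine ⟨⟨(g s : LSer), Subring.mem_inf.mpr
      ⟨mem_intS_of_isIntegral h.hA hp.out (mem_fracS_of_mem (g s)) hP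
          (fun i => (Subring.mem_inf.mp (hc i)).1) hroot,
        coeff_eq_zero_of_isIntegral hP (fun i => (Subring.mem_inf.mp (hc i)).2) hroot⟩⟩,
      Subtype.ext (hy s).symm⟩
  choose gg hgg using hgR
  have hroots := exists_root hζ h.hA hxu hxc (gg := gg) (fun s => by
    rw [← isUnit_pow_iff hp.out.ne_zero, ← map_pow, hgg]; exact hyu s)
    (fun s => by rw [← map_pow, hgg, hye])
  choose H hH using hroots
  refine ⟨fun s => (H s : LSer), funext fun s => ?_, fun s => ?_⟩
  · rw [Pi.pow_apply, emb_apply, ← SubmonoidClass.coe_pow, hH]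
  · have hi : (H s : LSer) ∈ intS A := (Subring.mem_inf.mp (H s).2).1
    refine ⟨intS_le_locS hi, ?_⟩
    have : CharP (LaurentSeries (Res A)) p :=
      charP_of_injective_algebraMap (algebraMap (Res A) (LaurentSeries (Res A))).injective p
    have : ExpChar (LaurentSeries (Res A)) p := ExpChar.prime hp.out
    refine frobenius_inj (LaurentSeries (Res A)) p ?_
    simp only [frobenius_def, Pi.one_apply, one_pow]
    rw [redL_of_mem_intS ⟨_, hi⟩, ← map_pow, ← hred s]
    exact congrArg (red A) (Subtype.ext (by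
      rw [SubmonoidClass.coe_pow]; exact congrArg Subtype.val (hH s)))

include hζ in
/-- **The radical.** -/
theorem exists_rooted {D : Divisor QBar (FB (p * M))} (f : loc2 A (iota2 M p h.hqM))
    (hord : ∀ v, v.ord (f : FB (p * M)) = (p : ℤ) * D v) {a : Fin 2 → Res A} (ha : ∀ s, a s ≠ 0)
    (hred : ∀ s, red2 A (iota2 M p h.hqM) f s = algebraMap (Res A) _ (a s)) {g : Fin 2 → FB M}
    (hg0 : normUp p M (f : FB (p * M)) = g 0 ^ p)
    (hg1 : normUp p M (wEquiv p M h.hqM (f : FB (p * M))) = g 1 ^ p) :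
    Nonempty (Rooted h D) := by
  have := Arith.residueField_isAlgClosed A
  have : ExpChar (Res A) p := ExpChar.prime hp.out
  obtain ⟨c, ⟨n₁, hn₁⟩, hca⟩ := h.exists_isGlue hp.out.ne_zero f hord a ha hred
  have hb : ∀ s, ∃ b : Res A, b ^ p = a s ∧ b ≠ 0 := fun s => by
    obtain ⟨b, hb⟩ := IsAlgClosed.exists_pow_nat_eq (a s) hp.out.pos
    exact ⟨b, hb, fun h0 => ha s (by rw [← hb, h0, zero_pow hp.out.ne_zero])⟩
  choose b hbp hb0 using hb
  have hcb : ∀ χ, b 1 * c χ = b 0 := fun χ => frobenius_inj (Res A) p (by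
    rw [frobenius_def, frobenius_def, mul_pow, hbp, hbp]; exact hca χ)
  obtain ⟨t, htmem, htred⟩ := exists_section_jPair h hn₁ hb0 hcb le_rfl le_rfl
  let u := upParam M h.hqM (⟨(jM M)⁻¹, jM_inv_mem M⟩ : loc2 A (iota1 M))
  have hjk : jqModC (Res A) ≠ 0 := jqModC_ne_zero_of_nontrivial _
  set T := t * u ^ n₁ with hT
  have hTred : ∀ s, red2 A (iota2 M p h.hqM) T s = algebraMap (Res A) _ (b s)⁻¹ := by
    intro s
    rw [hT, map_mul, map_pow, htred, red2_upF, red1_jM_inv, Pi.mul_apply, Pi.pow_apply]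
    have hne : ∀ d : ℕ, jqModC (Res A) ^ d ≠ 0 := fun d => pow_ne_zero d hjk
    fin_cases s
    · simp [jPair, sideDeg, inv_pow]
      field_simp [hne n₁]
    · simp [jPair, sideDeg, ← pow_eq_qExpand_gen_one, inv_pow, ← pow_mul]
      field_simp [hne (p * n₁)]
  set G := T ^ p * f with hG
  have hGint : IsIntegral (Algebra.adjoin QBar {upF M p (jM M)⁻¹}) (G : FB (p * M)) := by
    have h1 := isIntegral_inv_of_mem_poles (pow_mul_mem_HN htmem hord)
    have e : ((t : FB (p * M)) ^ p * (f : FB (p * M))) * (upF M p (jM M))⁻¹ ^ (p * n₁) =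
        (G : FB (p * M)) := by
      show _ = ((t : FB (p * M)) * upF M p (jM M)⁻¹ ^ n₁) ^ p * (f : FB (p * M))
      rw [map_inv₀, mul_pow, ← pow_mul, mul_comm n₁ p]
      ring
    rw [e, ← map_inv₀] at h1
    exact h1
  have hGred : red2 A (iota2 M p h.hqM) G = 1 := by
    funext s
    rw [hG, map_mul, map_pow, Pi.mul_apply, Pi.pow_apply, hTred, hred, ← map_pow, ← map_mul,
      ← hbp s, ← mul_pow, inv_mul_cancel₀ (hb0 s), one_pow, map_one, Pi.one_apply]
  obtain ⟨H, hH, hHr⟩ := exists_root_of_norms h hζ hGint hGred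
    (g := ![normUp p M (T : FB (p * M)) * g 0,
      normUp p M (wEquiv p M h.hqM (T : FB (p * M))) * g 1])
    (by rw [hG, Subring.coe_mul, SubmonoidClass.coe_pow, map_mul, map_pow, hg0]; simp [mul_pow])
    (by rw [hG, Subring.coe_mul, SubmonoidClass.coe_pow, map_mul (wEquiv p M h.hqM), map_pow,
      map_mul (normUp p M), map_pow, hg1]; simp [mul_pow])
  have hT0 : ∀ s, red2 A (iota2 M p h.hqM) T s ≠ 0 := fun s => by
    rw [hTred]; exact (_root_.map_ne_zero _).mpr (inv_ne_zero (hb0 s))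
  have hinv := fun s => inv_mem_locS ((mem_loc2 _).mp T.2 s) (hT0 s)
  refine ⟨⟨(f : FB (p * M)), fun s => H s * (iota2 M p h.hqM s (T : FB (p * M)))⁻¹, b, hord, ?_,
    fun s => ?_, hb0⟩⟩
  · funext s
    have hTs : iota2 M p h.hqM s (T : FB (p * M)) ≠ 0 := fun h0 => hT0 s (by
      rw [red2_apply, redL_congr _ (zero_mem _) h0]; exact map_zero _)
    have e := congrFun hH s
    rw [Pi.pow_apply, emb_apply] at e
    rw [Pi.pow_apply, mul_pow, e, emb_apply, hG, Subring.coe_mul, SubmonoidClass.coe_pow, map_mul,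
      map_pow, inv_pow, mul_comm, ← mul_assoc, inv_mul_cancel₀ (pow_ne_zero _ hTs), one_mul]
  · obtain ⟨h1, h2⟩ := hHr s
    obtain ⟨h3, h4⟩ := hinv s
    refine ⟨mul_mem h1 h3, ?_⟩
    rw [show (⟨_, mul_mem h1 h3⟩ : locS A) = ⟨_, h1⟩ * ⟨_, h3⟩ from rfl, map_mul, h2, h4,
      ← red2_apply, hTred, map_inv₀, inv_inv, Pi.one_apply, one_mul]

end Fermat.Agent.OrdinaryAtP.Conn

end
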