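import Fermat.Agent.OrdinaryAtP.Conn.Eigen
import Fermat.Agent.OrdinaryAtP.Conn.Root
import Fermat.Agent.OrdinaryAtP.Conn.Flat
import Fermat.Agent.OrdinaryAtP.Conn.Reduced
import Fermat.Agent.OrdinaryAtP.Conn.Congruent
import Fermat.Agent.Mazur.Eisenstein.CycInertia
import Fermat.Agent.Mazur.Eisenstein.Inputs

/-!
# No trivial quotient of the moved torsion at level `p M`

On the common kernel of the two degeneracy maps inertia acts through the cyclotomic character,
and the image consists of classes reducing to zero in a Galois order of level `M`.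
-/

set_option autoImplicit false
set_option linter.unusedSectionVars false
set_option linter.style.haveILetI false

noncomputable section

namespace Fermat.Agent.OrdinaryAtP.Conn

open ModularCurve AlgebraicCurve
open Fermat.Agent.Semistable
open Fermat.Agent.JacTorsion
open Arith (QBar GQ)
open scoped Pointwise

/-- Shortcut: the search through `LaurentSeries` is slow. -/
local instance instAlgebraResLSerMain (A : ValuationSubring QBar) :
    Algebra (Res A) (LaurentSeries (Res A)) := inferInstance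

/-- Shortcut: the search through `LaurentSeries` is slow. -/
local instance instAlgebraFBMain (N : ℕ) :
    Algebra QBar (FB N) := inferInstance

variable {A : ValuationSubring QBar} {M : ℕ} [NeZero M] {p : ℕ} [hp : Fact p.Prime]

theorem exists_inertia_inv_zeta (hA : A.LiesOverPrime p) {ζ : QBarˣ} (hζ : IsPrimitiveRoot ζ p) :
    ∃ τ ∈ A.inertiaSubgroupIn ℚ, τ (ζ : QBar) = (ζ : QBar) ^ (p - 1) := by
  obtain ⟨τ, hτ, h⟩ := Mazur.Eisenstein.exists_inertia_inv hA hp.out 1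
  have e : (ζ : QBar) ^ p = 1 := by
    rw [← Units.val_pow_eq_pow_val, hζ.pow_eq_one, Units.val_one]
  refine ⟨τ, hτ, ?_⟩
  rw [h _ (by rw [pow_one]; exact e)]
  refine inv_eq_of_mul_eq_one_left ?_
  rw [← pow_succ, Nat.sub_add_cancel hp.out.one_le, e]

variable (A M p) in
/-- The class of a torsion point with a function of constant reductions. -/
def HasUnitFn [CharP (Res A) p] (hpM : ¬ p ∣ M) (z : Pic0.torsion QBar (FB (p * M)) p) : Prop :=
  ∃ (D : Divisor.degZero (K := QBar) (F := FB (p * M)))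
    (f : divGrp QBar (FB (p * M)) p) (a : Fin 2 → Res A) (hf : fnOf f ∈ loc2 A (iota2 M p hpM)),
    Pic0.mk D = (z : JZero (p * M)) ∧ toTorsion (Additive.ofMul f) = z ∧
      (∀ v, v.ord (fnOf f) = (p : ℤ) * (D : Divisor QBar (FB (p * M))) v) ∧ (∀ s, a s ≠ 0) ∧
      ∀ s, red2 A (iota2 M p hpM) ⟨fnOf f, hf⟩ s = algebraMap (Res A) _ (a s)

variable [CharP (Res A) p] [FF.IsFunctionField (Res A) (KM A M)] (h : Setup A M p)

theorem hasUnitFn_of_mem_moved {z : Pic0.torsion QBar (FB (p * M)) p}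
    (hz : (z : JZero (p * M)) ∈ movedGroup A (p * M) p) : HasUnitFn A M p h.hqM z := by
  have hpz : p • (z : JZero (p * M)) = 0 := by
    rw [← natCast_zsmul]; exact Pic0.mem_torsion.mp z.2
  obtain ⟨D, a, hD, ha, f, hord, hred⟩ :=
    exists_hasKummer (isKum_of_mem_movedGroup (h := h) hz) hpz
  have hf0 := HasKummer.ne_zero (h := h) ha hred
  let fu : divGrp QBar (FB (p * M)) p :=
    ⟨Units.mk0 _ hf0, fun v => ⟨(D : Divisor QBar (FB (p * M))) v, hord v⟩⟩
  refine ⟨D, fu, a, f.2, hD, Subtype.ext ?_, hord, ha, hred⟩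
  refine Eq.trans ?_ hD
  exact congrArg Pic0.mk (Subtype.ext (divQuot_eq_of_ord fu hord))

include h in
/-- An inertia element inverting `ζ` negates the flat classes killed by both degeneracy maps. -/
theorem smul_add_eq_zero {ζ : QBarˣ} (hζ : IsPrimitiveRoot ζ p) {τ : GQ}
    (hτ : τ ∈ A.inertiaSubgroupIn ℚ) (hτζ : τ (ζ : QBar) = (ζ : QBar) ^ (p - 1))
    {z : Pic0.torsion QBar (FB (p * M)) p} (hz : HasUnitFn A M p h.hqM z)
    (hk : degMap M p h.hqM p z = 0) : τ • (z : JZero (p * M)) + z = 0 := by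
  obtain ⟨D, f, a, hf, hD, hfy, hord, ha, hred⟩ := hz
  rw [← hfy, degMap_toTorsion, Prod.mk_eq_zero, toTorsion_eq_zero_iff_pow,
    toTorsion_eq_zero_iff_pow, fnOf_normU, fnOf_normU, fnOf_wU] at hk
  obtain ⟨⟨g0, hg0⟩, ⟨g1, hg1⟩⟩ := hk
  obtain ⟨R⟩ := exists_rooted h hζ ⟨fnOf f, hf⟩ hord ha hred (g := ![g0, g1]) hg0 hg1
  have hP := R.galD_add_principal (hζ := hζ) hτ hτζ (Nat.sub_le _ _)
  rw [Nat.sub_sub_self hp.out.one_le, one_smul] at hP
  obtain ⟨D', hD', eD'⟩ := galois_smul_mk τ D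
  rw [← hD, hD']
  refine (QuotientAddGroup.eq_zero_iff (D' + D)).mpr ?_
  rw [AddSubgroup.mem_addSubgroupOf, AddSubgroup.coe_add, eD']
  exact hP

include h in
theorem exists_redL_normUp {x : FB (p * M)} (hx : x ∈ loc2 A (iota2 M p h.hqM))
    {b : Fin 2 → Res A} (hb : ∀ s, b s ≠ 0)
    (hbr : ∀ s, red2 A (iota2 M p h.hqM) ⟨x, hx⟩ s = algebraMap (Res A) _ (b s)) :
    ∃ (κ : Res A) (hm : (NewformLocal.Toric.normUp p M x : LSer) ∈ locS A), κ ≠ 0 ∧
      redL A ⟨_, hm⟩ = algebraMap (Res A) _ κ := by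
  have h1 : ∀ s, ∃ hm : algebraMap QBar LSer 1 * iota2 M p h.hqM s x ∈ locS A,
      redL A ⟨_, hm⟩ = algebraMap (Res A) _ (b s) := fun s => by
    have e : algebraMap QBar LSer 1 * iota2 M p h.hqM s x = iota2 M p h.hqM s x := by
      rw [map_one, one_mul]
    refine ⟨by rw [e]; exact (mem_loc2 _).mp hx s, ?_⟩
    rw [redL_congr _ ((mem_loc2 _).mp hx s) e]
    exact hbr s
  obtain ⟨h0m, h0r⟩ := h1 0
  obtain ⟨h1m, h1r⟩ := h1 1
  have hne : ∀ s, algebraMap (Res A) (LaurentSeries (Res A)) (b s) ≠ 0 := fun s =>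
    (_root_.map_ne_zero _).mpr (hb s)
  obtain ⟨hm, hr⟩ := NewformLocal.Toric.redL_normUp (q := p) (M := M) h.hqM h.hA (x := x)
    (a := 1) (b := 1) h0m h1m (h0r ▸ hne 0) (h1r ▸ hne 1)
  have e : algebraMap QBar LSer ((1 : QBar) * 1 ^ p) * (NewformLocal.Toric.normUp p M x : LSer) =
      (NewformLocal.Toric.normUp p M x : LSer) := by
    rw [one_pow, mul_one, map_one, one_mul]
  refine ⟨b 0 * frobenius (Res A) p (b 1), by rwa [e] at hm,
    mul_ne_zero (hb 0) ((_root_.map_ne_zero _).mpr (hb 1)), ?_⟩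
  rw [← redL_congr hm _ e, hr]
  show redL A ⟨_, h0m⟩ * coeffMap (frobenius (Res A) p) (redL A ⟨_, h1m⟩) = _
  rw [h0r, h1r, coeffMap_algebraMap, map_mul]

include h in
/-- Both images reduce to zero. -/
theorem reductionModL_degMap {z : Pic0.torsion QBar (FB (p * M)) p}
    (hz : HasUnitFn A M p h.hqM z) :
    reductionModL A M ((degMap M p h.hqM p z).1 : JZero M) = 0 ∧
      reductionModL A M ((degMap M p h.hqM p z).2 : JZero M) = 0 := by
  obtain ⟨D, f, a, hf, -, hfy, -, ha, hred⟩ := hz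
  obtain ⟨hw, hwr⟩ := h.wEquiv_red2 ⟨fnOf f, hf⟩
  obtain ⟨κ₀, hm₀, hκ₀, hr₀⟩ := exists_redL_normUp h hf ha hred
  obtain ⟨κ₁, hm₁, hκ₁, hr₁⟩ := exists_redL_normUp h hw (b := ![a 1, a 0])
    (fun s => by fin_cases s <;> simp [ha]) (fun s => by
      rw [hwr]; fin_cases s <;> simp [hred])
  rw [← hfy, degMap_toTorsion]
  exact ⟨reductionModL_toTorsion_eq_zero h.hM _ hκ₀ hm₀ hr₀,
    reductionModL_toTorsion_eq_zero h.hM _ hκ₁ hm₁ hr₁⟩

omit [FF.IsFunctionField (Res A) (KM A M)] [CharP (Res A) p] [NeZero M] in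
/-- An invariant map to `ℤ/p` vanishing on the kernel of an equivariant map to the square of a
group with a Galois order, with image congruent to the origin, vanishes. -/
theorem eq_zero_of_congruent {M' : Type} [AddCommGroup M'] [DistribMulAction GQ M'] [Finite M']
    (hA : A.LiesOverPrime p) (hp2 : p ≠ 2) (O : FiniteFlat.GalOrder p M') {H : Type*}
    [AddCommGroup H] (act : A.inertiaSubgroupIn ℚ → H → H) (Ψ : H →+ M' × M') (π : H →+ ZMod p)
    (hΨ : ∀ y, Ψ y = 0 → π y = 0)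
    (hΨs : ∀ (τ : A.inertiaSubgroupIn ℚ) y, Ψ (act τ y) = (τ : GQ) • Ψ y)
    (hπ : ∀ τ y, π (act τ y) = π y)
    (hc : ∀ y, ∀ f ∈ O.H, f (Ψ y).1 - f 0 ∈ A.nonunits ∧ f (Ψ y).2 - f 0 ∈ A.nonunits) :
    π = 0 := by
  classical
  set G := Ψ.range
  have hGstab : ∀ τ : A.inertiaSubgroupIn ℚ, ∀ g ∈ G, (τ : GQ) • g ∈ G := by
    rintro τ _ ⟨y, rfl⟩
    exact ⟨act τ y, hΨs τ y⟩
  let actG : A.inertiaSubgroupIn ℚ → G ≃ G := fun τ =>
    { toFun := fun g => ⟨(τ : GQ) • (g : M' × M'), hGstab τ g g.2⟩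
      invFun := fun g => ⟨((τ⁻¹ : A.inertiaSubgroupIn ℚ) : GQ) • (g : M' × M'), hGstab τ⁻¹ g g.2⟩
      left_inv := fun g => Subtype.ext (by
        show ((τ⁻¹ : A.inertiaSubgroupIn ℚ) : GQ) • (τ : GQ) • (g : M' × M') = g
        rw [Subgroup.coe_inv, inv_smul_smul])
      right_inv := fun g => Subtype.ext (by
        show (τ : GQ) • ((τ⁻¹ : A.inertiaSubgroupIn ℚ) : GQ) • (g : M' × M') = g
        rw [Subgroup.coe_inv, smul_inv_smul]) }
  obtain ⟨C⟩ := exists_congruentAlgebra hA O G (by rintro _ ⟨y, rfl⟩; exact hc y) actG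
    fun _ _ => rfl
  have hsurj : ∀ g : G, ∃ y : H, Ψ y = g := fun g => g.2
  choose sec hsec using hsurj
  have hwd : ∀ y y' : H, Ψ y = Ψ y' → π y = π y' := fun y y' e => by
    rw [← sub_eq_zero, ← map_sub]
    exact hΨ _ (by rw [map_sub, e, sub_self])
  let πG : G →+ ZMod p := AddMonoidHom.mk' (fun g => π (sec g)) fun g g' => by
    rw [← map_add π]
    exact hwd _ _ (by rw [map_add, hsec, hsec, hsec]; rfl)
  haveI : IsPrincipalIdealRing (fixRing A) := isPrincipalIdealRing_fixRing hA hp.out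
  have hp3 : 3 ≤ p := by have := hp.out.two_le; omega
  have hzero : πG = 0 := C.eq_zero_of_invariant hp3 (natCast_fix_ne_zero hp.out)
    (not_isUnit_natCast hA) πG fun τ g => by
      show π (sec (actG τ g)) = π (sec g)
      rw [hwd _ (act τ (sec g)) (by rw [hΨs, hsec, hsec]; rfl)]
      exact hπ τ (sec g)
  refine AddMonoidHom.ext fun y => ?_
  have := DFunLike.congr_fun hzero ⟨Ψ y, ⟨y, rfl⟩⟩
  rw [← hwd _ y (hsec ⟨Ψ y, ⟨y, rfl⟩⟩)]
  exact this

omit [FF.IsFunctionField (Res A) (KM A M)] [CharP (Res A) p] in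
/-- **No trivial quotient**, from Galois orders at level `M`. -/
theorem noTrivialQuotient (hA : A.LiesOverPrime p) (hp2 : p ≠ 2) (hpM : ¬ p ∣ M)
    (hOrd : Mazur.Eisenstein.OrderProperty M) : NoTrivialQuotient A (p * M) p := by
  intro H hle hpy hstab π hπ
  haveI : CharP (Res A) p := Arith.residueField_charP hA hp.out
  haveI : FF.IsFunctionField (Res A) (KM A M) :=
    isFunctionField_KM A (natCast_res_ne_zero hA hp.out hpM)
  have h : Setup A M p := setup hA hp.out hpM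
  obtain ⟨ζ₀, hζ₀⟩ := HasEnoughRootsOfUnity.exists_primitiveRoot QBar p
  set ζ : QBarˣ := (hζ₀.isUnit hp.out.ne_zero).unit with hζdef
  have hζ : IsPrimitiveRoot ζ p := IsPrimitiveRoot.coe_units_iff.mp (by simpa [hζdef] using hζ₀)
  obtain ⟨τ₀, hτ₀, hτζ⟩ := exists_inertia_inv_zeta hA hζ
  let j : H →+ Pic0.torsion QBar (FB (p * M)) p :=
    AddMonoidHom.mk' (fun y => ⟨y, Pic0.mem_torsion.mpr (by rw [natCast_zsmul]; exact hpy _ y.2)⟩)
      fun _ _ => rfl
  have hU : ∀ y : H, HasUnitFn A M p hpM (j y) := fun y => hasUnitFn_of_mem_moved h (hle y.2)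
  let act : A.inertiaSubgroupIn ℚ → H → H := fun τ y =>
    ⟨(τ : GQ) • (y : JZero (p * M)), hstab τ τ.2 y y.2⟩
  have hker : ∀ y : H, degMap M p hpM p (j y) = 0 → π y = 0 := by
    intro y hy
    have h1 := smul_add_eq_zero h hζ hτ₀ hτζ (hU y) hy
    have h2 : π (act ⟨τ₀, hτ₀⟩ y) + π y = 0 := by
      rw [← map_add, show act ⟨τ₀, hτ₀⟩ y + y = 0 from Subtype.ext h1, map_zero]
    rw [show π (act ⟨τ₀, hτ₀⟩ y) = π y from hπ τ₀ hτ₀ y, ← two_mul] at h2
    refine (mul_eq_zero.mp h2).resolve_left fun h3 => ?_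
    have h4 : ((2 : ℕ) : ZMod p) = 0 := by exact_mod_cast h3
    exact hp2 ((Nat.prime_dvd_prime_iff_eq hp.out Nat.prime_two).mp
      ((ZMod.natCast_eq_zero_iff 2 p).mp h4))
  obtain ⟨M', _, _, _, i, O, hi, hig, hrange, hcong⟩ := hOrd p hp.out hpM A hA 1
  have hfib : ∀ z : Pic0.torsion QBar (FB M) p, ∃ x : M', i x = (z : JZero M) := fun z => by
    refine hrange z ?_
    rw [pow_one, ← natCast_zsmul]
    exact Pic0.mem_torsion.mp z.2
  choose lift hlift using hfib
  let L : Pic0.torsion QBar (FB M) p →+ M' := AddMonoidHom.mk' lift fun x y => hi (by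
    rw [map_add, hlift, hlift, hlift]; rfl)
  have hL : ∀ z, L z = 0 → z = 0 := fun z hz => Subtype.ext (by
    show (z : JZero M) = 0
    rw [← hlift z, show lift z = 0 from hz, map_zero])
  refine eq_zero_of_congruent hA hp2 O act ((L.prodMap L).comp ((degMap M p hpM p).comp j)) π
    (fun y hy => hker y (Prod.ext (hL _ (congrArg Prod.fst hy)) (hL _ (congrArg Prod.snd hy))))
    (fun τ y => ?_) (fun τ y => hπ τ τ.2 y) (fun y f hf => ?_)
  · obtain ⟨e1, e2⟩ := degMap_smul hpM (τ : GQ) (j y) (j (act τ y)) rfl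
    refine Prod.ext (hi ?_) (hi ?_)
    · show i (lift _) = i ((τ : GQ) • lift _)
      rw [hig, hlift, hlift]; exact e1
    · show i (lift _) = i ((τ : GQ) • lift _)
      rw [hig, hlift, hlift]; exact e2
  · obtain ⟨r1, r2⟩ := reductionModL_degMap h (hU y)
    exact ⟨hcong f hf _ (by
      show reductionModL A M (i (lift _)) = 0
      rw [hlift]; exact r1),
      hcong f hf _ (by
      show reductionModL A M (i (lift _)) = 0
      rw [hlift]; exact r2)⟩

end Fermat.Agent.OrdinaryAtP.Conn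

end
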