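import Fermat.Agent.Semistable.RootLemmas
import Fermat.Agent.NewformLocal.Toric.NormRed

/-!
# The ring of integral series without polar part

Congruences modulo constants, the twists by `p`-th roots of unity and their products.
-/

set_option autoImplicit false
set_option linter.unusedSectionVars false

noncomputable section

namespace Fermat.Agent.OrdinaryAtP.Conn

open ModularCurve
open Fermat.Agent.Semistable
open Arith (QBar)

variable (A : ValuationSubring QBar)

/-- Series with coefficients in `A` and in a number field, without polar part. -/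
abbrev R0 : Subring LSer := intS A ⊓ posS

/-- Constants. -/
def cst : A →+* R0 A where
  toFun a := ⟨algebraMap QBar LSer a,
    Subring.mem_inf.mpr ⟨algebraMap_mem_intS a.2, algebraMap_mem_posS _⟩⟩
  map_one' := Subtype.ext (map_one (algebraMap QBar LSer))
  map_mul' a b := Subtype.ext (map_mul (algebraMap QBar LSer) (a : QBar) b)
  map_zero' := Subtype.ext (map_zero (algebraMap QBar LSer))
  map_add' a b := Subtype.ext (map_add (algebraMap QBar LSer) (a : QBar) b)

variable {A}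

theorem coe_cst (a : A) : ((cst A a : R0 A) : LSer) = algebraMap QBar LSer (a : QBar) := rfl

theorem coeff_cst_mul (a : QBar) (x : LSer) (n : ℤ) :
    (algebraMap QBar LSer a * x).coeff n = a * x.coeff n := by
  rw [algebraMap_laurentSeries_eq_single, HahnSeries.coeff_single_zero_mul]

theorem coeff_mem_R0 (x : R0 A) (n : ℤ) : (x : LSer).coeff n ∈ A :=
  (mem_intS.mp (Subring.mem_inf.mp x.2).1).2 n

theorem coeff_neg_R0 (x : R0 A) {n : ℤ} (hn : n < 0) : (x : LSer).coeff n = 0 :=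
  (Subring.mem_inf.mp x.2).2 n hn

theorem mem_R0_of_coeff {x : LSer} (hx : x ∈ fracS A) (hA : ∀ n, x.coeff n ∈ A)
    (hpos : ∀ n < 0, x.coeff n = 0) : x ∈ R0 A :=
  Subring.mem_inf.mpr ⟨mem_intS_of_coeff hx hA, hpos⟩

theorem fracS_of_R0 (x : R0 A) : (x : LSer) ∈ fracS A :=
  intS_le_fracS (Subring.mem_inf.mp x.2).1

/-- Divisibility by a constant is checked on coefficients. -/
theorem cst_dvd_iff {a : A} (ha : (a : QBar) ≠ 0) (x : R0 A) :
    cst A a ∣ x ↔ ∀ n, (x : LSer).coeff n / (a : QBar) ∈ A := by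
  constructor
  · rintro ⟨w, rfl⟩ n
    rw [MulMemClass.coe_mul, coe_cst, coeff_cst_mul, mul_div_cancel_left₀ _ ha]
    exact coeff_mem_R0 w n
  · intro h
    have hc : ∀ n, (algebraMap QBar LSer (a : QBar)⁻¹ * (x : LSer)).coeff n =
        (x : LSer).coeff n / (a : QBar) := fun n => by
      rw [coeff_cst_mul, inv_mul_eq_div]
    refine ⟨⟨_, mem_R0_of_coeff (mul_mem (algebraMap_mem_fracS _) (fracS_of_R0 x))
      (fun n => by rw [hc]; exact h n)
      (fun n hn => by rw [hc, coeff_neg_R0 x hn, zero_div])⟩, Subtype.ext ?_⟩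
    show _ = algebraMap QBar LSer (a : QBar) * (algebraMap QBar LSer (a : QBar)⁻¹ * (x : LSer))
    rw [← mul_assoc, ← map_mul, mul_inv_cancel₀ ha, map_one, one_mul]

/-- The constant coefficient. -/
def coef0 : R0 A →+* A where
  toFun x := ⟨(x : LSer).coeff 0, coeff_mem_R0 x 0⟩
  map_one' := Subtype.ext (by simp)
  map_mul' x y := Subtype.ext (by
    show ((x : LSer) * (y : LSer)).coeff 0 = (x : LSer).coeff 0 * (y : LSer).coeff 0
    rw [HahnSeries.coeff_mul, Finset.sum_eq_single ((0 : ℤ), (0 : ℤ))]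
    · intro b hb hne
      simp only [Finset.mem_antidiagonal, HahnSeries.mem_support] at hb
      obtain ⟨h1, h2, h3⟩ := hb
      have a1 : 0 ≤ b.1 := not_lt.mp fun h => h1 (coeff_neg_R0 x h)
      have a2 : 0 ≤ b.2 := not_lt.mp fun h => h2 (coeff_neg_R0 y h)
      exact absurd (Prod.ext (by omega) (by omega) : b = ((0 : ℤ), (0 : ℤ))) hne
    · intro h
      simp only [Finset.mem_antidiagonal, HahnSeries.mem_support] at h
      by_cases hx : (x : LSer).coeff 0 = 0
      · rw [hx, zero_mul]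
      by_cases hy : (y : LSer).coeff 0 = 0
      · rw [hy, mul_zero]
      exact absurd ⟨hx, hy, by simp⟩ h)
  map_zero' := Subtype.ext (by simp)
  map_add' x y := Subtype.ext (by simp)

theorem coe_coef0 (x : R0 A) : ((coef0 x : A) : QBar) = (x : LSer).coeff 0 := rfl

theorem coef0_cst (a : A) : coef0 (cst A a) = a := Subtype.ext (by
  rw [coe_coef0, coe_cst, algebraMap_laurentSeries_eq_single, HahnSeries.coeff_single_same])

/-- A series with unit constant term is a unit. -/
theorem isUnit_R0 {x : R0 A} (h : IsUnit (coef0 x)) : IsUnit x := by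
  let X : PowerSeries A := PowerSeries.mk fun n => ⟨(x : LSer).coeff (n : ℤ), coeff_mem_R0 x n⟩
  have hX0 : PowerSeries.constantCoeff X = coef0 x := by
    rw [← PowerSeries.coeff_zero_eq_constantCoeff_apply, PowerSeries.coeff_mk]
    exact Subtype.ext rfl
  have hXu : IsUnit X := PowerSeries.isUnit_iff_constantCoeff.mpr (hX0 ▸ h)
  obtain ⟨Y, hY⟩ := hXu.exists_right_inv
  let φ : PowerSeries A →+* LSer :=
    (HahnSeries.ofPowerSeries ℤ QBar).comp (PowerSeries.map A.subtype)
  have hφX : φ X = (x : LSer) := by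
    ext n
    rcases lt_or_ge n 0 with hn | hn
    · rw [coeff_neg_R0 x hn]
      exact ofPowerSeries_coeff_of_neg _ hn
    · lift n to ℕ using hn with k
      show (HahnSeries.ofPowerSeries ℤ QBar (PowerSeries.map A.subtype X)).coeff (k : ℤ) = _
      rw [HahnSeries.ofPowerSeries_apply_coeff, PowerSeries.coeff_map, PowerSeries.coeff_mk]
      rfl
  have hxy : (x : LSer) * φ Y = 1 := by rw [← hφX, ← map_mul, hY, map_one]
  have hmem : φ Y ∈ R0 A := by
    refine mem_R0_of_coeff ?_ (fun n => ?_) (fun n hn => ofPowerSeries_coeff_of_neg _ hn)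
    · rw [eq_inv_of_mul_eq_one_right hxy]
      exact inv_mem (fracS_of_R0 x)
    · rcases lt_or_ge n 0 with hn | hn
      · rw [show (φ Y).coeff n = 0 from ofPowerSeries_coeff_of_neg _ hn]
        exact zero_mem _
      · lift n to ℕ using hn with k
        show (HahnSeries.ofPowerSeries ℤ QBar (PowerSeries.map A.subtype Y)).coeff (k : ℤ) ∈ A
        rw [HahnSeries.ofPowerSeries_apply_coeff, PowerSeries.coeff_map]
        exact (PowerSeries.coeff k Y).2
  exact IsUnit.of_mul_eq_one ⟨_, hmem⟩ (Subtype.ext hxy)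

variable {p : ℕ} [hp : Fact p.Prime]

theorem qExpand_mem_R0 {x : LSer} (hx : x ∈ R0 A) : qExpand QBar p x ∈ R0 A :=
  Subring.mem_inf.mpr ⟨qExpand_mem_intS p (Subring.mem_inf.mp hx).1,
    qExpand_mem_posS p (Subring.mem_inf.mp hx).2⟩

variable (A p) in
/-- `x(q) ↦ x(q ^ p)`. -/
def expR : R0 A →+* R0 A :=
  ((qExpand QBar p).comp (R0 A).subtype).codRestrict (R0 A) fun x => qExpand_mem_R0 x.2

theorem coe_expR (x : R0 A) : ((expR A p x : R0 A) : LSer) = qExpand QBar p (x : LSer) := rfl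

theorem coef0_expR (x : R0 A) : coef0 (expR A p x) = coef0 x := Subtype.ext (by
  rw [coe_coef0, coe_coef0, coe_expR]
  simpa using qExpand_coeff_mul p (x : LSer) 0)

/-- Divisibility by a constant is detected after expansion. -/
theorem cst_dvd_of_expR {a : A} (ha : (a : QBar) ≠ 0) {x : R0 A}
    (h : cst A a ∣ expR A p x) : cst A a ∣ x := by
  rw [cst_dvd_iff ha] at h ⊢
  intro n
  simpa [coe_expR, qExpand_coeff_mul] using h ((p : ℤ) * n)

theorem zeta_zpow_mem {u : QBarˣ} (hu : u ^ p = 1) (k : ℤ) : ((u ^ k : QBarˣ) : QBar) ∈ A := by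
  rw [← A.valuation_le_one_iff]
  refine (pow_le_one_iff (n := p) hp.out.ne_zero).mp ?_
  rw [← map_pow, ← Units.val_pow_eq_pow_val, ← zpow_natCast, ← zpow_mul, mul_comm, zpow_mul,
    zpow_natCast, hu, one_zpow, Units.val_one, map_one]

theorem twist_mem_R0 [CharP (Res A) p] {u : QBarˣ} (hu : u ^ p = 1) {x : LSer} (hx : x ∈ R0 A) :
    ModFun.twist u x ∈ R0 A := by
  obtain ⟨hi, hpos⟩ := Subring.mem_inf.mp hx
  obtain ⟨h, -⟩ := NewformLocal.Toric.twist_mem_intS u hu ⟨x, hi⟩
  exact Subring.mem_inf.mpr ⟨h, fun n hn => by rw [ModFun.coeff_twist, hpos n hn, mul_zero]⟩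

/-- `x(q) ↦ x(u q)`. -/
def twR [CharP (Res A) p] (u : QBarˣ) (hu : u ^ p = 1) : R0 A →+* R0 A :=
  ((ModFun.twist u).comp (R0 A).subtype).codRestrict (R0 A) fun x => twist_mem_R0 hu x.2

theorem coe_twR [CharP (Res A) p] (u : QBarˣ) (hu : u ^ p = 1) (x : R0 A) :
    ((twR u hu x : R0 A) : LSer) = ModFun.twist u (x : LSer) := rfl

theorem coef0_twR [CharP (Res A) p] (u : QBarˣ) (hu : u ^ p = 1) (x : R0 A) :
    coef0 (twR u hu x) = coef0 x := Subtype.ext (by
  rw [coe_coef0, coe_coef0, coe_twR, ModFun.coeff_twist, zpow_zero, Units.val_one, one_mul])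

section Twists

variable [CharP (Res A) p] {ζ : QBarˣ} (hζ : IsPrimitiveRoot ζ p)

theorem zeta_pow_pow (hζ : IsPrimitiveRoot ζ p) (i : ℕ) : (ζ ^ i) ^ p = 1 := by
  rw [← pow_mul, mul_comm, pow_mul, hζ.pow_eq_one, one_pow]

theorem zeta_mem (hζ : IsPrimitiveRoot ζ p) : (ζ : QBar) ∈ A := by
  simpa using zeta_zpow_mem (A := A) hζ.pow_eq_one 1

/-- `ζ - 1` as an element of `A`. -/
def lam (hζ : IsPrimitiveRoot ζ p) : A := ⟨(ζ : QBar) - 1, sub_mem (zeta_mem hζ) (one_mem _)⟩

theorem lam_ne_zero : ((lam hζ : A) : QBar) ≠ 0 := fun h =>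
  hζ.ne_one hp.out.one_lt (Units.ext (sub_eq_zero.mp h))

/-- The product of the twists. -/
def tprod : R0 A →* R0 A where
  toFun x := ∏ i : Fin p, twR (ζ ^ (i : ℕ)) (zeta_pow_pow hζ i) x
  map_one' := by simp
  map_mul' x y := by simp only [map_mul, Finset.prod_mul_distrib]

theorem coef0_tprod (x : R0 A) : coef0 (tprod hζ x) = coef0 x ^ p := by
  show coef0 (∏ i : Fin p, _) = _
  simp only [map_prod, coef0_twR, Finset.prod_const, Finset.card_univ, Fintype.card_fin]

theorem lam_dvd_twR_sub (i : ℕ) (x : R0 A) :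
    cst A (lam hζ) ∣ twR (ζ ^ i) (zeta_pow_pow hζ i) x - x := by
  rw [cst_dvd_iff (lam_ne_zero hζ)]
  intro n
  rw [AddSubgroupClass.coe_sub, HahnSeries.coeff_sub, coe_twR, ModFun.coeff_twist]
  rcases lt_or_ge n 0 with hn | hn
  · rw [coeff_neg_R0 x hn, mul_zero, sub_zero, zero_div]; exact zero_mem _
  lift n to ℕ using hn with k
  rw [zpow_natCast, ← pow_mul, Units.val_pow_eq_pow_val,
    show (ζ : QBar) ^ (i * k) * (x : LSer).coeff k - (x : LSer).coeff k =
      ((∑ j ∈ Finset.range (i * k), (ζ : QBar) ^ j) * (x : LSer).coeff k) * ((ζ : QBar) - 1) by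
      rw [mul_right_comm, geom_sum_mul]; ring]
  show _ / ((ζ : QBar) - 1) ∈ A
  rw [mul_div_cancel_right₀ _ (show (ζ : QBar) - 1 ≠ 0 from lam_ne_zero (A := A) hζ)]
  exact mul_mem (sum_mem fun j _ => pow_mem (zeta_mem hζ) j) (coeff_mem_R0 x k)

/-- The product of the twists comes from a series in `q ^ p`. -/
theorem exists_ctr (hA : A.LiesOverPrime p) (x : R0 A) : ∃ y : R0 A, expR A p y = tprod hζ x := by
  set T : LSer := ((tprod hζ x : R0 A) : LSer) with hT
  have hinv : ModFun.twist ζ T = T := by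
    have e : T = ∏ i : Fin p, ModFun.twist (ζ ^ (i : ℕ)) (x : LSer) := by
      rw [hT]
      show ((∏ i : Fin p, twR (ζ ^ (i : ℕ)) (zeta_pow_pow hζ i) x : R0 A) : LSer) = _
      rw [SubmonoidClass.coe_finsetProd]
      rfl
    rw [e, map_prod]
    refine Fintype.prod_equiv (finRotate p) _ _ fun i => ?_
    ext n
    simp only [ModFun.coeff_twist, ← mul_assoc, ← Units.val_mul, ← mul_zpow]
    congr 2
    obtain ⟨m, rfl⟩ : ∃ m, p = m + 1 := ⟨p - 1, (Nat.succ_pred_eq_of_pos hp.out.pos).symm⟩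
    rcases eq_or_ne i (Fin.last m) with rfl | hi
    · rw [finRotate_last, Fin.val_zero, pow_zero, Fin.val_last, ← pow_succ', hζ.pow_eq_one]
    · have hlt : (i : ℕ) < m := lt_of_le_of_ne (Fin.is_le i) fun h => hi (Fin.ext h)
      rw [← pow_succ', finRotate_of_lt hlt]
  have hoff : ∀ n : ℤ, ¬ (p : ℤ) ∣ n → T.coeff n = 0 := by
    intro n hn
    have h1 := congrArg (fun z : LSer => z.coeff n) hinv
    simp only [ModFun.coeff_twist] at h1
    by_contra h0
    have h2 : ((ζ ^ n : QBarˣ) : QBar) = 1 := mul_right_cancel₀ h0 (by rw [h1, one_mul])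
    exact hn ((hζ.zpow_eq_one_iff_dvd n).mp (Units.ext h2))
  obtain ⟨L, hL, hTL⟩ := (mem_intS.mp (Subring.mem_inf.mp (tprod hζ x).2).1).1
  let Y : PowerSeries QBar := PowerSeries.mk fun k => T.coeff ((p : ℤ) * k)
  set y : LSer := HahnSeries.ofPowerSeries ℤ QBar Y with hy
  have hyk : ∀ n : ℤ, 0 ≤ n → y.coeff n = T.coeff ((p : ℤ) * n) := by
    intro n hn
    lift n to ℕ using hn with k
    rw [hy, HahnSeries.ofPowerSeries_apply_coeff, PowerSeries.coeff_mk]
  have hyn : ∀ n : ℤ, n < 0 → y.coeff n = 0 := fun n hn => ofPowerSeries_coeff_of_neg _ hn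
  have hmem : y ∈ R0 A := by
    refine Subring.mem_inf.mpr ⟨mem_intS.mpr ⟨⟨L, hL, fun n => ?_⟩, fun n => ?_⟩, hyn⟩ <;>
      rcases lt_or_ge n 0 with hn | hn
    · rw [hyn n hn]; exact zero_mem _
    · rw [hyk n hn]; exact hTL _
    · rw [hyn n hn]; exact zero_mem _
    · rw [hyk n hn]; exact coeff_mem_R0 _ _
  refine ⟨⟨y, hmem⟩, Subtype.ext ?_⟩
  ext n
  rw [coe_expR]
  by_cases hn : (p : ℤ) ∣ n
  · obtain ⟨k, rfl⟩ := hn
    rw [qExpand_coeff_mul]
    rcases lt_or_ge k 0 with hk | hk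
    · show y.coeff k = T.coeff _
      rw [hyn k hk, coeff_neg_R0 (tprod hζ x) (by
        have := hp.out.pos; nlinarith)]
    · exact hyk k hk
  · rw [qExpand_coeff_of_not_dvd p _ hn, hoff n hn]

end Twists

end Fermat.Agent.OrdinaryAtP.Conn

end
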