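import Fermat.Agent.OrdinaryAtP.Conn.Lam

/-!
# The contraction step for two series with norms which are `p`-th powers

If `x_s` are `p`-th powers modulo `δ` and `x_s(q^p) ∏ x_t(ζ^i q)` are `p`-th powers, the `x_s`
are `p`-th powers modulo `δ λ` and `δ^p`.
-/

set_option autoImplicit false
set_option linter.unusedSectionVars false

noncomputable section

namespace Fermat.Agent.OrdinaryAtP.Conn

open Fermat.Agent.Semistable
open Arith (QBar)

variable {A : ValuationSubring QBar} {p : ℕ} [hp : Fact p.Prime] [CharP (Res A) p]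
  {ζ : QBarˣ} (hζ : IsPrimitiveRoot ζ p)

theorem twR_cst (u : QBarˣ) (hu : u ^ p = 1) (a : A) : twR u hu (cst A a) = cst A a :=
  Subtype.ext (by
    rw [coe_twR, coe_cst]
    ext n
    rw [ModFun.coeff_twist, ModularCurve.algebraMap_laurentSeries_eq_single, HahnSeries.coeff_single]
    split_ifs with h
    · rw [h, zpow_zero, Units.val_one, one_mul]
    · rw [mul_zero])

theorem coeff_pow_eq_zero {S : Type*} [CommRing S] (hp0 : (p : S) = 0) (a b : S) {k : ℕ}
    (hk : k + 1 ≠ p) :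
    ((Polynomial.C a + Polynomial.X * Polynomial.C b) ^ p).coeff (k + 1) = 0 := by
  obtain ⟨r, hr⟩ := exists_add_pow_prime_eq hp.out (x := Polynomial.C a)
    (y := Polynomial.X * Polynomial.C b)
  rw [hr, ← Polynomial.C_eq_natCast, hp0, map_zero, zero_mul, zero_mul, zero_mul, add_zero,
    mul_pow, ← map_pow, ← map_pow, Polynomial.coeff_add, Polynomial.coeff_C,
    if_neg (Nat.succ_ne_zero k), Polynomial.coeff_mul_C, Polynomial.coeff_X_pow, if_neg hk,
    zero_mul, add_zero]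

/-- The product of the twists is multiplicative up to `δ λ` and `δ ^ p`. -/
theorem dvd_tprod_add (g u : R0 A) {δ ε : A} (h1 : ε ∣ δ * lam hζ) (h2 : ε ∣ δ ^ p) :
    cst A ε ∣ tprod hζ (g + cst A δ * u) - tprod hζ g := by
  classical
  set a : Fin p → R0 A := fun i => twR (ζ ^ (i : ℕ)) (zeta_pow_pow hζ i) g
  set b : Fin p → R0 A := fun i => twR (ζ ^ (i : ℕ)) (zeta_pow_pow hζ i) u
  set Q : Polynomial (R0 A) :=
    ∏ i, (Polynomial.C (a i) + Polynomial.X * Polynomial.C (b i)) with hQ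
  have hev : Q.eval (cst A δ) = tprod hζ (g + cst A δ * u) := by
    rw [hQ, Polynomial.eval_prod]
    refine Finset.prod_congr rfl fun i _ => ?_
    simp only [Polynomial.eval_add, Polynomial.eval_mul, Polynomial.eval_C, Polynomial.eval_X, a, b,
      map_add, map_mul, twR_cst]
  have hev0 : Q.coeff 0 = tprod hζ g := by
    rw [Polynomial.coeff_zero_eq_eval_zero, hQ, Polynomial.eval_prod]
    refine Finset.prod_congr rfl fun i _ => ?_
    simp [a]
  have hdeg : Q.natDegree < p + 1 := by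
    refine Nat.lt_succ_of_le ((Polynomial.natDegree_prod_le _ _).trans ?_)
    refine (Finset.sum_le_card_nsmul _ _ 1 fun i _ => ?_).trans (by simp)
    compute_degree
  rw [← hev, ← hev0, Polynomial.eval_eq_sum_range' hdeg, Finset.sum_range_succ',
    pow_zero, mul_one, add_sub_cancel_right]
  refine Finset.dvd_sum fun k hk => ?_
  rw [Finset.mem_range] at hk
  rcases eq_or_ne (k + 1) p with e | e
  · refine dvd_mul_of_dvd_right ?_ _
    rw [← map_pow, e]
    exact map_dvd _ h2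
  · set φ := Ideal.Quotient.mk (Ideal.span {cst A (lam hζ)})
    have hp0 : (p : R0 A ⧸ Ideal.span {cst A (lam hζ)}) = 0 := by
      rw [← map_natCast φ, Ideal.Quotient.eq_zero_iff_mem, Ideal.mem_span_singleton,
        ← map_natCast (cst A)]
      exact map_dvd _ (lam_dvd_natCast hζ)
    have hmap : Q.map φ = (Polynomial.C (φ g) + Polynomial.X * Polynomial.C (φ u)) ^ p := by
      rw [hQ, Polynomial.map_prod]
      refine Eq.trans (Finset.prod_congr rfl fun i _ => ?_) ((Finset.prod_const _).trans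
        (by rw [Finset.card_univ, Fintype.card_fin]))
      rw [Polynomial.map_add, Polynomial.map_mul, Polynomial.map_C, Polynomial.map_X,
        Polynomial.map_C]
      congr 2
      · exact Ideal.Quotient.eq.mpr (Ideal.mem_span_singleton.mpr (lam_dvd_twR_sub hζ i g))
      · congr 1
        exact Ideal.Quotient.eq.mpr (Ideal.mem_span_singleton.mpr (lam_dvd_twR_sub hζ i u))
    have hc : φ (Q.coeff (k + 1)) = 0 := by
      rw [← Polynomial.coeff_map, hmap]
      exact coeff_pow_eq_zero hp0 _ _ e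
    rw [Ideal.Quotient.eq_zero_iff_mem, Ideal.mem_span_singleton] at hc
    obtain ⟨w, hw⟩ := hc
    rw [hw, pow_succ, show cst A (lam hζ) * w * (cst A δ ^ k * cst A δ) =
      cst A (δ * lam hζ) * (w * cst A δ ^ k) by rw [map_mul]; ring]
    exact dvd_mul_of_dvd_left (map_dvd _ h1) _

/-- The step. -/
theorem exists_step (hA : A.LiesOverPrime p) {x gg g : Fin 2 → R0 A}
    (hgg : ∀ s, IsUnit (coef0 (gg s))) (hg : ∀ s, IsUnit (coef0 (g s)))
    (hrel : ∀ s, expR A p (x s) * tprod hζ (x (1 - s)) = expR A p (gg s) ^ p)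
    {δ ε : A} (hcong : ∀ s, cst A δ ∣ x s - g s ^ p) (hε0 : (ε : QBar) ≠ 0)
    (h1 : ε ∣ δ * lam hζ) (h2 : ε ∣ δ ^ p) :
    ∃ g' : Fin 2 → R0 A, (∀ s, IsUnit (coef0 (g' s))) ∧ ∀ s, cst A ε ∣ x s - g' s ^ p := by
  have hN : ∀ s, ∃ G : R0 A, expR A p G = tprod hζ (g (1 - s)) ∧ IsUnit (coef0 G) := fun s => by
    obtain ⟨G, hG⟩ := exists_ctr hζ hA (g (1 - s))
    refine ⟨G, hG, ?_⟩
    rw [← coef0_expR (p := p) G, hG, coef0_tprod]
    exact (hg (1 - s)).pow p
  choose G hG hGu using hN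
  have hinv : ∀ s, ∃ Gi : R0 A, G s * Gi = 1 := fun s => (isUnit_R0 (hGu s)).exists_right_inv
  choose Gi hGi using hinv
  refine ⟨fun s => gg s * Gi s, fun s => ?_, fun s => ?_⟩
  · rw [map_mul]
    refine (hgg s).mul (IsUnit.of_mul_eq_one (coef0 (G s)) ?_)
    rw [← map_mul, mul_comm, hGi, map_one]
  obtain ⟨u, hu⟩ := hcong (1 - s)
  obtain ⟨r, hr⟩ := dvd_tprod_add hζ (g (1 - s) ^ p) u h1 h2
  have hx : x (1 - s) = g (1 - s) ^ p + cst A δ * u := by rw [← hu]; ring
  rw [← hx, map_pow, ← hG] at hr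
  have key : cst A ε ∣ x s * G s ^ p - gg s ^ p := by
    refine cst_dvd_of_expR (p := p) hε0 ?_
    rw [map_sub, map_mul, map_pow, map_pow, ← hrel s]
    refine ⟨-(expR A p (x s) * r), ?_⟩
    linear_combination (-(expR A p (x s))) * hr
  show cst A ε ∣ x s - (gg s * Gi s) ^ p
  have e : x s - (gg s * Gi s) ^ p = (x s * G s ^ p - gg s ^ p) * Gi s ^ p := by
    have h3 : G s ^ p * Gi s ^ p = 1 := by rw [← mul_pow, hGi, one_pow]
    linear_combination (-(x s)) * h3
  rw [e]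
  exact dvd_mul_of_dvd_left key _

/-- Congruences of arbitrary depth. -/
theorem exists_deep (hA : A.LiesOverPrime p) {x gg g : Fin 2 → R0 A}
    (hgg : ∀ s, IsUnit (coef0 (gg s))) (hg : ∀ s, IsUnit (coef0 (g s)))
    (hrel : ∀ s, expR A p (x s) * tprod hζ (x (1 - s)) = expR A p (gg s) ^ p)
    {δ : A} (hcong : ∀ s, cst A δ ∣ x s - g s ^ p) (hδ : IsLocalRing.residue A δ = 0)
    (hδ0 : (δ : QBar) ≠ 0) (t : A) (ht : (t : QBar) ≠ 0) :
    ∃ g' : Fin 2 → R0 A, (∀ s, IsUnit (coef0 (g' s))) ∧ ∀ s, cst A t ∣ x s - g' s ^ p := by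
  obtain ⟨μ, hμ0, hμr, hμl, hμd⟩ : ∃ μ : A, (μ : QBar) ≠ 0 ∧ IsLocalRing.residue A μ = 0 ∧
      μ ∣ lam hζ ∧ μ ∣ δ := by
    rcases le_total (A.valuation ((lam hζ : A) : QBar)) (A.valuation (δ : QBar)) with h | h
    · exact ⟨δ, hδ0, hδ, dvd_of_valuation_le hδ0 h, dvd_rfl⟩
    · exact ⟨lam hζ, lam_ne_zero hζ, residue_lam hζ, dvd_rfl,
        dvd_of_valuation_le (lam_ne_zero hζ) h⟩
  have hn : ∀ n : ℕ, ∃ g' : Fin 2 → R0 A, (∀ s, IsUnit (coef0 (g' s))) ∧
      ∀ s, cst A (δ * μ ^ n) ∣ x s - g' s ^ p := by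
    intro n
    induction n with
    | zero => exact ⟨g, hg, fun s => by simpa using hcong s⟩
    | succ n ih =>
      obtain ⟨g₁, hg₁, hc₁⟩ := ih
      refine exists_step hζ hA hgg hg₁ hrel hc₁ ?_ ?_ ?_
      · push_cast
        exact mul_ne_zero hδ0 (pow_ne_zero _ hμ0)
      · rw [pow_succ, ← mul_assoc]
        exact mul_dvd_mul_left _ hμl
      · obtain ⟨k, hk⟩ : ∃ k, p = k + 1 + 1 := ⟨p - 2, by have := hp.out.two_le; omega⟩
        rw [pow_succ, ← mul_assoc, hk, pow_succ']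
        refine mul_dvd_mul_left _ ?_
        exact dvd_pow (dvd_mul_of_dvd_left hμd _) (Nat.succ_ne_zero k)
  obtain ⟨n, hn'⟩ := exists_dvd_pow hA hp.out hμr ht
  obtain ⟨g', hg', hc'⟩ := hn n
  exact ⟨g', hg', fun s => (map_dvd _ (dvd_mul_of_dvd_right hn' δ)).trans (hc' s)⟩

end Fermat.Agent.OrdinaryAtP.Conn

end
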