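import Fermat.Agent.OrdinaryAtP.Conn.Approx

/-!
# A radical with two sections deep inside the level is trivial
-/

set_option autoImplicit false
set_option linter.unusedSectionVars false

noncomputable section

namespace Fermat.Agent.OrdinaryAtP.Conn

open ModularCurve AlgebraicCurve
open Fermat.Agent.Semistable
open Arith (QBar)

/-- Shortcut: the search through `LaurentSeries` is slow. -/
local instance instAlgebraFBStrict (N : ℕ) :
    Algebra QBar (FB N) := inferInstance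

/-- Shortcut: the search through `LaurentSeries` is slow. -/
local instance instAlgebraResLSerStrict (A : ValuationSubring QBar) :
    Algebra (Res A) (LaurentSeries (Res A)) := inferInstance

variable {A : ValuationSubring QBar} {M : ℕ} [NeZero M] {p : ℕ} [hp : Fact p.Prime]
  [CharP (Res A) p] [FF.IsFunctionField (Res A) (KM A M)] (h : Setup A M p)
  {ζ : QBarˣ} (hζ : IsPrimitiveRoot ζ p)

variable (A p) in
/-- The pair `(j ^ k, j(q ^ p) ^ k)`. -/
def jPair (k : ℕ) : Fin 2 → LaurentSeries (Res A) :=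
  fun s => jqModC (Res A) ^ (sideDeg p s * k)

theorem jPair_pow (k a : ℕ) : jPair A p k ^ a = jPair A p (a * k) := funext fun s => by
  rw [Pi.pow_apply, jPair, jPair, ← pow_mul]
  congr 1
  ring

theorem jPair_zero : jPair A p 0 = 1 := funext fun s => by simp [jPair]

theorem jPair_mul (a b : ℕ) : jPair A p a * jPair A p b = jPair A p (a + b) := funext fun s => by
  rw [Pi.mul_apply, jPair, jPair, jPair, ← pow_add]
  congr 1
  ring

include h in
theorem jPair_mem_Bn (n : ℕ) : jPair A p n ∈ Bn A M p h.hqM n := by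
  have hj : jM M ∈ HM M 1 := self_mem_polesSpace _
  have h1 := h.upF_mem_Bn (⟨jM M, jM_mem M⟩ : loc2 A (iota1 M)) hj
  rw [red1_jM] at h1
  have h2 : jPair A p 1 ∈ Bn A M p h.hqM 1 := by
    convert h1 using 1
    funext s
    fin_cases s
    · simp [jPair, sideDeg]
    · simp [jPair, sideDeg, pow_eq_qExpand_gen_one]
  induction n with
  | zero => rw [jPair_zero]; exact h.one_mem_Bn 0
  | succ n ih =>
    rw [← jPair_mul]
    exact h.mul_mem_Bn ih h2

/-- Cancelling a power of `j` on both sides. -/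
theorem mem_Pk_of_jPair_mul {k a a' b' : ℕ} {r : Fin 2 → LaurentSeries (Res A)}
    (hr : r ∈ Pk A M p a) (hp' : jPair A p k * r ∈ Pk A M p b') (hb : b' ≤ k + a') :
    r ∈ Pk A M p a' := by
  rw [mem_Pk] at hr hp' ⊢
  have key : ∀ (s : Fin 2) (d : ℕ), sideDeg p s = d → r s ∈ HkS A M (d * a) →
      (jPair A p k * r) s ∈ HkS A M (d * b') → r s ∈ HkS A M (d * a') := by
    rintro s d rfl h1 h2
    obtain ⟨hm, h1⟩ := (mem_HkS A M).mp h1
    obtain ⟨hm2, h2⟩ := (mem_HkS A M).mp h2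
    refine (mem_HkS A M).mpr ⟨hm, cancel_poles (μ := jK A M ^ (sideDeg p s * k))
      (e := sideDeg p s * k) (b' := sideDeg p s * b') (fun v hv => ⟨pow_ne_zero _ ?_, ?_⟩) ?_ h1 ?_⟩
    · exact fun h0 => by simp [h0] at hv
    · rw [FF.ord_pow]
    · rw [← Nat.mul_add]; exact Nat.mul_le_mul_left _ hb
    · convert h2 using 1
      exact Subtype.ext rfl
  refine ⟨?_, key 1 p rfl hr.2 hp'.2⟩
  simpa using key 0 1 rfl (by simpa using hr.1) (by simpa using hp'.1)

/-- Sections with reductions constants times powers of `j`. -/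
theorem exists_section_jPair {D : Divisor QBar (FB (p * M))} {c : Pt h → Res A} {n₁ : ℕ}
    (hn₁ : ∀ n, n₁ ≤ n → LD A h.hqM D n = glued h c n) {b : Fin 2 → Res A} (hb : ∀ s, b s ≠ 0)
    (hcb : ∀ χ, b 1 * c χ = b 0) {n : ℕ} (hn : n₁ ≤ n) {k : ℕ} (hk : k ≤ n) :
    ∃ x : loc2 A (iota2 M p h.hqM), (x : FB (p * M)) ∈ HD M p D n ∧
      red2 A (iota2 M p h.hqM) x =
        fun s => jPair A p k s * algebraMap (Res A) _ (b s)⁻¹ := by
  have hj : jK A M ∈ Hk A M 1 := self_mem_polesSpace _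
  let jR : Rk A M := ⟨jK A M, 1, hj⟩
  have hH : ∀ (t : Res A) (i b : ℕ), i ≤ b →
      ((algebraMap (Res A) (Rk A M) t * jR ^ i : Rk A M) : KM A M) ∈ Hk A M b := by
    intro t i b hib
    refine RedTorsion.polesSpace_mono hib ?_
    rw [← Algebra.smul_def]
    refine Submodule.smul_mem _ t ?_
    simpa using pow_mem_polesSpace hj i
  have hmem : ![serR A M (algebraMap (Res A) _ (b 0)⁻¹ * jR ^ k),
      serR A M (algebraMap (Res A) _ (b 1)⁻¹ * jR ^ (p * k))] ∈ glued h c n := by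
    refine h.mem_glued.mpr
      ⟨algebraMap (Res A) _ (b 0)⁻¹ * jR ^ k, algebraMap (Res A) _ (b 1)⁻¹ * jR ^ (p * k),
        hH _ _ _ hk, hH _ _ _ (Nat.mul_le_mul_left p hk), rfl, fun χ => ?_⟩
    have hjq : qR A M p jR = jR ^ p := serR_injective (by
      rw [serR_qR, map_pow]
      exact (pow_eq_qExpand_gen_one p).symm)
    rw [map_mul, map_mul, AlgHom.commutes, AlgHom.commutes, map_pow, map_pow,
      h.ptEv_twist χ jR, hjq, map_pow, ← pow_mul, Algebra.algebraMap_self, RingHom.id_apply,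
      RingHom.id_apply, ← hcb χ]
    have hne : c χ ≠ 0 := fun h0 => hb 0 (by rw [← hcb χ, h0, mul_zero])
    field_simp [hb 1]
  rw [← hn₁ n hn] at hmem
  obtain ⟨x, hx, hxr⟩ := mem_redSub.mp hmem
  refine ⟨x, hx, (hxr.trans (funext fun s => ?_))⟩
  fin_cases s <;>
    simp [jPair, sideDeg, serR_algebraMap, mul_comm, show serR A M jR = jqModC (Res A) from rfl]

/-- A radical: a function with divisor `p D` and roots of its two series, with constant nonzero
reductions. -/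
structure Rooted (D : Divisor QBar (FB (p * M))) where
  f : FB (p * M)
  H : Fin 2 → LSer
  b : Fin 2 → Res A
  ord : ∀ v, v.ord f = (p : ℤ) * D v
  pow : H ^ p = emb h f
  red : HasRed A H fun s => algebraMap (Res A) _ (b s)
  b_ne : ∀ s, b s ≠ 0

variable {h} {D : Divisor QBar (FB (p * M))} (R : Rooted h D)

/-- The pair attached to a section. -/
def Rooted.sec (x : FB (p * M)) : Fin 2 → LSer := emb h x * R.H

theorem Rooted.sec_pow (x : FB (p * M)) : R.sec x ^ p = emb h (x ^ p * R.f) := by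
  rw [Rooted.sec, mul_pow, R.pow, map_mul, map_pow]

theorem Rooted.f_ne_zero : R.f ≠ 0 := fun h0 => by
  obtain ⟨h1, h2⟩ := R.red 0
  have e := congrFun R.pow 0
  rw [h0, map_zero, Pi.pow_apply, Pi.zero_apply, pow_eq_zero_iff hp.out.ne_zero] at e
  rw [redL_congr h1 (zero_mem _) e] at h2
  exact R.b_ne 0 ((_root_.map_eq_zero _).mp ((map_zero (redL A)).symm.trans h2).symm)

theorem Rooted.inv_H (s : Fin 2) : ∃ hi : (R.H s)⁻¹ ∈ locS A,
    redL A ⟨_, hi⟩ = algebraMap (Res A) _ (R.b s)⁻¹ := by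
  obtain ⟨h1, h2⟩ := R.red s
  obtain ⟨hi, hi'⟩ := inv_mem_locS h1 (by
    rw [h2]; exact (_root_.map_ne_zero _).mpr (R.b_ne s))
  exact ⟨hi, by rw [hi', h2, map_inv₀]⟩

theorem Rooted.H_ne_zero (s : Fin 2) : R.H s ≠ 0 := fun h0 => R.f_ne_zero (by
  have e := congrFun R.pow s
  rw [Pi.pow_apply, h0, zero_pow hp.out.ne_zero, emb_apply] at e
  exact (_root_.map_eq_zero _).mp e.symm)

theorem Rooted.mem_loc2_of_sec {x : FB (p * M)} {r : Fin 2 → LaurentSeries (Res A)}
    (hx : HasRed A (R.sec x) r) : ∃ hx' : x ∈ loc2 A (iota2 M p h.hqM),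
      ∀ s, red2 A (iota2 M p h.hqM) ⟨x, hx'⟩ s = r s * algebraMap (Res A) _ (R.b s)⁻¹ := by
  have key : ∀ s, ∃ hm : iota2 M p h.hqM s x ∈ locS A,
      redL A ⟨_, hm⟩ = r s * algebraMap (Res A) _ (R.b s)⁻¹ := fun s => by
    obtain ⟨h1, h2⟩ := hx s
    obtain ⟨h3, h4⟩ := R.inv_H s
    have e : iota2 M p h.hqM s x = R.sec x s * (R.H s)⁻¹ := by
      rw [Rooted.sec, Pi.mul_apply, emb_apply, mul_assoc, mul_inv_cancel₀ (R.H_ne_zero s), mul_one]
    refine ⟨e ▸ mul_mem h1 h3, ?_⟩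
    rw [redL_congr _ (mul_mem h1 h3) e, ← h2, ← h4, ← map_mul]
    rfl
  exact ⟨(mem_loc2 _).mpr fun s => (key s).1, fun s => (key s).2⟩

theorem Rooted.hasRed_sec {x : loc2 A (iota2 M p h.hqM)} {r : Fin 2 → LaurentSeries (Res A)}
    (hx : red2 A (iota2 M p h.hqM) x = fun s => r s * algebraMap (Res A) _ (R.b s)⁻¹) :
    HasRed A (R.sec x) r := by
  refine ((hasRed_emb h x).mul R.red).congr rfl (funext fun s => ?_)
  rw [Pi.mul_apply, hx, mul_assoc, ← map_mul, inv_mul_cancel₀ (R.b_ne s), map_one, mul_one]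

theorem Rooted.f_mem_loc2 : ∃ hf : R.f ∈ loc2 A (iota2 M p h.hqM),
    ∀ s, red2 A (iota2 M p h.hqM) ⟨R.f, hf⟩ s = algebraMap (Res A) _ (R.b s ^ p) := by
  have h1 := R.red.pow p
  rw [R.pow] at h1
  exact ⟨(mem_loc2 _).mpr fun s => (h1 s).1, fun s => by
    rw [map_pow]; exact (h1 s).2⟩

/-- A radical with thresholds and two sections. -/
structure Rooted.Sections (n : ℕ) : Prop where
  deep : Deep h n
  glue : ∀ m, n ≤ m → ∀ x ∈ HD M p D m, ∀ r, HasRed A (R.sec x) r → r ∈ Bn A M p h.hqM m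
  low : ∃ σ ∈ HD M p D n, HasRed A (R.sec σ) 1
  high : ∃ τ ∈ HD M p D n, HasRed A (R.sec τ) (jPair A p n)

/-- Sections exist in every large level. -/
theorem Rooted.exists_sections : ∃ n₀, ∀ n, n₀ ≤ n → R.Sections n := by
  obtain ⟨hf, hfr⟩ := R.f_mem_loc2
  obtain ⟨c, hc, hca⟩ := h.exists_isGlue hp.out.ne_zero ⟨R.f, hf⟩ R.ord (fun s => R.b s ^ p)
    (fun s => pow_ne_zero _ (R.b_ne s)) hfr
  have : ExpChar (Res A) p := ExpChar.prime hp.out
  have hcb : ∀ χ, R.b 1 * c χ = R.b 0 := fun χ => frobenius_inj (Res A) p (by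
    rw [frobenius_def, frobenius_def, mul_pow]; exact hca χ)
  obtain ⟨n₁, hn₁⟩ := hc
  obtain ⟨n₂, hn₂⟩ := exists_deep_level h
  refine ⟨n₁ + n₂, fun n hn => ?_⟩
  have hd := hn₂ n (by omega)
  have hg : ∀ m, n ≤ m → ∀ x ∈ HD M p D m, ∀ r, HasRed A (R.sec x) r →
      r ∈ Bn A M p h.hqM m := by
    intro m hm x hx r hr
    obtain ⟨hx', hxr⟩ := R.mem_loc2_of_sec hr
    have hg : red2 A (iota2 M p h.hqM) ⟨x, hx'⟩ ∈ glued h c m :=
      hn₁ m (by omega) ▸ mem_redSub.mpr ⟨⟨x, hx'⟩, hx, rfl⟩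
    obtain ⟨a, b, ha, hb, e, hab⟩ := h.mem_glued.mp hg
    have hscal : ∀ (t : Res A) (u : Rk A M) (k : ℕ), (u : KM A M) ∈ Hk A M k →
        ((algebraMap (Res A) (Rk A M) t * u : Rk A M) : KM A M) ∈ Hk A M k := by
      intro t u k hu
      rw [← Algebra.smul_def]
      exact Submodule.smul_mem _ t hu
    rw [← hd.glue m hm]
    refine h.mem_glued.mpr ⟨algebraMap (Res A) _ (R.b 0) * a, algebraMap (Res A) _ (R.b 1) * b,
      hscal _ _ _ ha, hscal _ _ _ hb, funext fun s => ?_, fun χ => ?_⟩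
    · have h1 := (congrFun e s).symm.trans (hxr s)
      have h2 : r s = algebraMap (Res A) _ (R.b s) * (![serR A M a, serR A M b] s) := by
        rw [h1, mul_comm, mul_assoc, ← map_mul, inv_mul_cancel₀ (R.b_ne s), map_one, mul_one]
      rw [h2]
      fin_cases s <;> simp [serR_algebraMap]
    · rw [Pi.one_apply, one_mul, map_mul, map_mul, AlgHom.commutes, AlgHom.commutes,
        Algebra.algebraMap_self, RingHom.id_apply, RingHom.id_apply, hab χ, ← hcb χ]
      ring
  have hsec : ∀ k, k ≤ n → ∃ x ∈ HD M p D n, HasRed A (R.sec x) (jPair A p k) := by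
    intro k hk
    obtain ⟨x, hx, hxr⟩ := exists_section_jPair h hn₁ R.b_ne hcb (by omega : n₁ ≤ n) hk
    exact ⟨x, hx, R.hasRed_sec hxr⟩
  exact ⟨hd, hg, jPair_zero (A := A) (p := p) ▸ hsec 0 (Nat.zero_le n), hsec n le_rfl⟩

variable (h) in
/-- The pair is a function modulo `λ` times pairs with trivial reduction. -/
def IsStrict (n : ℕ) (z : Fin 2 → LSer) : Prop :=
  ∃ v ∈ HN M p n, ∃ e, HasRed A e 0 ∧ z = emb h v + cc ((lam hζ : A) : QBar) * e

include hζ in
theorem exists_strict_approx {n : ℕ} (hn : Deep h n) {z : Fin 2 → LSer}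
    {rz : Fin 2 → LaurentSeries (Res A)} (hz : HasRed A z rz) (hrz : rz ∈ Bn A M p h.hqM n)
    {F : FB (p * M)} (hF : F ∈ HN M p (p * n)) (hzp : z ^ p = emb h F) (hs : IsStrict h hζ n z)
    (hne : ∀ v ∈ HN M p n, emb h v ≠ z) :
    ∃ (v : FB (p * M)) (k : A) (w : Fin 2 → LSer) (r : Fin 2 → LaurentSeries (Res A)),
      v ∈ HN M p n ∧ (k : QBar) ≠ 0 ∧ HasRed A (emb h v) rz ∧
        HasRed A w r ∧ r ∉ Bn A M p h.hqM n ∧ z = emb h v + cc ((lam hζ * k : A) : QBar) * w ∧
        rz ^ (p - 1) * r ∈ Bn A M p h.hqM (p * n) := by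
  obtain ⟨v, c, w, r, hv, hc0, hc, hvr, hw, hr, hze⟩ := exists_approx h hz hrz hne
  obtain ⟨k, rfl⟩ := lam_dvd_of_pow h hζ hn hF hzp hv hc0 hc hvr hw hr hze
  have hk0 : (k : QBar) ≠ 0 := fun h0 => hc0 (by rw [MulMemClass.coe_mul, h0, mul_zero])
  have hk : IsLocalRing.residue A k = 0 := by
    by_contra hk
    obtain ⟨u, rfl⟩ := (IsLocalRing.residue_ne_zero_iff_isUnit k).mp hk
    obtain ⟨v', hv', e, he, hze'⟩ := hs
    refine hr (mem_Bn_of_hasRed h (x := algebraMap QBar _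
      ((lam hζ * (u : A) : A) : QBar)⁻¹ * (v' - v)) ?_ ?_)
    · rw [← Algebra.smul_def]
      exact Submodule.smul_mem _ _ (sub_mem hv' hv)
    · have h1 := hw.sub ((HasRed.cc (c := (((u⁻¹ : Aˣ) : A) : QBar)) ((u⁻¹ : Aˣ) : A).2).mul he)
      rw [mul_zero, sub_zero] at h1
      refine h1.congr ?_ rfl
      have h2 : cc ((lam hζ * (u : A) : A) : QBar)⁻¹ * cc ((lam hζ * (u : A) : A) : QBar) = 1 := by
        rw [← map_mul, inv_mul_cancel₀ hc0, map_one]
      have h3 : cc ((lam hζ * (u : A) : A) : QBar) * cc (((u⁻¹ : Aˣ) : A) : QBar) =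
          cc ((lam hζ : A) : QBar) := by
        rw [← map_mul, ← MulMemClass.coe_mul, mul_assoc, Units.mul_inv, mul_one]
      rw [map_mul, map_sub, emb_algebraMap]
      linear_combination cc ((lam hζ * (u : A) : A) : QBar)⁻¹ * (hze' - hze) -
        (w - cc (((u⁻¹ : Aˣ) : A) : QBar) * e) * h2 -
        cc ((lam hζ * (u : A) : A) : QBar)⁻¹ * e * h3
  exact ⟨v, k, w, r, hv, hk0, hvr, hw, hr, hze, mul_pow_mem_Bn h hζ hF hzp hv hk0 hk hvr hw hze⟩

theorem Rooted.principal_of_sec_eq {σ v : FB (p * M)} (hσ : σ ≠ 0) (he : emb h v = R.sec σ) :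
    D ∈ Divisor.principal (K := QBar) (F := FB (p * M)) := by
  have hf : R.f = (v / σ) ^ p := by
    refine mul_left_cancel₀ (pow_ne_zero p hσ) ((emb h).injective ?_)
    rw [← R.sec_pow, ← he, ← map_pow, ← mul_pow, mul_div_cancel₀ _ hσ]
  have hne : v / σ ≠ 0 := fun h0 => R.f_ne_zero (by rw [hf, h0, zero_pow hp.out.ne_zero])
  refine ⟨v / σ, hne, fun w => ?_⟩
  have := R.ord w
  rw [hf, FF.ord_pow] at this
  exact (mul_left_cancel₀ (by exact_mod_cast hp.out.ne_zero) this).symm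

include hζ in
/-- **If both sections are functions deeper than `λ`, the class is trivial.** -/
theorem Rooted.principal_of_strict {n : ℕ} (hn : R.Sections n)
    {σ τ : FB (p * M)} (hσD : σ ∈ HD M p D n) (hτD : τ ∈ HD M p D n)
    (hσ : HasRed A (R.sec σ) 1) (hτ : HasRed A (R.sec τ) (jPair A p n))
    (hσs : IsStrict h hζ n (R.sec σ)) (hτs : IsStrict h hζ n (R.sec τ)) :
    D ∈ Divisor.principal (K := QBar) (F := FB (p * M)) := by
  by_contra hnp
  have hj : jqModC (Res A) ≠ 0 := jqModC_ne_zero_of_nontrivial _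
  have hne : ∀ (x : FB (p * M)) (r : Fin 2 → LaurentSeries (Res A)), HasRed A (R.sec x) r →
      r 0 ≠ 0 → x ≠ 0 := by
    rintro x r hx hr rfl
    obtain ⟨h1, h2⟩ := hx 0
    rw [redL_congr h1 (zero_mem _) (by rw [Rooted.sec, map_zero, zero_mul]; rfl)] at h2
    exact hr (h2.symm.trans (map_zero _))
  have hσ0 := hne σ _ hσ one_ne_zero
  have hτ0 := hne τ _ hτ (pow_ne_zero _ hj)
  obtain ⟨v, k, w, r, hv, hk, hvr, hw, hr, hze, hb⟩ := exists_strict_approx hζ hn.deep hσ
    (h.one_mem_Bn n) (pow_mul_mem_HN hσD R.ord) (R.sec_pow σ) hσs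
    fun v _ e => hnp (R.principal_of_sec_eq hσ0 e)
  obtain ⟨v', k', w', r', hv', hk', hvr', hw', hr', hze', hb'⟩ := exists_strict_approx hζ hn.deep hτ
    (jPair_mem_Bn h n) (pow_mul_mem_HN hτD R.ord) (R.sec_pow τ) hτs
    fun v _ e => hnp (R.principal_of_sec_eq hτ0 e)
  rw [one_pow, one_mul] at hb
  rw [jPair_pow] at hb'
  set u := σ * v' - τ * v
  have hu : u ∈ HD M p D (n + n) := by
    rw [← HD_zero] at hv hv'
    have h1 := mul_mem_HD hσD hv'
    have h2 := mul_mem_HD hτD hv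
    rw [add_zero] at h1 h2
    exact sub_mem h1 h2
  have hus : R.sec u = cc ((lam hζ : A) : QBar) *
      (cc (k : QBar) * w * emb h v' - cc (k' : QBar) * w' * emb h v) := by
    simp only [MulMemClass.coe_mul, map_mul] at hze hze'
    rw [Rooted.sec] at hze hze' ⊢
    rw [map_sub, map_mul, map_mul]
    linear_combination emb h v' * hze - emb h v * hze'
  have hscale : ∀ (d : A), (d : QBar) ≠ 0 → ∀ (Y : Fin 2 → LSer) (rY : Fin 2 → LaurentSeries (Res A)),
      R.sec u = cc ((lam hζ * d : A) : QBar) * Y → HasRed A Y rY →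
        rY ∈ Bn A M p h.hqM (n + n) := by
    intro d hd Y rY hY hYr
    have hd' : ((lam hζ * d : A) : QBar) ≠ 0 := by
      rw [MulMemClass.coe_mul]; exact mul_ne_zero (lam_ne_zero hζ) hd
    refine hn.glue (n + n) (by omega) (algebraMap QBar _ ((lam hζ * d : A) : QBar)⁻¹ * u) ?_ rY ?_
    · rw [← Algebra.smul_def]
      exact Submodule.smul_mem _ _ hu
    · refine hYr.congr ?_ rfl
      rw [Rooted.sec, map_mul, emb_algebraMap, mul_assoc, ← Rooted.sec, hY, ← mul_assoc, ← map_mul,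
        inv_mul_cancel₀ hd', map_one, one_mul]
  rcases lt_or_ge (A.valuation (k' : QBar)) (A.valuation (k : QBar)) with hlt | hge
  · obtain ⟨m, rfl⟩ := dvd_of_valuation_le hk hlt.le
    have hm : IsLocalRing.residue A m = 0 := by
      by_contra hm
      obtain ⟨t, rfl⟩ := (IsLocalRing.residue_ne_zero_iff_isUnit m).mp hm
      exact hlt.not_ge (valuation_le_of_dvd ⟨((t⁻¹ : Aˣ) : A), by
        rw [mul_assoc, Units.mul_inv, mul_one]⟩)
    have h1 := hscale k hk (w * emb h v' - cc (m : QBar) * (w' * emb h v)) (r * jPair A p n) (by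
      rw [hus, MulMemClass.coe_mul, MulMemClass.coe_mul, map_mul, map_mul]; ring)
      (by
        have := (hw.mul hvr').sub ((hw'.mul hvr).mul_cc_zero hm)
        rwa [sub_zero] at this)
    rw [mul_comm] at h1
    have hrP := mem_Pk_of_jPair_mul (a' := n) (Bn_le_Pk M p h.hqM h.hA h.hM _ hb)
      (Bn_le_Pk M p h.hqM h.hA h.hM _ h1) le_rfl
    exact hr (hn.deep.descend _ (Nat.le_mul_of_pos_left n hp.out.pos) r hb hrP)
  · obtain ⟨m, rfl⟩ := dvd_of_valuation_le hk' hge
    set rm : Fin 2 → LaurentSeries (Res A) :=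
      fun _ => algebraMap (Res A) _ (IsLocalRing.residue A m)
    have h1 := hscale k' hk' (cc (m : QBar) * (w * emb h v') - w' * emb h v)
      (rm * (r * jPair A p n) - r' * 1) (by
      rw [hus, MulMemClass.coe_mul, MulMemClass.coe_mul, map_mul, map_mul]; ring)
      (((HasRed.cc m.2).mul (hw.mul hvr')).sub (hw'.mul hvr))
    rw [mul_one] at h1
    have hJr : rm * (r * jPair A p n) ∈ Bn A M p h.hqM (p * n + n) := by
      have h2 := Submodule.smul_mem _ (IsLocalRing.residue A m)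
        (h.mul_mem_Bn hb (jPair_mem_Bn h n))
      convert h2 using 1
      funext s
      rw [Pi.smul_apply, Pi.mul_apply, ← HahnSeries.C_mul_eq_smul]
      show algebraMap (Res A) _ _ * _ = _
      rw [algebraMap_laurentSeries_eq_single]
      rfl
    have hrB : r' ∈ Bn A M p h.hqM (p * n + n) := by
      have hmono : n + n ≤ p * n + n := by
        have := Nat.le_mul_of_pos_left n hp.out.pos; omega
      have := sub_mem hJr (h.Bn_mono hmono h1)
      rwa [sub_sub_cancel] at this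
    have hrP := mem_Pk_of_jPair_mul (a' := n) (Bn_le_Pk M p h.hqM h.hA h.hM _ hrB)
      (Bn_le_Pk M p h.hqM h.hA h.hM _ hb') (by
        rw [← Nat.succ_mul, Nat.succ_eq_add_one, Nat.sub_add_cancel hp.out.one_le])
    exact hr' (hn.deep.descend _ (Nat.le_add_left n (p * n)) r' hrB hrP)

end Fermat.Agent.OrdinaryAtP.Conn

end
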